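/-
GATE-B / B4 gluing, algebra half, nodes (G3)(G4) (helper15).  Mathlib only.

Adic topology lemmas for a finite extension `T ⊆ T'` of a noetherian ring:
* (G3a) `exists_pow_le_of_injective` — Artin–Rees pull-back: an injective `T`-linear map
  `φ : N → N'` into a finite module is a topological embedding for the `I`-adic topologies:
  `∀ n, ∃ m, φ x ∈ I^m N' → x ∈ I^n N`.
* (G3b) `exists_maximalIdeal_pow_le_map` — for a finite local homomorphism `χ : T → 𝒪` of local
  rings, `𝔪_𝒪 ^ e ⊆ 𝔪_T 𝒪` for some `e`.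
* (G4) `mem_range_of_forall_approx` — `T` (noetherian, `I ⊆ rad`) is CLOSED in a finite `T'`:
  `x ∈ T'` with `x ∈ T + I^n T'` for all `n` lies in `T`.
-/
import Mathlib

set_option autoImplicit false

noncomputable section

namespace Fermat.Agent.GB.Glue.Adic

/-! ### (G3a) Artin–Rees pull-back -/

section ArtinRees

variable {R : Type*} [CommRing R] [IsNoetherianRing R] (I : Ideal R)
  {N N' : Type*} [AddCommGroup N] [Module R N] [AddCommGroup N'] [Module R N']
  [Module.Finite R N']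

theorem exists_pow_le_of_injective (φ : N →ₗ[R] N') (hφ : Function.Injective φ) (n : ℕ) :
    ∃ m : ℕ, ∀ x : N, φ x ∈ (I ^ m • ⊤ : Submodule R N') → x ∈ (I ^ n • ⊤ : Submodule R N) := by
  obtain ⟨k, hk⟩ := Ideal.exists_pow_inf_eq_pow_smul I (LinearMap.range φ)
  refine ⟨n + k, fun x hx => ?_⟩
  have h1 : φ x ∈ (I ^ (n + k) • ⊤ ⊓ LinearMap.range φ : Submodule R N') :=
    ⟨hx, LinearMap.mem_range_self φ x⟩
  rw [hk (n + k) (Nat.le_add_left k n), Nat.add_sub_cancel] at h1
  have h2 : (I ^ n • (I ^ k • ⊤ ⊓ LinearMap.range φ) : Submodule R N') ≤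
      Submodule.map φ (I ^ n • ⊤) := by
    rw [Submodule.map_smul'', Submodule.map_top]
    exact Submodule.smul_mono le_rfl inf_le_right
  obtain ⟨y, hy, hyx⟩ := h2 h1
  rw [← hφ hyx]
  exact hy

end ArtinRees

/-! ### (G4) closedness -/

section Closed

variable {R : Type*} [CommRing R] [IsNoetherianRing R] (I : Ideal R)
  {N' : Type*} [AddCommGroup N'] [Module R N'] [Module.Finite R N']

/-- A submodule of a finite module over a noetherian ring is closed for the `I`-adic topology
(`I` in the Jacobson radical). -/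
theorem mem_of_forall_approx (hI : I ≤ Ideal.jacobson ⊥) (P : Submodule R N') (x : N')
    (hx : ∀ n : ℕ, ∃ y ∈ P, x - y ∈ (I ^ n • ⊤ : Submodule R N')) : x ∈ P := by
  have h0 : P.mkQ x ∈ (⨅ i : ℕ, I ^ i • ⊤ : Submodule R (N' ⧸ P)) := by
    rw [Submodule.mem_iInf]
    intro n
    obtain ⟨y, hy, hxy⟩ := hx n
    have h1 : P.mkQ x = P.mkQ (x - y) := by
      rw [map_sub, Submodule.mkQ_apply P y, (Submodule.Quotient.mk_eq_zero P).2 hy, sub_zero]
    rw [h1]
    have h2 : Submodule.map P.mkQ (I ^ n • ⊤) ≤ (I ^ n • ⊤ : Submodule R (N' ⧸ P)) := by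
      rw [Submodule.map_smul'']
      exact Submodule.smul_mono le_rfl le_top
    exact h2 ⟨_, hxy, rfl⟩
  rw [Ideal.iInf_pow_smul_eq_bot_of_le_jacobson I hI, Submodule.mem_bot] at h0
  exact (Submodule.Quotient.mk_eq_zero P).1 h0

/-- (G4) `T` is closed in a finite `T`-algebra `T'`. -/
theorem mem_range_of_forall_approx {T' : Type*} [CommRing T'] [Algebra R T'] [Module.Finite R T']
    (hI : I ≤ Ideal.jacobson ⊥) (x : T')
    (hx : ∀ n : ℕ, ∃ t : R, x - algebraMap R T' t ∈ (I ^ n • ⊤ : Submodule R T')) :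
    ∃ t : R, algebraMap R T' t = x := by
  have := mem_of_forall_approx I hI (LinearMap.range (Algebra.linearMap R T')) x (fun n => by
    obtain ⟨t, ht⟩ := hx n
    exact ⟨algebraMap R T' t, ⟨t, rfl⟩, ht⟩)
  obtain ⟨t, ht⟩ := this
  exact ⟨t, ht⟩

end Closed

/-! ### (G3b) finite local homomorphisms -/

section FiniteLocal

variable {T : Type*} [CommRing T] [IsLocalRing T] {O : Type*} [CommRing O] [IsLocalRing O]
  [Algebra T O] [Module.Finite T O] [IsLocalHom (algebraMap T O)]

omit [Module.Finite T O] in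
theorem map_maximalIdeal_le :
    (IsLocalRing.maximalIdeal T).map (algebraMap T O) ≤ IsLocalRing.maximalIdeal O :=
  ((IsLocalRing.local_hom_TFAE (algebraMap T O)).out 0 2).mp ‹_›

omit [IsLocalHom (algebraMap T O)] in
/-- (G3b) For a finite homomorphism `T → O` of local rings, a power of `𝔪_O` lies in `𝔪_T O`. -/
theorem exists_maximalIdeal_pow_le_map :
    ∃ e : ℕ, IsLocalRing.maximalIdeal O ^ e ≤
      (IsLocalRing.maximalIdeal T).map (algebraMap T O) := by
  set p := IsLocalRing.maximalIdeal T with hp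
  set J := p.map (algebraMap T O) with hJ
  let _ : Field (T ⧸ p) := Ideal.Quotient.field p
  have : Module.Finite (T ⧸ p) (O ⧸ J) :=
    Module.Finite.of_restrictScalars_finite T (T ⧸ p) (O ⧸ J)
  have : IsArtinianRing (O ⧸ J) := IsArtinianRing.of_finite (T ⧸ p) (O ⧸ J)
  obtain ⟨e, he⟩ := IsArtinianRing.isNilpotent_jacobson_bot (R := O ⧸ J)
  refine ⟨e, fun x hx => ?_⟩
  have h1 : (IsLocalRing.maximalIdeal O).map (Ideal.Quotient.mk J) ≤
      Ideal.jacobson (⊥ : Ideal (O ⧸ J)) := by
    rw [Ideal.jacobson, le_sInf_iff]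
    rintro M ⟨-, hM⟩
    rw [Ideal.map_le_iff_le_comap]
    have := Ideal.comap_isMaximal_of_surjective (Ideal.Quotient.mk J)
      Ideal.Quotient.mk_surjective (K := M)
    exact (IsLocalRing.eq_maximalIdeal (I := M.comap (Ideal.Quotient.mk J)) inferInstance).ge
  have h2 : Ideal.Quotient.mk J x ∈ ((IsLocalRing.maximalIdeal O).map (Ideal.Quotient.mk J)) ^ e := by
    rw [← Ideal.map_pow]
    exact Ideal.mem_map_of_mem _ hx
  have h3 := Ideal.pow_right_mono h1 e h2
  rw [he, Ideal.zero_eq_bot, Ideal.mem_bot] at h3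
  exact Ideal.Quotient.eq_zero_iff_mem.1 h3

end FiniteLocal

/-! ### `I • ⊤` in matrices and products -/

section SmulTop

variable {R : Type*} [CommRing R] (I : Ideal R)

theorem map_mem_smul_top {N₁ N₂ : Type*} [AddCommGroup N₁] [Module R N₁] [AddCommGroup N₂]
    [Module R N₂] (f : N₁ →ₗ[R] N₂) {x : N₁} (hx : x ∈ (I • ⊤ : Submodule R N₁)) :
    f x ∈ (I • ⊤ : Submodule R N₂) := by
  have h : Submodule.map f (I • ⊤) ≤ (I • ⊤ : Submodule R N₂) := by
    rw [Submodule.map_smul'']
    exact Submodule.smul_mono le_rfl le_top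
  exact h ⟨x, hx, rfl⟩

theorem matrix_mem_smul_top_iff {A : Type*} [AddCommGroup A] [Module R A] {n : Type*} [Fintype n]
    [DecidableEq n] (M : Matrix n n A) :
    M ∈ (I • ⊤ : Submodule R (Matrix n n A)) ↔ ∀ a b, M a b ∈ (I • ⊤ : Submodule R A) := by
  constructor
  · intro h a b
    exact map_mem_smul_top I (Matrix.entryLinearMap R A a b) h
  · intro h
    rw [Matrix.matrix_eq_sum_single M]
    refine Submodule.sum_mem _ fun a _ => Submodule.sum_mem _ fun b _ => ?_
    exact map_mem_smul_top I (Matrix.singleLinearMap R a b) (h a b)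

theorem pi_mem_smul_top_iff {ι : Type*} [Fintype ι] [DecidableEq ι] {N : ι → Type*}
    [∀ i, AddCommGroup (N i)] [∀ i, Module R (N i)] (x : ∀ i, N i) :
    x ∈ (I • ⊤ : Submodule R (∀ i, N i)) ↔ ∀ i, x i ∈ (I • ⊤ : Submodule R (N i)) := by
  constructor
  · intro h i
    exact map_mem_smul_top I (LinearMap.proj i) h
  · intro h
    rw [← Finset.univ_sum_single x]
    refine Submodule.sum_mem _ fun i _ => ?_
    exact map_mem_smul_top I (LinearMap.single R N i) (h i)

theorem mem_smul_top_iff_mem_map {O : Type*} [CommRing O] [Algebra R O] (c : O) :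
    c ∈ (I • ⊤ : Submodule R O) ↔ c ∈ I.map (algebraMap R O) := by
  rw [Ideal.smul_top_eq_map, Submodule.restrictScalars_mem]

theorem mem_smul_top_self_iff (c : R) : c ∈ (I • ⊤ : Submodule R R) ↔ c ∈ I := by
  rw [smul_eq_mul, Ideal.mul_top]

end SmulTop

end Fermat.Agent.GB.Glue.Adic
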