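/-
GATE-B / GB-GLUE-POINTS (helper83), file 1: **finite extensions of a complete discrete valuation
ring** (Mathlib + GJ/Tate/{AdicFree, AdicDVR}).

For a complete DVR `𝒪` of characteristic 0 with fraction field `K` and a finite extension `L / K`,
the integral closure `C = integralClosure 𝒪 L` is a complete discrete valuation ring, finite and
free over `𝒪`, with `𝒪 → C` local; its residue field is finite when that of `𝒪` is.

Key step (`isLocalRing_of_isAdicComplete_of_isArtinianRing`): a DOMAIN which is `I`-adically
complete with artinian `C ⧸ I` is local (idempotents of `C ⧸ I` lift by Hensel for `X² - X`).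
-/
import Mathlib
import Fermat.Agent.GJ.Tate.AdicFree
import Fermat.Agent.GJ.Tate.AdicDVR

set_option autoImplicit false
set_option linter.unusedSectionVars false
set_option linter.style.haveILetI false

open IsLocalRing Polynomial

namespace Fermat.Agent.GB.Glue.DvrExt

section Complete

variable {R : Type*} [CommRing R] (I : Ideal R) (C : Type*) [CommRing C] [Algebra R C]

/-- `I`-adic completeness of an `R`-algebra as a module is `IC`-adic completeness as a ring -/
theorem isAdicComplete_map_of_module [IsAdicComplete I C] :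
    IsAdicComplete (I.map (algebraMap R C)) C := by
  have hset : ∀ n : ℕ, ∀ x : C, x ∈ ((I.map (algebraMap R C)) ^ n • ⊤ : Submodule C C) ↔
      x ∈ (I ^ n • ⊤ : Submodule R C) := by
    intro n x
    rw [← Ideal.map_pow, smul_eq_mul, Ideal.mul_top, Ideal.smul_top_eq_map]
    rfl
  have hH : IsHausdorff (I.map (algebraMap R C)) C := by
    refine ⟨fun x hx => ?_⟩
    refine IsHausdorff.haus (inferInstance : IsHausdorff I C) x fun n => ?_
    have := hx n
    rw [SModEq.sub_mem] at this ⊢
    exact (hset n _).1 this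
  have hP : IsPrecomplete (I.map (algebraMap R C)) C := by
    refine ⟨fun f hf => ?_⟩
    obtain ⟨L, hL⟩ := IsPrecomplete.prec (inferInstance : IsPrecomplete I C) (f := f)
      (fun {m n} hmn => by
        have := hf hmn
        rw [SModEq.sub_mem] at this ⊢
        exact (hset m _).1 this)
    refine ⟨L, fun n => ?_⟩
    have := hL n
    rw [SModEq.sub_mem] at this ⊢
    exact (hset n _).2 this
  exact { toIsHausdorff := hH, toIsPrecomplete := hP }

end Complete

section ChangeIdeal

variable {R : Type*} [CommRing R] {M : Type*} [AddCommGroup M] [Module R M]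

/-- if `J ≤ I` and `I ^ k ≤ J`, `J`-adic completeness implies `I`-adic completeness -/
theorem isAdicComplete_of_le_of_pow_le' {I J : Ideal R} (hJI : J ≤ I) {k : ℕ} (hk : k ≠ 0)
    (h : I ^ k ≤ J) [IsAdicComplete J M] : IsAdicComplete I M := by
  have hle : ∀ n : ℕ, (I ^ (k * n) • ⊤ : Submodule R M) ≤ J ^ n • ⊤ := fun n => by
    rw [pow_mul]
    exact Submodule.smul_mono (Ideal.pow_right_mono h n) le_rfl
  have hle' : ∀ n : ℕ, (J ^ n • ⊤ : Submodule R M) ≤ I ^ n • ⊤ := fun n =>
    Submodule.smul_mono (Ideal.pow_right_mono hJI n) le_rfl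
  have hkn : ∀ n : ℕ, n ≤ k * n := fun n => Nat.le_mul_of_pos_left n (Nat.pos_of_ne_zero hk)
  have hH : IsHausdorff I M := by
    refine ⟨fun x hx => ?_⟩
    refine IsHausdorff.haus (inferInstance : IsHausdorff J M) x fun n => ?_
    exact SModEq.mono (hle n) (hx (k * n))
  have hP : IsPrecomplete I M := by
    refine ⟨fun f hf => ?_⟩
    obtain ⟨L, hL⟩ := IsPrecomplete.prec (inferInstance : IsPrecomplete J M)
      (f := fun n => f (k * n))
      (fun {m n} hmn => SModEq.mono (hle m) (hf (Nat.mul_le_mul_left k hmn)))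
    refine ⟨L, fun n => ?_⟩
    have h1 : f n ≡ f (k * n) [SMOD (I ^ n • ⊤ : Submodule R M)] := hf (hkn n)
    have h2 : f (k * n) ≡ L [SMOD (I ^ n • ⊤ : Submodule R M)] := SModEq.mono (hle' n) (hL n)
    exact h1.trans h2
  exact { toIsHausdorff := hH, toIsPrecomplete := hP }

end ChangeIdeal

section Local

variable {C : Type*} [CommRing C]

/-- idempotents of `C ⧸ I` lift to `C` when `C` is `I`-adically complete (Hensel for `X² - X`) -/
theorem exists_isIdempotentElem_lift (I : Ideal C) [IsAdicComplete I C] (a : C)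
    (ha : a * a - a ∈ I) : ∃ e : C, IsIdempotentElem e ∧ e - a ∈ I := by
  have hmonic : (X ^ 2 - X : C[X]).Monic := by
    nontriviality C
    exact monic_X_pow_sub (by simp [degree_X]) 
  have heval : (X ^ 2 - X : C[X]).eval a ∈ I := by
    simpa [pow_two] using ha
  have hder : IsUnit (Ideal.Quotient.mk I ((X ^ 2 - X : C[X]).derivative.eval a)) := by
    have h1 : (X ^ 2 - X : C[X]).derivative.eval a = 2 * a - 1 := by
      simp
      ring
    rw [h1]
    refine IsUnit.of_mul_eq_one (Ideal.Quotient.mk I (2 * a - 1)) ?_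
    rw [← map_mul, ← map_one (Ideal.Quotient.mk I), Ideal.Quotient.eq]
    have : (2 * a - 1) * (2 * a - 1) - 1 = 4 * (a * a - a) := by ring
    rw [this]
    exact I.mul_mem_left _ ha
  obtain ⟨e, he, hea⟩ := HenselianRing.is_henselian (I := I) _ hmonic a heval hder
  refine ⟨e, ?_, hea⟩
  have : e ^ 2 - e = 0 := by simpa [IsRoot] using he
  rw [IsIdempotentElem]
  linear_combination this

end Local

section Art

/-- an artinian ring with only trivial idempotents has at most one maximal ideal -/
theorem subsingleton_maximalSpectrum_of_idempotents (A : Type*) [CommRing A] [IsArtinianRing A]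
    (h : ∀ e : A, IsIdempotentElem e → e = 0 ∨ e = 1) : Subsingleton (MaximalSpectrum A) := by
  classical
  refine ⟨fun M₁ M₂ => ?_⟩
  by_contra hne
  let φ := IsArtinianRing.quotNilradicalEquivPi A
  let ε : ∀ M : MaximalSpectrum A, A ⧸ M.asIdeal := Pi.single M₁ 1
  have hε : IsIdempotentElem ε := by
    show ε * ε = ε
    funext M
    by_cases hM : M = M₁
    · subst hM
      simp [ε]
    · simp [ε, Pi.single_eq_of_ne hM]
  have hε' : IsIdempotentElem (φ.symm ε) := by
    show φ.symm ε * φ.symm ε = φ.symm ε
    rw [← map_mul, hε.eq]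
  obtain ⟨e, he, hfe⟩ := exists_isIdempotentElem_eq_of_ker_isNilpotent
    (Ideal.Quotient.mk (nilradical A))
    (fun x hx => by
      rw [Ideal.mk_ker] at hx
      exact mem_nilradical.1 hx)
    (φ.symm ε) (by
      obtain ⟨y, hy⟩ := Ideal.Quotient.mk_surjective (I := nilradical A) (φ.symm ε)
      exact ⟨y, hy⟩) hε'
  have h1 : ∀ M : MaximalSpectrum A, Nontrivial (A ⧸ M.asIdeal) := fun M =>
    Ideal.Quotient.nontrivial_iff.2 M.isMaximal.ne_top
  rcases h e he with rfl | rfl
  · have : ε = 0 := by
      have := congrArg φ hfe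
      rw [map_zero, map_zero, AlgEquiv.apply_symm_apply] at this
      exact this.symm
    have h2 := congrFun this M₁
    simp only [ε, Pi.single_eq_same, Pi.zero_apply] at h2
    exact one_ne_zero h2
  · have : ε = 1 := by
      have := congrArg φ hfe
      rw [map_one, map_one, AlgEquiv.apply_symm_apply] at this
      exact this.symm
    have h2 := congrFun this M₂
    simp only [ε, Pi.single_eq_of_ne (Ne.symm hne), Pi.one_apply] at h2
    exact zero_ne_one h2

end Art

section LocalOfComplete

/-- a domain which is `I`-adically complete with artinian quotient `C ⧸ I` is local -/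
theorem isLocalRing_of_isAdicComplete_of_isArtinianRing {C : Type*} [CommRing C] [IsDomain C]
    (I : Ideal C) [IsAdicComplete I C] [IsArtinianRing (C ⧸ I)] : IsLocalRing C := by
  have hidem : ∀ e : C ⧸ I, IsIdempotentElem e → e = 0 ∨ e = 1 := by
    intro e he
    obtain ⟨a, rfl⟩ := Ideal.Quotient.mk_surjective e
    have ha : a * a - a ∈ I := by
      rw [← Ideal.Quotient.eq, map_mul]
      exact he
    obtain ⟨e', he', hea⟩ := exists_isIdempotentElem_lift I a ha
    have hmk : Ideal.Quotient.mk I a = Ideal.Quotient.mk I e' := by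
      rw [eq_comm, Ideal.Quotient.eq]
      exact hea
    rcases IsIdempotentElem.iff_eq_zero_or_one.1 he' with h0 | h1
    · left; rw [hmk, h0, map_zero]
    · right; rw [hmk, h1, map_one]
  have hsub := subsingleton_maximalSpectrum_of_idempotents (C ⧸ I) hidem
  have hjac : ∀ M : Ideal C, M.IsMaximal → I ≤ M := by
    intro M hM
    refine (IsAdicComplete.le_jacobson_bot I).trans ?_
    exact sInf_le ⟨bot_le, hM⟩
  refine IsLocalRing.of_unique_max_ideal ?_
  obtain ⟨M, hM⟩ := Ideal.exists_maximal C
  refine ⟨M, hM, fun M' hM' => ?_⟩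
  have hker : ∀ M : Ideal C, M.IsMaximal → RingHom.ker (Ideal.Quotient.mk I) ≤ M := by
    intro M hM
    rw [Ideal.mk_ker]
    exact hjac M hM
  have hcomap : ∀ M : Ideal C, M.IsMaximal →
      (M.map (Ideal.Quotient.mk I)).comap (Ideal.Quotient.mk I) = M := by
    intro M hM
    rw [Ideal.comap_map_of_surjective _ Ideal.Quotient.mk_surjective, ← RingHom.ker_eq_comap_bot,
      sup_eq_left]
    exact hker M hM
  have hmax : ∀ M : Ideal C, M.IsMaximal → (M.map (Ideal.Quotient.mk I)).IsMaximal := by
    intro M hM
    rcases Ideal.map_eq_top_or_isMaximal_of_surjective (Ideal.Quotient.mk I)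
      Ideal.Quotient.mk_surjective hM with h | h
    · exfalso
      have := hcomap M hM
      rw [h, Ideal.comap_top] at this
      exact hM.ne_top this.symm
    · exact h
  have heq : (⟨_, hmax M hM⟩ : MaximalSpectrum (C ⧸ I)) = ⟨_, hmax M' hM'⟩ := Subsingleton.elim _ _
  have heq' : M.map (Ideal.Quotient.mk I) = M'.map (Ideal.Quotient.mk I) :=
    congrArg MaximalSpectrum.asIdeal heq
  rw [← hcomap M hM, ← hcomap M' hM', heq']

end LocalOfComplete

section Ext

variable (𝒪 : Type*) [CommRing 𝒪] [IsDomain 𝒪] [IsDiscreteValuationRing 𝒪]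
  [IsAdicComplete (maximalIdeal 𝒪) 𝒪]
  (K : Type*) [Field K] [Algebra 𝒪 K] [IsFractionRing 𝒪 K] [CharZero K]
  (L : Type*) [Field L] [Algebra K L] [Algebra 𝒪 L] [IsScalarTower 𝒪 K L] [FiniteDimensional K L]

include K

theorem isSeparable : Algebra.IsSeparable K L := Algebra.IsAlgebraic.isSeparable_of_perfectField

theorem finite_integralClosure : Module.Finite 𝒪 (integralClosure 𝒪 L) :=
  have := isSeparable K L
  IsIntegralClosure.finite 𝒪 K L (integralClosure 𝒪 L)

theorem isTorsionFree_L : Module.IsTorsionFree 𝒪 L := .trans_faithfulSMul 𝒪 K L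

theorem free_integralClosure : Module.Free 𝒪 (integralClosure 𝒪 L) :=
  have := isSeparable K L
  have := isTorsionFree_L 𝒪 K L
  IsIntegralClosure.module_free 𝒪 K L (integralClosure 𝒪 L)

theorem isDedekindDomain_integralClosure : IsDedekindDomain (integralClosure 𝒪 L) :=
  have := isSeparable K L
  integralClosure.isDedekindDomain 𝒪 K L

/-- `C` is `𝔪C`-adically complete -/
theorem isAdicComplete_map_integralClosure :
    IsAdicComplete ((maximalIdeal 𝒪).map (algebraMap 𝒪 (integralClosure 𝒪 L)))
      (integralClosure 𝒪 L) := by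
  have := finite_integralClosure 𝒪 K L
  have := free_integralClosure 𝒪 K L
  have : IsAdicComplete (maximalIdeal 𝒪) (integralClosure 𝒪 L) :=
    Fermat.Agent.GJ.Tate.Lim.isAdicComplete_of_finite_free (maximalIdeal 𝒪) _
  exact isAdicComplete_map_of_module (maximalIdeal 𝒪) (integralClosure 𝒪 L)

attribute [local instance] Ideal.Quotient.field in
theorem isArtinianRing_quotient :
    IsArtinianRing (integralClosure 𝒪 L ⧸
      (maximalIdeal 𝒪).map (algebraMap 𝒪 (integralClosure 𝒪 L))) := by
  have := finite_integralClosure 𝒪 K L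
  have : Module.Finite (𝒪 ⧸ maximalIdeal 𝒪) (integralClosure 𝒪 L ⧸
      (maximalIdeal 𝒪).map (algebraMap 𝒪 (integralClosure 𝒪 L))) :=
    Module.Finite.of_restrictScalars_finite 𝒪 _ _
  exact IsArtinianRing.of_finite (𝒪 ⧸ maximalIdeal 𝒪) _

/-- **the integral closure of a complete DVR in a finite extension is local** -/
theorem isLocalRing_integralClosure : IsLocalRing (integralClosure 𝒪 L) := by
  have := isAdicComplete_map_integralClosure 𝒪 K L
  have := isArtinianRing_quotient 𝒪 K L
  exact isLocalRing_of_isAdicComplete_of_isArtinianRing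
    ((maximalIdeal 𝒪).map (algebraMap 𝒪 (integralClosure 𝒪 L)))

theorem not_isField_integralClosure : ¬ IsField (integralClosure 𝒪 L) := by
  intro h
  have hinj : Function.Injective (algebraMap 𝒪 (integralClosure 𝒪 L)) := by
    have := isTorsionFree_L 𝒪 K L
    have h1 : Function.Injective (algebraMap 𝒪 L) := FaithfulSMul.algebraMap_injective 𝒪 L
    intro a b hab
    apply h1
    have := congrArg (algebraMap (integralClosure 𝒪 L) L) hab
    simpa [← IsScalarTower.algebraMap_apply] using this
  have : Algebra.IsIntegral 𝒪 (integralClosure 𝒪 L) := IsIntegralClosure.isIntegral_algebra 𝒪 L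
  exact IsDiscreteValuationRing.not_isField 𝒪 (isField_of_isIntegral_of_isField hinj h)

/-- **the integral closure of a complete DVR in a finite extension is a DVR** -/
theorem isDiscreteValuationRing_integralClosure :
    IsDiscreteValuationRing (integralClosure 𝒪 L) := by
  have := isLocalRing_integralClosure 𝒪 K L
  have hD := isDedekindDomain_integralClosure 𝒪 K L
  exact ((IsDiscreteValuationRing.TFAE (integralClosure 𝒪 L)
    (not_isField_integralClosure 𝒪 K L)).out 2 0).mp hD

theorem map_maximalIdeal_le :
    haveI := isLocalRing_integralClosure 𝒪 K L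
    (maximalIdeal 𝒪).map (algebraMap 𝒪 (integralClosure 𝒪 L)) ≤
      maximalIdeal (integralClosure 𝒪 L) := by
  haveI := isLocalRing_integralClosure 𝒪 K L
  have := isAdicComplete_map_integralClosure 𝒪 K L
  rw [← IsLocalRing.jacobson_eq_maximalIdeal (⊥ : Ideal (integralClosure 𝒪 L)) bot_ne_top]
  exact IsAdicComplete.le_jacobson_bot _

theorem algebraMap_integralClosure_injective :
    Function.Injective (algebraMap 𝒪 (integralClosure 𝒪 L)) := by
  have := isTorsionFree_L 𝒪 K L
  have h1 : Function.Injective (algebraMap 𝒪 L) := FaithfulSMul.algebraMap_injective 𝒪 L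
  intro a b hab
  apply h1
  have := congrArg (algebraMap (integralClosure 𝒪 L) L) hab
  simpa [← IsScalarTower.algebraMap_apply] using this

/-- **the integral closure of a complete DVR in a finite extension is complete** -/
theorem isAdicComplete_integralClosure :
    haveI := isLocalRing_integralClosure 𝒪 K L
    IsAdicComplete (maximalIdeal (integralClosure 𝒪 L)) (integralClosure 𝒪 L) := by
  have := isLocalRing_integralClosure 𝒪 K L
  have := isDiscreteValuationRing_integralClosure 𝒪 K L
  have := isAdicComplete_map_integralClosure 𝒪 K L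
  have hle := map_maximalIdeal_le 𝒪 K L
  -- `𝔪C` is a nonzero ideal of the DVR `C`, hence a power of its maximal ideal
  have hne : (maximalIdeal 𝒪).map (algebraMap 𝒪 (integralClosure 𝒪 L)) ≠ ⊥ := by
    intro h
    obtain ⟨ϖ, hϖ⟩ := IsDiscreteValuationRing.exists_irreducible 𝒪
    have hm : ϖ ∈ maximalIdeal 𝒪 := by
      rw [IsLocalRing.mem_maximalIdeal, mem_nonunits_iff]
      exact hϖ.not_isUnit
    have : algebraMap 𝒪 (integralClosure 𝒪 L) ϖ ∈
        (maximalIdeal 𝒪).map (algebraMap 𝒪 (integralClosure 𝒪 L)) := Ideal.mem_map_of_mem _ hm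
    rw [h, Ideal.mem_bot] at this
    have h0 : ϖ = 0 := algebraMap_integralClosure_injective 𝒪 K L (by rw [this, map_zero])
    exact hϖ.ne_zero h0
  obtain ⟨π, hπ⟩ := IsDiscreteValuationRing.exists_irreducible (integralClosure 𝒪 L)
  obtain ⟨e, he⟩ := IsDiscreteValuationRing.ideal_eq_span_pow_irreducible hne hπ
  have hM : maximalIdeal (integralClosure 𝒪 L) = Ideal.span {π} :=
    (IsDiscreteValuationRing.irreducible_iff_uniformizer π).mp hπ
  have he0 : e ≠ 0 := by
    rintro rfl
    rw [pow_zero, Ideal.span_singleton_one] at he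
    rw [he] at hle
    exact (IsLocalRing.maximalIdeal.isMaximal (integralClosure 𝒪 L)).ne_top (top_le_iff.1 hle)
  refine isAdicComplete_of_le_of_pow_le' hle he0 ?_
  rw [he, hM, Ideal.span_singleton_pow]

attribute [local instance] Ideal.Quotient.field in
/-- the residue field of the integral closure is finite when that of `𝒪` is -/
theorem finite_residueField_integralClosure [Finite (ResidueField 𝒪)] :
    haveI := isLocalRing_integralClosure 𝒪 K L
    Finite (ResidueField (integralClosure 𝒪 L)) := by
  haveI := isLocalRing_integralClosure 𝒪 K L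
  have := finite_integralClosure 𝒪 K L
  have hfin : Module.Finite (𝒪 ⧸ maximalIdeal 𝒪) (integralClosure 𝒪 L ⧸
      (maximalIdeal 𝒪).map (algebraMap 𝒪 (integralClosure 𝒪 L))) :=
    Module.Finite.of_restrictScalars_finite 𝒪 _ _
  have hk : Finite (𝒪 ⧸ maximalIdeal 𝒪) := ‹Finite (ResidueField 𝒪)›
  have : Finite (integralClosure 𝒪 L ⧸
      (maximalIdeal 𝒪).map (algebraMap 𝒪 (integralClosure 𝒪 L))) :=
    Module.finite_of_finite (𝒪 ⧸ maximalIdeal 𝒪)
  exact Finite.of_surjective _ (Ideal.Quotient.factor_surjective (map_maximalIdeal_le 𝒪 K L))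

theorem isLocalHom_algebraMap_integralClosure :
    haveI := isLocalRing_integralClosure 𝒪 K L
    IsLocalHom (algebraMap 𝒪 (integralClosure 𝒪 L)) := by
  haveI := isLocalRing_integralClosure 𝒪 K L
  refine ⟨fun a ha => ?_⟩
  by_contra hna
  have hm : a ∈ maximalIdeal 𝒪 := hna
  have : algebraMap 𝒪 (integralClosure 𝒪 L) a ∈ maximalIdeal (integralClosure 𝒪 L) :=
    map_maximalIdeal_le 𝒪 K L (Ideal.mem_map_of_mem _ hm)
  exact this ha

theorem charZero_integralClosure : CharZero (integralClosure 𝒪 L) := by
  have : CharZero L := charZero_of_injective_algebraMap (algebraMap K L).injective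
  refine ⟨fun m n h => Nat.cast_injective (R := L) ?_⟩
  have := congrArg (algebraMap (integralClosure 𝒪 L) L) h
  simpa using this

end Ext

end Fermat.Agent.GB.Glue.DvrExt
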