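/-
GATE-B / GB-B4-POINTS (helper83), file 2: **the DVR-points of a reduced finite free algebra over a
complete DVR** (Mathlib + GB/Glue/DvrExt).

`𝒪` complete DVR of characteristic 0, `K = Frac 𝒪`, `T` a finite free `𝒪`-algebra.
* `Idx 𝒪 T` : the (finite) set of maximal ideals `q` of `K ⊗ T`;
* `Rq q` : the integral closure of `𝒪` in the residue field `(K ⊗ T) ⧸ q` — a complete DVR, finite
  free over `𝒪`, `𝒪 → Rq q` local and injective, char 0, finite residue field if `𝒪` has one;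
* `ψ q : T →ₐ[𝒪] Rq q`;
* `eq_zero_of_forall_ψ` : `T` reduced ⟹ the `ψ q` are jointly injective;
* `isLocalHom_ψ` : `T` local ⟹ every `ψ q` is a local homomorphism.
-/
import Mathlib
import Fermat.Agent.GB.Glue.DvrExt

set_option autoImplicit false
set_option linter.unusedSectionVars false

open IsLocalRing TensorProduct

namespace Fermat.Agent.GB.Glue.Points

variable (𝒪 : Type) [CommRing 𝒪] [IsDomain 𝒪]
  (T : Type) [CommRing T] [Algebra 𝒪 T]

/-- `K ⊗ T`, `K = Frac 𝒪` -/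
abbrev TK : Type := FractionRing 𝒪 ⊗[𝒪] T

/-- the index set: the maximal ideals of `K ⊗ T` -/
abbrev Idx : Type := MaximalSpectrum (TK 𝒪 T)

variable {𝒪 T}

instance isMaximal_asIdeal (q : Idx 𝒪 T) : q.asIdeal.IsMaximal := q.isMaximal

attribute [local instance] Ideal.Quotient.field

/-- the residue field of `K ⊗ T` at a maximal ideal -/
abbrev Lq (q : Idx 𝒪 T) : Type := TK 𝒪 T ⧸ q.asIdeal

instance finite_idx [Module.Finite 𝒪 T] : Finite (Idx 𝒪 T) := by
  have : IsArtinianRing (TK 𝒪 T) := IsArtinianRing.of_finite (FractionRing 𝒪) _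
  infer_instance

variable [IsDiscreteValuationRing 𝒪] [IsAdicComplete (maximalIdeal 𝒪) 𝒪] [CharZero 𝒪]
  [Module.Finite 𝒪 T]

/-- **the complete DVR attached to a maximal ideal of `K ⊗ T`** -/
def Rq (q : Idx 𝒪 T) : Type := integralClosure 𝒪 (Lq q)

noncomputable instance (q : Idx 𝒪 T) : CommRing (Rq q) :=
  inferInstanceAs (CommRing (integralClosure 𝒪 (Lq q)))

instance (q : Idx 𝒪 T) : IsDomain (Rq q) :=
  inferInstanceAs (IsDomain (integralClosure 𝒪 (Lq q)))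

noncomputable instance (q : Idx 𝒪 T) : Algebra 𝒪 (Rq q) :=
  inferInstanceAs (Algebra 𝒪 (integralClosure 𝒪 (Lq q)))

instance (q : Idx 𝒪 T) : IsLocalRing (Rq q) :=
  DvrExt.isLocalRing_integralClosure 𝒪 (FractionRing 𝒪) (Lq q)

instance (q : Idx 𝒪 T) : IsDiscreteValuationRing (Rq q) :=
  DvrExt.isDiscreteValuationRing_integralClosure 𝒪 (FractionRing 𝒪) (Lq q)

instance (q : Idx 𝒪 T) : IsAdicComplete (maximalIdeal (Rq q)) (Rq q) :=
  DvrExt.isAdicComplete_integralClosure 𝒪 (FractionRing 𝒪) (Lq q)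

instance (q : Idx 𝒪 T) : Module.Finite 𝒪 (Rq q) :=
  DvrExt.finite_integralClosure 𝒪 (FractionRing 𝒪) (Lq q)

instance (q : Idx 𝒪 T) : Module.Free 𝒪 (Rq q) :=
  DvrExt.free_integralClosure 𝒪 (FractionRing 𝒪) (Lq q)

instance (q : Idx 𝒪 T) : CharZero (Rq q) :=
  DvrExt.charZero_integralClosure 𝒪 (FractionRing 𝒪) (Lq q)

instance (q : Idx 𝒪 T) : IsLocalHom (algebraMap 𝒪 (Rq q)) :=
  DvrExt.isLocalHom_algebraMap_integralClosure 𝒪 (FractionRing 𝒪) (Lq q)

instance [Finite (ResidueField 𝒪)] (q : Idx 𝒪 T) : Finite (ResidueField (Rq q)) :=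
  DvrExt.finite_residueField_integralClosure 𝒪 (FractionRing 𝒪) (Lq q)

theorem algebraMap_Rq_injective (q : Idx 𝒪 T) : Function.Injective (algebraMap 𝒪 (Rq q)) :=
  DvrExt.algebraMap_integralClosure_injective 𝒪 (FractionRing 𝒪) (Lq q)

/-- `T → (K ⊗ T) ⧸ q` -/
noncomputable def toLq (q : Idx 𝒪 T) : T →ₐ[𝒪] Lq q :=
  (Ideal.Quotient.mkₐ 𝒪 q.asIdeal).comp Algebra.TensorProduct.includeRight

theorem toLq_apply (q : Idx 𝒪 T) (t : T) :
    toLq q t = Ideal.Quotient.mk q.asIdeal ((1 : FractionRing 𝒪) ⊗ₜ[𝒪] t) := rfl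

theorem isIntegral_toLq (q : Idx 𝒪 T) (t : T) : IsIntegral 𝒪 (toLq q t) :=
  (Algebra.IsIntegral.isIntegral (R := 𝒪) t).map (toLq q)

/-- **the point `T → Rq q`** -/
noncomputable def ψ (q : Idx 𝒪 T) : T →ₐ[𝒪] Rq q :=
  (toLq q).codRestrict (integralClosure 𝒪 (Lq q)) (isIntegral_toLq q)

/-- the inclusion `Rq q ⊆ (K ⊗ T) ⧸ q` -/
noncomputable def valRq (q : Idx 𝒪 T) : Rq q →ₐ[𝒪] Lq q := (integralClosure 𝒪 (Lq q)).val

theorem valRq_injective (q : Idx 𝒪 T) : Function.Injective (valRq q) := Subtype.val_injective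

theorem valRq_ψ (q : Idx 𝒪 T) (t : T) : valRq q (ψ q t) = toLq q t := rfl

theorem ψ_eq_zero_iff (q : Idx 𝒪 T) (t : T) :
    ψ q t = 0 ↔ ((1 : FractionRing 𝒪) ⊗ₜ[𝒪] t : TK 𝒪 T) ∈ q.asIdeal := by
  rw [← Ideal.Quotient.eq_zero_iff_mem, ← toLq_apply, ← valRq_ψ,
    map_eq_zero_iff _ (valRq_injective q)]

/-- **the points `ψ q` are jointly injective when `T` is reduced** -/
theorem eq_zero_of_forall_ψ [Module.Free 𝒪 T] [IsReduced T] {t : T}
    (h : ∀ q : Idx 𝒪 T, ψ q t = 0) : t = 0 := by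
  have : IsArtinianRing (TK 𝒪 T) := IsArtinianRing.of_finite (FractionRing 𝒪) _
  have hnil : ((1 : FractionRing 𝒪) ⊗ₜ[𝒪] t : TK 𝒪 T) ∈ nilradical (TK 𝒪 T) := by
    rw [IsArtinianRing.nilradical_eq_iInf, Ideal.mem_iInf]
    exact fun q => (ψ_eq_zero_iff q t).1 (h q)
  obtain ⟨n, hn⟩ := mem_nilradical.1 hnil
  have hinj : Function.Injective
      (Algebra.TensorProduct.includeRight : T →ₐ[𝒪] FractionRing 𝒪 ⊗[𝒪] T) :=
    Algebra.TensorProduct.includeRight_injective (IsFractionRing.injective 𝒪 (FractionRing 𝒪))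
  have h0 : t ^ n = 0 := by
    apply hinj
    rw [map_pow, map_zero]
    exact hn
  exact IsReduced.eq_zero _ ⟨n, h0⟩

/-- **every point `ψ q` is a local homomorphism when `T` is local** -/
theorem isLocalHom_ψ [IsLocalRing T] (q : Idx 𝒪 T) : IsLocalHom (ψ q : T →+* Rq q) := by
  set f : T →+* Rq q := (ψ q : T →+* Rq q) with hf
  have hint : f.IsIntegral := by
    have h1 : (algebraMap 𝒪 (Rq q)).IsIntegral :=
      algebraMap_isIntegral_iff.mpr (inferInstanceAs (Algebra.IsIntegral 𝒪 (Rq q)))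
    have h2 : algebraMap 𝒪 (Rq q) = f.comp (algebraMap 𝒪 T) := by
      ext a
      exact ((ψ q).commutes a).symm
    rw [h2] at h1
    exact RingHom.IsIntegral.tower_top _ _ h1
  have hloc1 : IsLocalHom f.kerLift := hint.kerLift.isLocalHom f.kerLift_injective
  have hker : RingHom.ker f ≤ Ideal.jacobson ⊥ := by
    rw [IsLocalRing.jacobson_eq_maximalIdeal ⊥ bot_ne_top]
    refine IsLocalRing.le_maximalIdeal ?_
    rw [Ne, Ideal.eq_top_iff_one, RingHom.mem_ker, map_one]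
    exact one_ne_zero
  have hloc2 : IsLocalHom (Ideal.Quotient.mk (RingHom.ker f)) :=
    isLocalHom_of_le_jacobson_bot _ hker
  refine ⟨fun a ha => ?_⟩
  have h3 : IsUnit (f.kerLift (Ideal.Quotient.mk (RingHom.ker f) a)) := by
    rw [RingHom.kerLift_mk]
    exact ha
  exact hloc2.map_nonunit a (hloc1.map_nonunit _ h3)

theorem natCast_mem_maximalIdeal_Rq (q : Idx 𝒪 T) {p : ℕ} (hp : (p : 𝒪) ∈ maximalIdeal 𝒪) :
    (p : Rq q) ∈ maximalIdeal (Rq q) := by
  have h1 : algebraMap 𝒪 (Rq q) (p : 𝒪) ∈ maximalIdeal (Rq q) := by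
    by_contra hcon
    have hu : IsUnit (algebraMap 𝒪 (Rq q) (p : 𝒪)) := by
      by_contra hnu
      exact hcon ((IsLocalRing.mem_maximalIdeal _).2 hnu)
    exact ((IsLocalRing.mem_maximalIdeal _).1 hp) (isUnit_of_map_unit (algebraMap 𝒪 (Rq q)) _ hu)
  simpa using h1

/-- the package in the shape consumed by gluing lemmas: a finite family of local rings and
jointly injective local homomorphisms -/
theorem exists_points [Module.Free 𝒪 T] [IsReduced T] [IsLocalRing T] :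
    (∀ q : Idx 𝒪 T, IsLocalHom (ψ q : T →+* Rq q)) ∧
      ∀ t : T, (∀ q : Idx 𝒪 T, (ψ q : T →+* Rq q) t = 0) → t = 0 :=
  ⟨isLocalHom_ψ, fun _ h => eq_zero_of_forall_ψ h⟩

end Fermat.Agent.GB.Glue.Points
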