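/-
CELL-B / S59-ENGINE, node GB-GLUE (helper36), file 2: Chevalley's lemma.

`T` a complete Noetherian local ring, `J : ℕ → Ideal T` a decreasing sequence of ideals with zero
intersection.  Then the `J m` tend to zero in the `𝔪`-adic topology: for every `n` there is `m`
with `J m ≤ 𝔪 ^ n` (`exists_le_pow`).

Application (`exists_pow_le_of_points`): if `f i : T →+* O i` is a jointly injective family of ring
homomorphisms into Noetherian local rings, then for every `n` there is `m` such that every `t` with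
`f i t ∈ 𝔪_i ^ m` for all `i` lies in `𝔪_T ^ n`: the topology of `T` is the one induced by
the product of the `O i` (no finiteness of the family, no finiteness of `O i` over `T`).
-/
import Mathlib

set_option autoImplicit false

namespace Fermat.Agent.GB.Glue.Chevalley

open IsLocalRing

variable {T : Type*} [CommRing T] [IsLocalRing T] [IsNoetherianRing T]

/-- `T ⧸ 𝔪 ^ n` is an Artinian `T`-module. -/
theorem isArtinian_quotient_pow (n : ℕ) : IsArtinian T (T ⧸ maximalIdeal T ^ n) := by
  by_cases hI : maximalIdeal T ^ n = ⊤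
  · have : Subsingleton (T ⧸ maximalIdeal T ^ n) := Ideal.Quotient.subsingleton_iff.mpr hI
    exact isArtinian_of_finite
  have hnt : Nontrivial (T ⧸ maximalIdeal T ^ n) := Ideal.Quotient.nontrivial_iff.mpr hI
  have hloc := IsLocalRing.of_surjective' (Ideal.Quotient.mk (maximalIdeal T ^ n))
    Ideal.Quotient.mk_surjective
  have hlh := IsLocalHom.of_surjective (Ideal.Quotient.mk (maximalIdeal T ^ n))
    Ideal.Quotient.mk_surjective
  have hmap : (maximalIdeal T).map (Ideal.Quotient.mk (maximalIdeal T ^ n)) =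
      maximalIdeal (T ⧸ maximalIdeal T ^ n) := by
    ext x
    obtain ⟨x, rfl⟩ := Ideal.Quotient.mk_surjective x
    simp [sup_eq_left.mpr (le_maximalIdeal hI)]
  have hart : IsArtinianRing (T ⧸ maximalIdeal T ^ n) := by
    rw [isArtinianRing_iff_isNilpotent_maximalIdeal]
    refine ⟨n, ?_⟩
    rw [← hmap, ← Ideal.map_pow, Ideal.zero_eq_bot, Ideal.map_eq_bot_iff_le_ker, Ideal.mk_ker]
  exact isArtinian_of_surjective_algebraMap (R := T ⧸ maximalIdeal T ^ n) (S := T)
    Ideal.Quotient.mk_surjective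

/-- A decreasing sequence of ideals is stationary modulo `𝔪 ^ n`. -/
theorem exists_stable (J : ℕ → Ideal T) (hJ : Antitone J) (n : ℕ) :
    ∃ M, ∀ m, M ≤ m → J m ⊔ maximalIdeal T ^ n = J M ⊔ maximalIdeal T ^ n := by
  have := isArtinian_quotient_pow (T := T) n
  obtain ⟨M, hM⟩ := IsArtinian.monotone_stabilizes (R := T) (M := T ⧸ maximalIdeal T ^ n)
    ⟨fun m => OrderDual.toDual (Submodule.map (maximalIdeal T ^ n).mkQ (J m)),
      fun a b hab => Submodule.map_mono (hJ hab)⟩
  refine ⟨M, fun m hm => ?_⟩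
  have h2 : Submodule.map (maximalIdeal T ^ n).mkQ (J M) =
      Submodule.map (maximalIdeal T ^ n).mkQ (J m) := OrderDual.toDual.injective (hM m hm)
  have h3 := congrArg (Submodule.comap (maximalIdeal T ^ n).mkQ) h2
  rw [Submodule.comap_map_mkQ, Submodule.comap_map_mkQ] at h3
  rw [sup_comm, ← h3, sup_comm]

/-- Ideals of a Noetherian local ring are closed. -/
theorem mem_of_forall_mem_sup_pow (I : Ideal T) (x : T)
    (hx : ∀ k, x ∈ I ⊔ maximalIdeal T ^ k) : x ∈ I := by
  have hbot := Ideal.iInf_pow_smul_eq_bot_of_isLocalRing (R := T) (M := T ⧸ I) (maximalIdeal T)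
    (maximalIdeal.isMaximal T).ne_top
  have hmem : Ideal.Quotient.mk I x ∈
      (⨅ i, maximalIdeal T ^ i • (⊤ : Submodule T (T ⧸ I)) : Submodule T (T ⧸ I)) := by
    rw [Submodule.mem_iInf]
    intro k
    obtain ⟨j, hj, e, he, rfl⟩ := Submodule.mem_sup.mp (hx k)
    rw [map_add, Ideal.Quotient.eq_zero_iff_mem.mpr hj, zero_add]
    have : Ideal.Quotient.mk I e = e • (Ideal.Quotient.mk I 1) := by
      rw [Algebra.smul_def, Ideal.Quotient.algebraMap_eq, ← map_mul, mul_one]
    rw [this]
    exact Submodule.smul_mem_smul he Submodule.mem_top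
  rw [hbot, Submodule.mem_bot] at hmem
  exact Ideal.Quotient.eq_zero_iff_mem.mp hmem

/-- **Chevalley's lemma.** -/
theorem exists_le_pow [IsAdicComplete (maximalIdeal T) T] (J : ℕ → Ideal T) (hJ : Antitone J)
    (hbot : ⨅ m, J m = ⊥) (n : ℕ) : ∃ m, J m ≤ maximalIdeal T ^ n := by
  by_contra hcon
  have hcon' : ∀ m, ¬ J m ≤ maximalIdeal T ^ n := fun m hm => hcon ⟨m, hm⟩
  -- the property `x ∈ ⋂ₘ (J m + 𝔪 ^ (n + k))`
  let P : ℕ → T → Prop := fun k x => ∀ m, x ∈ J m ⊔ maximalIdeal T ^ (n + k)
  -- start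
  obtain ⟨M0, hM0⟩ := exists_stable J hJ n
  obtain ⟨x0, hx0J, hx0⟩ := SetLike.not_le_iff_exists.mp (hcon' M0)
  have hP0 : P 0 x0 := by
    intro m
    rcases le_total M0 m with h | h
    · rw [add_zero, hM0 m h]; exact Submodule.mem_sup_left hx0J
    · exact Submodule.mem_sup_left (hJ h hx0J)
  -- step
  have hstep : ∀ k x, P k x → ∃ y, P (k + 1) y ∧ y - x ∈ maximalIdeal T ^ (n + k) := by
    intro k x hx
    obtain ⟨M, hM⟩ := exists_stable J hJ (n + (k + 1))
    obtain ⟨j, hj, e, he, rfl⟩ := Submodule.mem_sup.mp (hx M)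
    refine ⟨j, fun m => ?_, ?_⟩
    · rcases le_total M m with h | h
      · rw [hM m h]; exact Submodule.mem_sup_left hj
      · exact Submodule.mem_sup_left (hJ h hj)
    · have : j - (j + e) = -e := by ring
      rw [this]; exact neg_mem he
  -- the sequence
  let s : ∀ k, {x : T // P k x} := fun k =>
    Nat.rec (motive := fun k => {x : T // P k x}) ⟨x0, hP0⟩
      (fun k s => ⟨(hstep k s.1 s.2).choose, (hstep k s.1 s.2).choose_spec.1⟩) k
  have hs : ∀ k, (s (k + 1)).1 - (s k).1 ∈ maximalIdeal T ^ (n + k) := fun k =>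
    (hstep k (s k).1 (s k).2).choose_spec.2
  have hs0 : (s 0).1 = x0 := rfl
  have hcauchy : ∀ k d, (s (k + d)).1 - (s k).1 ∈ maximalIdeal T ^ (n + k) := by
    intro k d
    induction d with
    | zero => rw [add_zero, sub_self]; exact zero_mem _
    | succ d ih =>
      have h1 := hs (k + d)
      have h2 : maximalIdeal T ^ (n + (k + d)) ≤ maximalIdeal T ^ (n + k) :=
        Ideal.pow_le_pow_right (by omega)
      have : (s (k + (d + 1))).1 - (s k).1 =
          ((s (k + d + 1)).1 - (s (k + d)).1) + ((s (k + d)).1 - (s k).1) := by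
        rw [← add_assoc]; ring
      rw [this]
      exact add_mem (h2 h1) ih
  -- the limit
  obtain ⟨L, hL⟩ := IsPrecomplete.prec' (I := maximalIdeal T) (M := T)
    (fun k => (s k).1) (by
      intro a b hab
      obtain ⟨d, rfl⟩ := Nat.exists_eq_add_of_le hab
      rw [SModEq.sub_mem, smul_eq_mul, Ideal.mul_top]
      have h := hcauchy a d
      have h2 : maximalIdeal T ^ (n + a) ≤ maximalIdeal T ^ a := Ideal.pow_le_pow_right (by omega)
      have : (s a).1 - (s (a + d)).1 = -((s (a + d)).1 - (s a).1) := by ring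
      rw [this]
      exact neg_mem (h2 h))
  have hL' : ∀ k, (s k).1 - L ∈ maximalIdeal T ^ k := by
    intro k
    have := hL k
    rwa [SModEq.sub_mem, smul_eq_mul, Ideal.mul_top] at this
  -- (a) `L ∉ 𝔪 ^ n`
  have hLn : L ∉ maximalIdeal T ^ n := by
    intro hLmem
    apply hx0
    have h1 := hL' n
    have h2 := hcauchy 0 n
    rw [zero_add, add_zero, hs0] at h2
    have : x0 = L - (((s n).1 - x0) - ((s n).1 - L)) := by ring
    rw [this]
    exact sub_mem hLmem (sub_mem h2 h1)
  -- (b) `L ∈ J m` for all `m`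
  have hLJ : ∀ m, L ∈ J m := by
    intro m
    refine mem_of_forall_mem_sup_pow (J m) L fun k => ?_
    have h1 := hL' k
    have h2 : (s k).1 ∈ J m ⊔ maximalIdeal T ^ k :=
      (sup_le_sup_left (Ideal.pow_le_pow_right (by omega)) (J m)) ((s k).2 m)
    have : L = (s k).1 - ((s k).1 - L) := by ring
    rw [this]
    exact sub_mem h2 (Submodule.mem_sup_right h1)
  -- (c)
  have hL0 : L = 0 := by
    have : L ∈ ⨅ m, J m := (Submodule.mem_iInf _).mpr hLJ
    rwa [hbot, Submodule.mem_bot] at this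
  exact hLn (hL0 ▸ zero_mem _)

/-- **The topology induced by a jointly injective family of points** is the adic one. -/
theorem exists_pow_le_of_points [IsAdicComplete (maximalIdeal T) T]
    {ι : Type*} {O : ι → Type*} [∀ i, CommRing (O i)] [∀ i, IsLocalRing (O i)]
    [∀ i, IsNoetherianRing (O i)] (f : ∀ i, T →+* O i)
    (hinj : ∀ t : T, (∀ i, f i t = 0) → t = 0) (n : ℕ) :
    ∃ m, ∀ t : T, (∀ i, f i t ∈ maximalIdeal (O i) ^ m) → t ∈ maximalIdeal T ^ n := by
  let J : ℕ → Ideal T := fun m => ⨅ i, (maximalIdeal (O i) ^ m).comap (f i)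
  have hJ : Antitone J := by
    intro a b hab
    refine iInf_mono fun i => Ideal.comap_mono (Ideal.pow_le_pow_right hab)
  have hbot : ⨅ m, J m = ⊥ := by
    rw [eq_bot_iff]
    intro t ht
    rw [Submodule.mem_bot]
    refine hinj t fun i => ?_
    have hmem : f i t ∈ ⨅ m, maximalIdeal (O i) ^ m := by
      rw [Submodule.mem_iInf]
      intro m
      have h1 := (Submodule.mem_iInf _).mp ht m
      have h2 := (Submodule.mem_iInf _).mp h1 i
      exact h2
    rwa [Ideal.iInf_pow_eq_bot_of_isLocalRing _ (maximalIdeal.isMaximal (O i)).ne_top,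
      Submodule.mem_bot] at hmem
  obtain ⟨m, hm⟩ := exists_le_pow J hJ hbot n
  exact ⟨m, fun t ht => hm ((Submodule.mem_iInf _).mpr fun i => ht i)⟩

end Fermat.Agent.GB.Glue.Chevalley
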