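/-
CELL-B / S59-ENGINE, node GB-GLUE (helper36), file 3: a complete Noetherian local ring is CLOSED in
any product of Noetherian local rings into which it maps injectively by local homomorphisms.

`exists_of_forall_approx`: `T` complete Noetherian local, `f i : T →+* O i` jointly injective
local homomorphisms into Noetherian local rings, `c : ∀ i, O i` a family which can be approximated
by elements of `T` modulo `𝔪_i ^ n` (simultaneously in `i`) for every `n`.  Then `c` comes from
`T`: there is `L : T` with `f i L = c i` for all `i`.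
-/
import Mathlib
import Fermat.Agent.GB.Glue.Chevalley

set_option autoImplicit false

namespace Fermat.Agent.GB.Glue.Closed

open IsLocalRing

variable {T : Type*} [CommRing T] [IsLocalRing T] [IsNoetherianRing T]
  [IsAdicComplete (maximalIdeal T) T]
  {ι : Type*} {O : ι → Type*} [∀ i, CommRing (O i)] [∀ i, IsLocalRing (O i)]
  [∀ i, IsNoetherianRing (O i)]

omit [IsNoetherianRing T] [IsAdicComplete (maximalIdeal T) T] [∀ i, IsNoetherianRing (O i)] in
theorem map_mem_pow (f : ∀ i, T →+* O i) (hloc : ∀ i, IsLocalHom (f i)) (i : ι) (k : ℕ) (t : T)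
    (ht : t ∈ maximalIdeal T ^ k) : f i t ∈ maximalIdeal (O i) ^ k := by
  have hmap : (maximalIdeal T ^ k).map (f i) ≤ maximalIdeal (O i) ^ k := by
    rw [Ideal.map_pow]
    exact Ideal.pow_right_mono (Ideal.map_le_iff_le_comap.mpr fun a ha =>
      Ideal.mem_comap.mpr (haveI := hloc i; map_nonunit (f i) a ha)) k
  exact hmap (Ideal.mem_map_of_mem (f i) ht)

/-- **`T` is closed in `∏ O i`.** -/
theorem exists_of_forall_approx (f : ∀ i, T →+* O i) (hloc : ∀ i, IsLocalHom (f i))
    (hinj : ∀ t : T, (∀ i, f i t = 0) → t = 0) (c : ∀ i, O i)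
    (happ : ∀ n : ℕ, ∃ x : T, ∀ i, f i x - c i ∈ maximalIdeal (O i) ^ n) :
    ∃ L : T, ∀ i, f i L = c i := by
  choose x hx using happ
  -- Chevalley thresholds
  choose m0 hm0 using fun n => Chevalley.exists_pow_le_of_points f hinj n
  -- a monotone majorant of `m0`, `≥ id`
  let m : ℕ → ℕ := fun k => (Finset.range (k + 1)).sup m0 + k
  have hm_ge : ∀ k, m0 k ≤ m k := fun k =>
    le_trans (Finset.le_sup (f := m0) (Finset.mem_range.mpr (Nat.lt_succ_self k)))
      (Nat.le_add_right _ _)
  have hm_id : ∀ k, k ≤ m k := fun k => Nat.le_add_left _ _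
  have hm_mono : Monotone m := by
    intro a b hab
    refine add_le_add (Finset.sup_mono ?_) hab
    exact Finset.range_mono (by omega)
  -- the Cauchy sequence `y k = x (m k)`
  have hcauchy : ∀ a b, a ≤ b → x (m a) - x (m b) ∈ maximalIdeal T ^ a := by
    intro a b hab
    refine hm0 a _ fun i => ?_
    have h1 : f i (x (m a)) - c i ∈ maximalIdeal (O i) ^ m0 a :=
      Ideal.pow_le_pow_right (hm_ge a) (hx (m a) i)
    have h2 : f i (x (m b)) - c i ∈ maximalIdeal (O i) ^ m0 a :=
      Ideal.pow_le_pow_right (le_trans (hm_ge a) (hm_mono hab)) (hx (m b) i)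
    have : f i (x (m a) - x (m b)) = (f i (x (m a)) - c i) - (f i (x (m b)) - c i) := by
      rw [map_sub]; ring
    rw [this]
    exact sub_mem h1 h2
  obtain ⟨L, hL⟩ := IsPrecomplete.prec' (I := maximalIdeal T) (M := T) (fun k => x (m k)) (by
    intro a b hab
    rw [SModEq.sub_mem, smul_eq_mul, Ideal.mul_top]
    exact hcauchy a b hab)
  refine ⟨L, fun i => ?_⟩
  rw [← sub_eq_zero]
  have hmem : f i L - c i ∈ ⨅ k, maximalIdeal (O i) ^ k := by
    rw [Submodule.mem_iInf]
    intro k
    have h1 : x (m k) - L ∈ maximalIdeal T ^ k := by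
      have := hL k
      rwa [SModEq.sub_mem, smul_eq_mul, Ideal.mul_top] at this
    have h2 := map_mem_pow f hloc i k _ h1
    have h3 : f i (x (m k)) - c i ∈ maximalIdeal (O i) ^ k :=
      Ideal.pow_le_pow_right (hm_id k) (hx (m k) i)
    have : f i L - c i = (f i (x (m k)) - c i) - f i (x (m k) - L) := by
      rw [map_sub]; ring
    rw [this]
    exact sub_mem h3 h2
  rwa [Ideal.iInf_pow_eq_bot_of_isLocalRing _ (maximalIdeal.isMaximal (O i)).ne_top,
    Submodule.mem_bot] at hmem

end Fermat.Agent.GB.Glue.Closed
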