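/-
CELL-B / S59-ENGINE, node GB-GLUE (helper36), file 4: gluing of adic Galois representations.

`T` a complete Noetherian local ring, `f i : T →+* O i` a FINITE jointly injective family of local
homomorphisms into Noetherian local rings, `r i : GQ →* M₂(O i)` continuous matrix representations
whose characteristic polynomials at the Frobenius elements outside a finite set `B` of primes have
coefficients in `T` (`FrobHyp`).  Then

* `exists_trace_det`: the trace and determinant functions of the `r i` come from functions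
  `τ δ : GQ → T` (every element is a power of a Frobenius modulo each `𝔪 ^ n` [FrobGenQ, main],
  Lucas sequences, `T` is closed in `∏ O i` [Closed]);
* `matCont_glue`: the glued representation of `Core` is continuous (Chevalley);
* `exists_glue_adic`: the `GaloisRepAdic T` with all compatibilities.
-/
import Mathlib
import Fermat.Prelude.Def_GaloisRep_Adic
import Fermat.Agent.S53_helper35.MatDict
import Fermat.Agent.S53_helper35.MatDict2
import Fermat.Agent.GJ.FrobLiftMain
import Fermat.Agent.GB.Glue.Core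
import Fermat.Agent.GB.Glue.Chevalley
import Fermat.Agent.GB.Glue.Closed

set_option autoImplicit false

noncomputable section

namespace Fermat.Agent.GB.Glue.AdicGlue

open IsLocalRing Polynomial Matrix
open Fermat.Agent.S53_helper35 (MatCont ofMat toMat stdBasis toMatRes resBasis toMatRes_residual
  ofMatBasis toMat_ofMat mapMat mapMat_apply matCont_toMat toMatRes_apply)

local notation "GQ" => (AlgebraicClosure ℚ ≃ₐ[ℚ] AlgebraicClosure ℚ)
local notation "Qb" => AlgebraicClosure ℚ

/-! ### Lucas sequences: traces of powers of `2 × 2` matrices -/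

section Lucas

variable {R : Type*} [CommRing R]

/-- The Lucas sequence `V_j(t, d)`: the trace of the `j`-th power of a `2 × 2` matrix of trace `t`
and determinant `d`. -/
def lucas (t d : R) : ℕ → R
  | 0 => 2
  | 1 => t
  | (j + 2) => t * lucas t d (j + 1) - d * lucas t d j

theorem trace_pow_fin_two (M : Matrix (Fin 2) (Fin 2) R) (j : ℕ) :
    (M ^ j).trace = lucas M.trace M.det j := by
  induction j using Nat.twoStepInduction with
  | zero => simp [lucas, Matrix.trace_one]
  | one => simp [lucas]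
  | more j ih0 ih1 =>
    have h : M ^ (j + 2) = M.trace • M ^ (j + 1) - M.det • M ^ j := by
      rw [pow_add, pow_two, Core.sq_fin_two, mul_sub, Matrix.mul_smul, Matrix.mul_smul, mul_one,
        ← pow_succ]
    rw [h, Matrix.trace_sub, Matrix.trace_smul, Matrix.trace_smul, ih0, ih1, lucas]
    simp only [smul_eq_mul]

theorem map_lucas {S : Type*} [CommRing S] (f : R →+* S) (t d : R) (j : ℕ) :
    f (lucas t d j) = lucas (f t) (f d) j := by
  induction j using Nat.twoStepInduction with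
  | zero => rw [lucas, lucas, map_ofNat]
  | one => simp [lucas]
  | more j ih0 ih1 => rw [lucas, lucas, map_sub, map_mul, map_mul, ih0, ih1]

/-- Trace and determinant from the characteristic polynomial. -/
theorem trace_det_of_charpoly_eq [Nontrivial R] (M : Matrix (Fin 2) (Fin 2) R) (a b : R)
    (h : M.charpoly = X ^ 2 - C a * X + C b) : M.trace = a ∧ M.det = b := by
  rw [Matrix.charpoly_fin_two] at h
  constructor
  · have := congrArg (fun p => Polynomial.coeff p 1) h
    simp [Polynomial.coeff_X_pow, Polynomial.coeff_C] at this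
    exact this
  · have := congrArg (fun p => Polynomial.coeff p 0) h
    simp [Polynomial.coeff_X_pow, Polynomial.coeff_C] at this
    exact this

end Lucas

/-! ### Reduction modulo `𝔪 ^ n` -/

section Red

variable {A : Type} [CommRing A] [IsLocalRing A]

/-- Reduction of matrices modulo `𝔪 ^ n`. -/
def redHom (A : Type) [CommRing A] [IsLocalRing A] (n : ℕ) :
    Matrix (Fin 2) (Fin 2) A →* Matrix (Fin 2) (Fin 2) (A ⧸ maximalIdeal A ^ n) :=
  (RingHom.mapMatrix (Ideal.Quotient.mk (maximalIdeal A ^ n))).toMonoidHom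

theorem redHom_apply (n : ℕ) (M : Matrix (Fin 2) (Fin 2) A) :
    redHom A n M = M.map (Ideal.Quotient.mk (maximalIdeal A ^ n)) := rfl

theorem redHom_eq_one (n : ℕ) (M : Matrix (Fin 2) (Fin 2) A)
    (h : ∀ a b, (M - 1) a b ∈ maximalIdeal A ^ n) : redHom A n M = 1 := by
  ext a b
  rw [redHom_apply, Matrix.map_apply, ← sub_eq_zero]
  have h1 : (1 : Matrix (Fin 2) (Fin 2) (A ⧸ maximalIdeal A ^ n)) a b =
      Ideal.Quotient.mk (maximalIdeal A ^ n) ((1 : Matrix (Fin 2) (Fin 2) A) a b) := by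
    rw [Matrix.one_apply, Matrix.one_apply]
    split_ifs
    · rw [map_one]
    · rw [map_zero]
  rw [h1, ← map_sub, Ideal.Quotient.eq_zero_iff_mem]
  exact h a b

theorem trace_sub_mem_of_redHom_eq (n : ℕ) (M N : Matrix (Fin 2) (Fin 2) A)
    (h : redHom A n M = redHom A n N) : M.trace - N.trace ∈ maximalIdeal A ^ n := by
  rw [← Ideal.Quotient.eq]
  have h1 := congrArg Matrix.trace h
  rw [redHom_apply, redHom_apply] at h1
  simpa [Matrix.trace_fin_two] using h1

theorem det_sub_mem_of_redHom_eq (n : ℕ) (M N : Matrix (Fin 2) (Fin 2) A)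
    (h : redHom A n M = redHom A n N) : M.det - N.det ∈ maximalIdeal A ^ n := by
  rw [← Ideal.Quotient.eq]
  have h1 := congrArg Matrix.det h
  rw [redHom_apply, redHom_apply] at h1
  simpa [Matrix.det_fin_two] using h1

end Red

/-! ### The trace and determinant functions -/

section Approx

variable {T : Type} [CommRing T] [IsLocalRing T] [IsNoetherianRing T]
  [IsAdicComplete (maximalIdeal T) T]
  {ι : Type} [Finite ι] {O : ι → Type} [∀ i, CommRing (O i)] [∀ i, IsLocalRing (O i)]
  [∀ i, IsNoetherianRing (O i)]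
  (f : ∀ i, T →+* O i) (r : ∀ i, GQ →* Matrix (Fin 2) (Fin 2) (O i))

/-- All the `r i` reduced modulo `𝔪_i ^ n`, as one finite-level representation. -/
def redAll (n : ℕ) : GQ →* (∀ i, Matrix (Fin 2) (Fin 2) (O i ⧸ maximalIdeal (O i) ^ n)) :=
  MonoidHom.pi fun i => (redHom (O i) n).comp (r i)

omit [Finite ι] [∀ i, IsNoetherianRing (O i)] in
theorem redAll_apply (n : ℕ) (σ : GQ) (i : ι) : redAll r n σ i = redHom (O i) n (r i σ) := rfl

omit [∀ i, IsNoetherianRing (O i)] in
theorem redAll_factors (hr : ∀ i, MatCont (r i)) (n : ℕ) :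
    GaloisFactorsThroughFiniteLevel (redAll r n) := by
  choose L hLfin hL using fun i => hr i n
  haveI : ∀ i, FiniteDimensional ℚ (L i) := hLfin
  refine ⟨⨆ i, L i, IntermediateField.finiteDimensional_iSup_of_finite, fun σ hσ => ?_⟩
  funext i
  rw [redAll_apply]
  exact redHom_eq_one n _ (hL i σ fun x hx => hσ x ((le_iSup L i) hx))

/-- **Frobenius hypothesis**: the characteristic polynomials at the Frobenius elements outside `B`
have coefficients `t ℓ`, `d ℓ` in `T`. -/
def FrobHyp (B : Finset ℕ) (t d : ℕ → T) : Prop :=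
  ∀ ℓ : ℕ, ℓ.Prime → ℓ ∉ B → ∀ A : ValuationSubring Qb, A.LiesOverPrime ℓ →
    ∀ σ : GQ, A.IsFrobeniusAt σ ℓ → ∀ i,
      (r i σ).charpoly = X ^ 2 - C (f i (t ℓ)) * X + C (f i (d ℓ))

omit [IsLocalRing T] [IsNoetherianRing T] [IsAdicComplete (maximalIdeal T) T]
  [∀ i, IsNoetherianRing (O i)] in
theorem exists_approx (hr : ∀ i, MatCont (r i)) {B : Finset ℕ} {t d : ℕ → T}
    (hfrob : FrobHyp f r B t d) (g : GQ) (n : ℕ) :
    ∃ x y : T, ∀ i, f i x - (r i g).trace ∈ maximalIdeal (O i) ^ n ∧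
      f i y - (r i g).det ∈ maximalIdeal (O i) ^ n := by
  obtain ⟨ℓ, A, σ, j, hℓ, hℓB, hA, hσ, hpow⟩ :=
    Fermat.Agent.GJ.FrobLift.exists_isFrobeniusAt_pow' (redAll r n) (redAll_factors r hr n) B g
  refine ⟨lucas (t ℓ) (d ℓ) j, d ℓ ^ j, fun i => ?_⟩
  obtain ⟨htr, hdet⟩ := trace_det_of_charpoly_eq (r i σ) _ _ (hfrob ℓ hℓ hℓB A hA σ hσ i)
  have hi : redHom (O i) n (r i g) = redHom (O i) n ((r i σ) ^ j) := by
    have := congrFun hpow i
    rw [Pi.pow_apply, redAll_apply, redAll_apply, ← map_pow] at this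
    exact this
  constructor
  · have h1 := trace_sub_mem_of_redHom_eq n _ _ hi
    rw [trace_pow_fin_two, htr, hdet, ← map_lucas] at h1
    have : f i (lucas (t ℓ) (d ℓ) j) - (r i g).trace =
        -((r i g).trace - f i (lucas (t ℓ) (d ℓ) j)) := by ring
    rw [this]; exact neg_mem h1
  · have h1 := det_sub_mem_of_redHom_eq n _ _ hi
    rw [Matrix.det_pow, hdet, ← map_pow] at h1
    have : f i (d ℓ ^ j) - (r i g).det = -((r i g).det - f i (d ℓ ^ j)) := by ring
    rw [this]; exact neg_mem h1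

/-- **The trace and determinant functions with values in `T`.** -/
theorem exists_trace_det (hloc : ∀ i, IsLocalHom (f i))
    (hinj : ∀ t : T, (∀ i, f i t = 0) → t = 0) (hr : ∀ i, MatCont (r i)) {B : Finset ℕ}
    {t d : ℕ → T} (hfrob : FrobHyp f r B t d) :
    ∃ τ δ : GQ → T, ∀ i g, f i (τ g) = (r i g).trace ∧ f i (δ g) = (r i g).det := by
  have h1 : ∀ g, ∃ L : T, ∀ i, f i L = (r i g).trace := fun g =>
    Closed.exists_of_forall_approx f hloc hinj (fun i => (r i g).trace) fun n => by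
      obtain ⟨x, y, hxy⟩ := exists_approx f r hr hfrob g n
      exact ⟨x, fun i => (hxy i).1⟩
  have h2 : ∀ g, ∃ L : T, ∀ i, f i L = (r i g).det := fun g =>
    Closed.exists_of_forall_approx f hloc hinj (fun i => (r i g).det) fun n => by
      obtain ⟨x, y, hxy⟩ := exists_approx f r hr hfrob g n
      exact ⟨y, fun i => (hxy i).2⟩
  choose τ hτ using h1
  choose δ hδ using h2
  exact ⟨τ, δ, fun i g => ⟨hτ g i, hδ g i⟩⟩

end Approx

/-! ### Invariant lines and irreducibility in dimension two -/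

section IrrCrit

variable {K : Type*} [Field K] {V : Type*} [AddCommGroup V] [Module K V]
  (b : Module.Basis (Fin 2) K V) {G : Type*} (R : G → Module.End K V)

/-- A proper nonzero invariant subspace of a plane gives an invariant line of the matrices. -/
theorem exists_line_of_invariant (W : Submodule K V) (hW : ∀ g, ∀ x ∈ W, R g x ∈ W)
    (h0 : W ≠ ⊥) (h1 : W ≠ ⊤) :
    ∃ v : Fin 2 → K, v ≠ 0 ∧ ∀ g, ∃ c : K, (LinearMap.toMatrix b b (R g)) *ᵥ v = c • v := by
  haveI : Module.Finite K V := Module.Finite.of_basis b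
  have hV : Module.finrank K V = 2 := by rw [Module.finrank_eq_card_basis b]; simp
  have hlt : Module.finrank K W < 2 := by
    rw [← hV]; exact Submodule.finrank_lt h1
  have hpos : 0 < Module.finrank K W := by
    rw [Module.finrank_pos_iff_exists_ne_zero]
    obtain ⟨x, hx, hx0⟩ := (Submodule.ne_bot_iff W).mp h0
    exact ⟨⟨x, hx⟩, fun h => hx0 (congrArg Subtype.val h)⟩
  have hone : Module.finrank K W = 1 := by omega
  obtain ⟨w, hw0, hw⟩ := finrank_eq_one_iff'.mp hone
  refine ⟨b.equivFun w.1, ?_, fun g => ?_⟩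
  · intro h
    apply hw0
    have : (w : V) = 0 := b.equivFun.injective (by rw [h, map_zero])
    exact Subtype.ext this
  · obtain ⟨c, hc⟩ := hw ⟨R g w.1, hW g w.1 w.2⟩
    refine ⟨c, ?_⟩
    have hc' : c • (w : V) = R g w.1 := congrArg Subtype.val hc
    have := LinearMap.toMatrix_mulVec_repr b b (R g) w.1
    rw [show (b.equivFun (w : V) : Fin 2 → K) = ⇑(b.repr (w : V)) from rfl, this, ← hc',
      map_smul]
    rfl

/-- An invariant line of the matrices gives a proper nonzero invariant subspace. -/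
theorem exists_invariant_of_line (v : Fin 2 → K) (hv : v ≠ 0)
    (hline : ∀ g, ∃ c : K, (LinearMap.toMatrix b b (R g)) *ᵥ v = c • v) :
    ∃ W : Submodule K V, (∀ g, ∀ x ∈ W, R g x ∈ W) ∧ W ≠ ⊥ ∧ W ≠ ⊤ := by
  haveI : Module.Finite K V := Module.Finite.of_basis b
  have hV : Module.finrank K V = 2 := by rw [Module.finrank_eq_card_basis b]; simp
  set w : V := b.equivFun.symm v with hw
  have hw0 : w ≠ 0 := by
    intro h
    apply hv
    have : b.equivFun w = v := by rw [hw, LinearEquiv.apply_symm_apply]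
    rw [← this, h, map_zero]
  have hRw : ∀ g, ∃ c : K, R g w = c • w := by
    intro g
    obtain ⟨c, hc⟩ := hline g
    refine ⟨c, b.equivFun.injective ?_⟩
    have h1 := LinearMap.toMatrix_mulVec_repr b b (R g) w
    have h2 : (b.repr w : Fin 2 → K) = v := by
      show b.equivFun w = v
      rw [hw, LinearEquiv.apply_symm_apply]
    rw [h2, hc] at h1
    rw [map_smul]
    show ⇑(b.repr (R g w)) = c • b.equivFun w
    rw [← h1]
    congr 1
    show v = b.equivFun w
    rw [hw, LinearEquiv.apply_symm_apply]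
  refine ⟨K ∙ w, ?_, ?_, ?_⟩
  · intro g x hx
    obtain ⟨a, rfl⟩ := Submodule.mem_span_singleton.mp hx
    obtain ⟨c, hc⟩ := hRw g
    rw [map_smul, hc, smul_smul]
    exact Submodule.smul_mem _ _ (Submodule.mem_span_singleton_self w)
  · rw [Ne, Submodule.span_singleton_eq_bot]; exact hw0
  · intro htop
    have := finrank_span_singleton (K := K) hw0
    rw [htop, finrank_top, hV] at this
    omega

end IrrCrit

/-! ### Residual representations: invariant lines and (absolute) irreducibility -/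

section Residual

open scoped TensorProduct

variable {k : Type} [Field k] (ρ' : ResidualGaloisRep k) (b : Module.Basis (Fin 2) k ρ'.V)
  (K : Type) [Field K] [Algebra k K]

theorem toMatrix_baseChange_eq (σ : GQ) :
    LinearMap.toMatrix (Algebra.TensorProduct.basis K b) (Algebra.TensorProduct.basis K b)
      ((ρ'.baseChange K).ρ σ) = (toMatRes ρ' b σ).map (algebraMap k K) :=
  LinearMap.toMatrix_baseChange K (ρ'.ρ σ) b b

/-- An invariant line over `K` contradicts the irreducibility of the base change to `K`. -/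
theorem not_isIrreducible_baseChange_of_line (v : Fin 2 → K) (hv : v ≠ 0)
    (hline : ∀ σ : GQ, ∃ c : K, ((toMatRes ρ' b σ).map (algebraMap k K)) *ᵥ v = c • v) :
    ¬ (ρ'.baseChange K).IsIrreducible := by
  intro hirr
  obtain ⟨W, hW, h0, h1⟩ := exists_invariant_of_line (Algebra.TensorProduct.basis K b)
    (fun σ : GQ => (ρ'.baseChange K).ρ σ) v hv (fun σ => by
      obtain ⟨c, hc⟩ := hline σ
      exact ⟨c, by rw [toMatrix_baseChange_eq]; exact hc⟩)
  rcases hirr W hW with h | h
  · exact h0 h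
  · exact h1 h

/-- If the base change to `K` is not irreducible, the matrices have an invariant line over `K`. -/
theorem exists_line_of_not_isIrreducible_baseChange
    (h : ¬ (ρ'.baseChange K).IsIrreducible) :
    ∃ v : Fin 2 → K, v ≠ 0 ∧
      ∀ σ : GQ, ∃ c : K, ((toMatRes ρ' b σ).map (algebraMap k K)) *ᵥ v = c • v := by
  have h' : ∃ W : Submodule K (ρ'.baseChange K).V,
      (∀ σ : GQ, ∀ x ∈ W, (ρ'.baseChange K).ρ σ x ∈ W) ∧ W ≠ ⊥ ∧ W ≠ ⊤ := by
    by_contra hcon
    apply h
    intro W hW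
    by_contra hne
    rw [not_or] at hne
    exact hcon ⟨W, hW, hne.1, hne.2⟩
  obtain ⟨W, hW, h0, h1⟩ := h'
  obtain ⟨v, hv, hline⟩ := exists_line_of_invariant (Algebra.TensorProduct.basis K b)
    (fun σ : GQ => (ρ'.baseChange K).ρ σ) W hW h0 h1
  refine ⟨v, hv, fun σ => ?_⟩
  obtain ⟨c, hc⟩ := hline σ
  exact ⟨c, by rw [← toMatrix_baseChange_eq]; exact hc⟩

end Residual

/-! ### The glued adic representation -/

section Main

variable {T : Type} [CommRing T] [IsLocalRing T] [IsNoetherianRing T]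
  [IsAdicComplete (maximalIdeal T) T]
  {ι : Type} [Finite ι] {O : ι → Type} [∀ i, CommRing (O i)] [∀ i, IsLocalRing (O i)]
  [∀ i, IsNoetherianRing (O i)]
  (f : ∀ i, T →+* O i) (r : ∀ i, GQ →* Matrix (Fin 2) (Fin 2) (O i))

/-- The glued representation is continuous. -/
theorem matCont_glue (hr : ∀ i, MatCont (r i)) {τ : GQ → T} {g0 : GQ} {α β ui : T} {g1 h1 : GQ}
    {wi : T} (H : Core.GlueHyp f r τ g0 α β ui g1 h1 wi) : MatCont H.glue := by
  intro n
  obtain ⟨m, hm⟩ := Chevalley.exists_pow_le_of_points f H.inj n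
  choose L hLfin hL using fun i => hr i m
  haveI : ∀ i, FiniteDimensional ℚ (L i) := hLfin
  refine ⟨⨆ i, L i, IntermediateField.finiteDimensional_iSup_of_finite, fun σ hσ a b => ?_⟩
  refine hm _ fun i => ?_
  obtain ⟨P, hP, hconj⟩ := H.exists_conj_glue i
  have hent : ∀ a b, (r i σ - 1) a b ∈ maximalIdeal (O i) ^ m :=
    hL i σ fun x hx => hσ x ((le_iSup L i) hx)
  have hP1 : P * P⁻¹ = 1 := Matrix.mul_nonsing_inv P hP
  have hmat : (H.glue σ - 1).map (f i) = P * (r i σ - 1) * P⁻¹ := by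
    have h1 : (H.glue σ - 1).map (f i) = (H.glue σ).map (f i) - 1 := by
      rw [← RingHom.mapMatrix_apply, map_sub, map_one, RingHom.mapMatrix_apply]
    rw [h1, mul_sub, mul_one, sub_mul, ← hconj σ, mul_assoc, hP1, mul_one]
  have := Fermat.Agent.S53_helper35.entries_mul_mem _
    (Fermat.Agent.S53_helper35.mul_entries_mem _ hent P) P⁻¹ a b
  rw [← hmat, Matrix.map_apply] at this
  exact this

/-- **Gluing, matrix form.** -/
theorem exists_glue_mat (hloc : ∀ i, IsLocalHom (f i))
    (hinj : ∀ t : T, (∀ i, f i t = 0) → t = 0) (hr : ∀ i, MatCont (r i)) {B : Finset ℕ}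
    {t d : ℕ → T} (hfrob : FrobHyp f r B t d) (g0 : GQ) (α β : T) (hαβ : IsUnit (α - β))
    (htr0 : ∀ i, (r i g0).trace = f i α + f i β) (hdet0 : ∀ i, (r i g0).det = f i α * f i β)
    (i0 : ι)
    (hirr : ¬ ∃ v : Fin 2 → ResidueField (O i0), v ≠ 0 ∧
      ∀ g, ∃ c : ResidueField (O i0), ((r i0 g).map (residue (O i0))) *ᵥ v = c • v) :
    ∃ rT : GQ →* Matrix (Fin 2) (Fin 2) T, MatCont rT ∧
      (∀ i, ∃ P : Matrix (Fin 2) (Fin 2) (O i), IsUnit P.det ∧
        ∀ g, (rT g).map (f i) * P = P * r i g) ∧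
      (∀ i g, f i (rT g).trace = (r i g).trace ∧ f i (rT g).det = (r i g).det) ∧
      (∀ g g', (∀ i, r i g = r i g') → rT g = rT g') ∧
      rT g0 = !![α, 0; 0, β] ∧
      (∀ (K : Type) [Field K] (φ : T →+* K) (v : Fin 2 → K), v ≠ 0 →
        ¬ ∀ g, ∃ c : K, ((rT g).map φ) *ᵥ v = c • v) := by
  obtain ⟨τ, δ, hτδ⟩ := exists_trace_det f r hloc hinj hr hfrob
  obtain ⟨u, hu⟩ := hαβ
  have hui : (α - β) * (↑u⁻¹ : T) = 1 := by rw [← hu]; exact u.mul_inv
  have hτ : ∀ i g, f i (τ g) = (r i g).trace := fun i g => (hτδ i g).1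
  -- a unit `x(g1,h1)`
  have hex : ∃ g1 h1, IsUnit (Core.xFun τ g0 β (↑u⁻¹ : T) g1 h1) := by
    by_contra hcon
    apply hirr
    refine Core.exists_invariant_line (f i0) (r i0) τ g0 α β (↑u⁻¹ : T) (hτ i0) hui (htr0 i0)
      (hdet0 i0) fun g h => ?_
    haveI := hloc i0
    exact map_nonunit (f i0) _ (fun hunit => hcon ⟨g, h, hunit⟩)
  obtain ⟨g1, h1, w, hw⟩ := hex
  have hwi : Core.xFun τ g0 β (↑u⁻¹ : T) g1 h1 * (↑w⁻¹ : T) = 1 := by rw [← hw]; exact w.mul_inv
  have H : Core.GlueHyp f r τ g0 α β (↑u⁻¹ : T) g1 h1 (↑w⁻¹ : T) :=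
    ⟨hinj, hτ, hui, htr0, hdet0, hwi⟩
  refine ⟨H.glue, matCont_glue f r hr H, H.exists_conj_glue, fun i g =>
    ⟨H.map_trace_glue i g, H.map_det_glue i g⟩, H.glue_eq_of_forall, H.glue_g0, ?_⟩
  intro K _ φ v hv hline
  refine H.no_invariant_line φ ?_ v hv hline
  intro hφ
  have h1 : φ (α - β) * φ (↑u⁻¹ : T) = 1 := by rw [← map_mul, hui, map_one]
  rw [map_sub, hφ, sub_self, zero_mul] at h1
  exact zero_ne_one h1

end Main

/-! ### `GaloisRepAdic` form -/

section Wrapper

open Fermat.Agent.S53_helper35 (charpoly_eq_charpoly_toMat trace_eq_trace_toMat det_eq_det_toMat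
  charpoly_ofMat toMat_apply matEnd)

variable {T : Type} [CommRing T] [IsLocalRing T] [IsNoetherianRing T]
  [IsAdicComplete (maximalIdeal T) T]
  {ι : Type} [Finite ι] {O : ι → Type} [∀ i, CommRing (O i)] [∀ i, IsLocalRing (O i)]
  [∀ i, IsNoetherianRing (O i)]

omit [IsLocalRing T] [IsNoetherianRing T] [IsAdicComplete (maximalIdeal T) T] [Finite ι]
  [∀ i, IsLocalRing (O i)] [∀ i, IsNoetherianRing (O i)] in
theorem poly_eq_of_forall_map_eq (f : ∀ i, T →+* O i)
    (hinj : ∀ t : T, (∀ i, f i t = 0) → t = 0) {p q : T[X]}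
    (h : ∀ i, p.map (f i) = q.map (f i)) : p = q := by
  ext n
  rw [← sub_eq_zero]
  refine hinj _ fun i => ?_
  have := congrArg (fun P => Polynomial.coeff P n) (h i)
  simp only [Polynomial.coeff_map] at this
  rw [map_sub, this, sub_self]

/-- **Gluing of adic Galois representations.** -/
theorem exists_glue_adic (f : ∀ i, T →+* O i) (hloc : ∀ i, IsLocalHom (f i))
    (hinj : ∀ t : T, (∀ i, f i t = 0) → t = 0) (ρ : ∀ i, GaloisRepAdic (O i))
    (B : Finset ℕ) (t d : ℕ → T)
    (hfrob : ∀ ℓ : ℕ, ℓ.Prime → ℓ ∉ B → ∀ A : ValuationSubring Qb, A.LiesOverPrime ℓ →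
      ∀ σ : GQ, A.IsFrobeniusAt σ ℓ → ∀ i,
        LinearMap.charpoly ((ρ i).ρ σ) = X ^ 2 - C (f i (t ℓ)) * X + C (f i (d ℓ)))
    (g0 : GQ) (α β : T) (hαβ : IsUnit (α - β))
    (htr0 : ∀ i, (ρ i).trace g0 = f i α + f i β)
    (hdet0 : ∀ i, LinearMap.det ((ρ i).ρ g0) = f i α * f i β)
    (i0 : ι) (hirr : (ρ i0).residual.IsAbsolutelyIrreducible) :
    ∃ ρT : GaloisRepAdic T,
      (∀ i σ, LinearMap.charpoly ((ρ i).ρ σ) = (LinearMap.charpoly (ρT.ρ σ)).map (f i)) ∧
      (∀ σ σ', (∀ i, (ρ i).ρ σ = (ρ i).ρ σ') → ρT.ρ σ = ρT.ρ σ') ∧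
      ρT.residual.IsAbsolutelyIrreducible ∧
      (∀ ℓ : ℕ, ℓ.Prime → ℓ ∉ B → ∀ A : ValuationSubring Qb, A.LiesOverPrime ℓ →
        ∀ σ : GQ, A.IsFrobeniusAt σ ℓ →
          LinearMap.charpoly (ρT.ρ σ) = X ^ 2 - C (t ℓ) * X + C (d ℓ)) := by
  set r : ∀ i, GQ →* Matrix (Fin 2) (Fin 2) (O i) := fun i => toMat (ρ i) (stdBasis (ρ i))
    with hr_def
  have hr : ∀ i, MatCont (r i) := fun i => matCont_toMat (ρ i) (stdBasis (ρ i))
  have hcp : ∀ i σ, (r i σ).charpoly = LinearMap.charpoly ((ρ i).ρ σ) := fun i σ =>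
    (charpoly_eq_charpoly_toMat (ρ i) (stdBasis (ρ i)) σ).symm
  have hfrob' : FrobHyp f r B t d := fun ℓ hℓ hℓB A hA σ hσ i => by
    rw [hcp]; exact hfrob ℓ hℓ hℓB A hA σ hσ i
  have htr0' : ∀ i, (r i g0).trace = f i α + f i β := fun i => by
    rw [← htr0 i]; exact (trace_eq_trace_toMat (ρ i) (stdBasis (ρ i)) g0).symm
  have hdet0' : ∀ i, (r i g0).det = f i α * f i β := fun i => by
    rw [← hdet0 i]; exact (det_eq_det_toMat (ρ i) (stdBasis (ρ i)) g0).symm
  have hirr' : ¬ ∃ v : Fin 2 → ResidueField (O i0), v ≠ 0 ∧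
      ∀ g, ∃ c : ResidueField (O i0), ((r i0 g).map (residue (O i0))) *ᵥ v = c • v := by
    rintro ⟨v, hv, hline⟩
    refine not_isIrreducible_baseChange_of_line (ρ i0).residual
      (resBasis (ρ i0) (stdBasis (ρ i0))) (AlgebraicClosure (ResidueField (O i0)))
      ((algebraMap (ResidueField (O i0)) (AlgebraicClosure (ResidueField (O i0)))) ∘ v) ?_ ?_ hirr
    · intro h
      apply hv
      funext a
      have := congrFun h a
      simp only [Function.comp_apply, Pi.zero_apply] at this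
      exact (map_eq_zero_iff _ (algebraMap (ResidueField (O i0))
        (AlgebraicClosure (ResidueField (O i0)))).injective).mp this
    · intro σ
      obtain ⟨c, hc⟩ := hline σ
      refine ⟨algebraMap _ _ c, ?_⟩
      rw [toMatRes_residual, mapMat_apply]
      funext a
      rw [← RingHom.map_mulVec, hc]
      simp
  obtain ⟨rT, hcont, -, htd, heq, -, hnoline⟩ :=
    exists_glue_mat f r hloc hinj hr hfrob' g0 α β hαβ htr0' hdet0' i0 hirr'
  have hcharp : ∀ i σ, LinearMap.charpoly ((ρ i).ρ σ) =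
      (LinearMap.charpoly ((ofMat rT hcont).ρ σ)).map (f i) := by
    intro i σ
    rw [← hcp, charpoly_ofMat, Matrix.charpoly_fin_two, Matrix.charpoly_fin_two,
      ← (htd i σ).1, ← (htd i σ).2]
    simp
  refine ⟨ofMat rT hcont, hcharp, ?_, ?_, ?_⟩
  · intro σ σ' h
    have h1 : rT σ = rT σ' := heq σ σ' fun i => by
      show toMat (ρ i) (stdBasis (ρ i)) σ = toMat (ρ i) (stdBasis (ρ i)) σ'
      rw [toMat_apply, toMat_apply, h i]
    show matEnd rT σ = matEnd rT σ'
    rw [matEnd, MonoidHom.comp_apply, MonoidHom.comp_apply, h1]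
  · by_contra hnot
    obtain ⟨v, hv, hline⟩ := exists_line_of_not_isIrreducible_baseChange
      (ofMat rT hcont).residual (resBasis (ofMat rT hcont) (ofMatBasis rT hcont))
      (AlgebraicClosure (ResidueField T)) hnot
    refine hnoline (AlgebraicClosure (ResidueField T))
      ((algebraMap (ResidueField T) (AlgebraicClosure (ResidueField T))).comp (residue T)) v hv
      fun g => ?_
    obtain ⟨c, hc⟩ := hline g
    refine ⟨c, ?_⟩
    rw [toMatRes_residual, mapMat_apply, toMat_ofMat, Matrix.map_map] at hc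
    exact hc
  · intro ℓ hℓ hℓB A hA σ hσ
    refine poly_eq_of_forall_map_eq f hinj fun i => ?_
    rw [← hcharp i σ, hfrob ℓ hℓ hℓB A hA σ hσ i]
    simp

end Wrapper

end Fermat.Agent.GB.Glue.AdicGlue
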