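/-
GATE-B / B4, node GB-GLUE (helper36), file 5: the ODD case of the gluing theorem.

For `p` odd and adic representations with cyclotomic determinant, complex conjugation `c` has
`det ρ(c) = -1` and `tr ρ(c) = 0`, so `g0 = c`, `α = 1`, `β = -1` discharge the split-element
binder of `AdicGlue.exists_glue_adic`:

`exists_glue_adic_odd`: a finite jointly injective family of local homomorphisms
`f i : T →+* O i`, adic Galois representations `ρ i` over `O i` with Frobenius characteristic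
polynomials `X² - f_i(t_ℓ) X + ℓ` for `ℓ ∉ B ∋ p`, one of them residually absolutely irreducible
⟹ ONE `ρT : GaloisRepAdic T` with `charpoly ρT(Frob_ℓ) = X² - t_ℓ X + ℓ`, cyclotomic determinant,
absolutely irreducible residual representation, compatible with every `ρ i`.
-/
import Mathlib
import Fermat.Prelude.Def_GaloisRep_Adic
import Fermat.Prelude.Def_GaloisRep_LocalConditions
import Fermat.Prelude.Def_GaloisRep_ComplexConjugation
import Fermat.Agent.GJ.Cyc.TateCyc
import Fermat.Agent.GS.DetCyc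
import Fermat.Agent.GB.Glue.AdicGlue

set_option autoImplicit false

noncomputable section

namespace Fermat.Agent.GB.Glue.Odd

open IsLocalRing Polynomial Matrix
open Fermat.Agent.S53_helper35 (toMat stdBasis trace_eq_trace_toMat det_eq_det_toMat)

local notation "GQ" => (AlgebraicClosure ℚ ≃ₐ[ℚ] AlgebraicClosure ℚ)
local notation "Qb" => AlgebraicClosure ℚ

section Conj

variable {A : Type} [CommRing A] [IsLocalRing A]

/-- **Oddness**: a representation with cyclotomic determinant has `det ρ(c) = -1`. -/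
theorem det_complexConjugation [IsNoetherianRing A] (ρ : GaloisRepAdic A) (p : ℕ)
    (hp : p.Prime) (hρ : ρ.DetIsCyclotomic p) :
    LinearMap.det (ρ.ρ complexConjugation) = -1 := by
  rw [← sub_eq_zero, sub_neg_eq_add]
  have hmem : LinearMap.det (ρ.ρ complexConjugation) + 1 ∈ ⨅ n, maximalIdeal A ^ n := by
    rw [Submodule.mem_iInf]
    intro n
    have hpn : 0 < p ^ n := pow_pos hp.pos n
    have h1 := hρ.2 n complexConjugation (p ^ n - 1) (by
      intro μ hμ
      rw [Fermat.Agent.GJ.Cyc.complexConjugation_rootOfUnity (p ^ n) hpn.ne' μ hμ]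
      have hμ0 : μ ≠ 0 := by
        intro h0
        rw [h0, zero_pow hpn.ne'] at hμ
        exact zero_ne_one hμ
      symm
      apply eq_inv_of_mul_eq_one_left
      rw [← pow_succ, Nat.sub_add_cancel hpn, hμ])
    have hcast : ((p ^ n - 1 : ℕ) : A) = ((p ^ n : ℕ) : A) - 1 := by
      rw [Nat.cast_sub hpn, Nat.cast_one]
    have hpnm : ((p ^ n : ℕ) : A) ∈ maximalIdeal A ^ n := by
      rw [Nat.cast_pow]
      exact Ideal.pow_mem_pow hρ.1 n
    have hspan : Ideal.span {((p ^ n : ℕ) : A)} ≤ maximalIdeal A ^ n :=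
      (Ideal.span_singleton_le_iff_mem _).mpr hpnm
    have h2 := hspan h1
    rw [hcast] at h2
    have : LinearMap.det (ρ.ρ complexConjugation) + 1 =
        (LinearMap.det (ρ.ρ complexConjugation) - (((p ^ n : ℕ) : A) - 1)) + ((p ^ n : ℕ) : A) := by
      ring
    rw [this]
    exact add_mem h2 hpnm
  rwa [Ideal.iInf_pow_eq_bot_of_isLocalRing _ (maximalIdeal.isMaximal A).ne_top,
    Submodule.mem_bot] at hmem

/-- An involution of determinant `-1` has trace zero. -/
theorem trace_eq_zero_of_involution {R : Type*} [CommRing R] (M : Matrix (Fin 2) (Fin 2) R)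
    (hM : M * M = 1) (hdet : M.det = -1) : M.trace = 0 := by
  have h1 := Core.sq_fin_two M
  rw [hM, hdet] at h1
  have h2 : M.trace • M = 0 := by
    rw [neg_smul, one_smul, sub_neg_eq_add] at h1
    exact add_eq_right.mp h1.symm
  have h4 : M.trace • (M * M) = 0 := by rw [← smul_mul_assoc, h2, zero_mul]
  rw [hM] at h4
  have := congrFun (congrFun h4 0) 0
  simpa using this

theorem trace_complexConjugation [IsNoetherianRing A] (ρ : GaloisRepAdic A) (p : ℕ)
    (hp : p.Prime) (hρ : ρ.DetIsCyclotomic p) : ρ.trace complexConjugation = 0 := by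
  rw [trace_eq_trace_toMat ρ (stdBasis ρ)]
  refine trace_eq_zero_of_involution _ ?_ ?_
  · rw [← map_mul, complexConjugation_mul_self, map_one]
  · rw [← det_eq_det_toMat, det_complexConjugation ρ p hp hρ]

end Conj

section Main

variable {T : Type} [CommRing T] [IsLocalRing T] [IsNoetherianRing T]
  [IsAdicComplete (maximalIdeal T) T]
  {ι : Type} [Finite ι] {O : ι → Type} [∀ i, CommRing (O i)] [∀ i, IsLocalRing (O i)]
  [∀ i, IsNoetherianRing (O i)]

omit [IsNoetherianRing T] [IsAdicComplete (maximalIdeal T) T] in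
theorem isUnit_two {p : ℕ} (hp : p.Prime) (hp2 : p ≠ 2) (hpT : (p : T) ∈ maximalIdeal T) :
    IsUnit (2 : T) := by
  by_contra h2
  have h2m : (2 : T) ∈ maximalIdeal T := (mem_maximalIdeal _).mpr h2
  obtain ⟨k, hk⟩ := hp.odd_of_ne_two hp2
  have h1 : (1 : T) = (p : T) - 2 * (k : T) := by
    rw [hk]; push_cast; ring
  have : (1 : T) ∈ maximalIdeal T := by
    rw [h1]
    exact sub_mem hpT (Ideal.mul_mem_right _ _ h2m)
  exact (maximalIdeal.isMaximal T).ne_top ((Ideal.eq_top_iff_one _).mpr this)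

/-- **Gluing, odd case.** -/
theorem exists_glue_adic_odd (p : ℕ) (hp : p.Prime) (hp2 : p ≠ 2)
    (hpT : (p : T) ∈ maximalIdeal T) (f : ∀ i, T →+* O i) (hloc : ∀ i, IsLocalHom (f i))
    (hinj : ∀ t : T, (∀ i, f i t = 0) → t = 0) (ρ : ∀ i, GaloisRepAdic (O i))
    (B : Finset ℕ) (hpB : p ∈ B) (t : ℕ → T)
    (hfrob : ∀ ℓ : ℕ, ℓ.Prime → ℓ ∉ B → ∀ A : ValuationSubring Qb, A.LiesOverPrime ℓ →
      ∀ σ : GQ, A.IsFrobeniusAt σ ℓ → ∀ i,
        LinearMap.charpoly ((ρ i).ρ σ) = X ^ 2 - C (f i (t ℓ)) * X + C ((ℓ : O i)))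
    (i0 : ι) (hirr : (ρ i0).residual.IsAbsolutelyIrreducible) :
    ∃ ρT : GaloisRepAdic T,
      (∀ i σ, LinearMap.charpoly ((ρ i).ρ σ) = (LinearMap.charpoly (ρT.ρ σ)).map (f i)) ∧
      (∀ σ σ', (∀ i, (ρ i).ρ σ = (ρ i).ρ σ') → ρT.ρ σ = ρT.ρ σ') ∧
      ρT.residual.IsAbsolutelyIrreducible ∧
      (∀ ℓ : ℕ, ℓ.Prime → ℓ ∉ B → ∀ A : ValuationSubring Qb, A.LiesOverPrime ℓ →
        ∀ σ : GQ, A.IsFrobeniusAt σ ℓ →
          LinearMap.charpoly (ρT.ρ σ) = X ^ 2 - C (t ℓ) * X + C ((ℓ : T))) ∧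
      ρT.DetIsCyclotomic p := by
  haveI : Fact p.Prime := ⟨hp⟩
  have hpO : ∀ i, (p : O i) ∈ maximalIdeal (O i) := fun i => by
    have h := Closed.map_mem_pow f hloc i 1 _ (by rw [pow_one]; exact hpT)
    rwa [pow_one, map_natCast] at h
  have hcyc : ∀ i, (ρ i).DetIsCyclotomic p := fun i =>
    Fermat.Agent.GS.DetCyc.detIsCyclotomic_of_charpoly_frob (ρ i) B hpB (hpO i)
      (fun ℓ => f i (t ℓ)) (fun ℓ hℓ hℓB A hA σ hσ => hfrob ℓ hℓ hℓB A hA σ hσ i)
  have hu : IsUnit ((1 : T) - (-1)) := by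
    have : (1 : T) - (-1) = 2 := by ring
    rw [this]; exact isUnit_two hp hp2 hpT
  obtain ⟨ρT, h1, h2, h3, h4⟩ := AdicGlue.exists_glue_adic f hloc hinj ρ B t (fun ℓ => (ℓ : T))
    (fun ℓ hℓ hℓB A hA σ hσ i => by
      rw [map_natCast]; exact hfrob ℓ hℓ hℓB A hA σ hσ i)
    complexConjugation 1 (-1) hu
    (fun i => by
      rw [trace_complexConjugation (ρ i) p hp (hcyc i), map_one, map_neg, map_one, add_neg_cancel])
    (fun i => by
      rw [det_complexConjugation (ρ i) p hp (hcyc i), map_one, map_neg, map_one, one_mul])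
    i0 hirr
  refine ⟨ρT, h1, h2, h3, h4, ?_⟩
  exact Fermat.Agent.GS.DetCyc.detIsCyclotomic_of_charpoly_frob ρT B hpB hpT t h4

end Main

end Fermat.Agent.GB.Glue.Odd
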