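/-
GATE-B / B4, node GB-GLUE (helper36), file 6: the glued representation over a Hecke ring from S30.

`T` a complete Noetherian local ring of residue characteristic `p` odd, `π : heckeAlgebra N 2 S →+* T`,
`φ i : T →+* O' i` a finite jointly injective family of local homomorphisms into complete discrete
valuation rings (finite residue fields, characteristic zero) — the points of `T`.  S30 [main]
attaches to every point `χ i = φ i ∘ π` a representation over an extension `O'' i`; if ONE of them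
is residually absolutely irreducible, they glue (`Odd.exists_glue_adic_odd`) to

  `ρT : GaloisRepAdic T` with `charpoly ρT(Frob_ℓ) = X² - π(T_ℓ) X + ℓ` (the field `charpoly_frob`
  of `HeckeGaloisRepDatum`), `ρT.residual.IsAbsolutelyIrreducible` (the field `residual_absIrr`),
  `ρT.DetIsCyclotomic p`, and `ρT` unramified at every prime `q ∤ N`, `q ≠ p`.
-/
import Mathlib
import Fermat.Agent.S30
import Fermat.Agent.GB.Glue.Odd

set_option autoImplicit false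

noncomputable section

namespace Fermat.Agent.GB.Glue.OfS30

open IsLocalRing Polynomial CuspForm

local notation "GQ" => (AlgebraicClosure ℚ ≃ₐ[ℚ] AlgebraicClosure ℚ)
local notation "Qb" => AlgebraicClosure ℚ

/-- The output of S30 at one point `χ : heckeAlgebra N 2 S →+* 𝒪'`, bundled. -/
structure S30Out (p : ℕ) (N : ℕ) [NeZero N] (S : Finset ℕ) (𝒪' : Type) [CommRing 𝒪']
    (χ : heckeAlgebra N 2 (↑S : Set ℕ) →+* 𝒪') : Type 1 where
  /-- the coefficient ring of the representation -/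
  R : Type
  [commRing : CommRing R]
  [isDomain : IsDomain R]
  [isDVR : IsDiscreteValuationRing R]
  [algebra : Algebra 𝒪' R]
  isLocalHom : IsLocalHom (algebraMap 𝒪' R)
  injective : Function.Injective (algebraMap 𝒪' R)
  /-- the representation -/
  ρ : GaloisRepAdic R
  charpoly_frob : ∀ (ℓ : ℕ) (hℓ : ℓ.Prime) (hℓN : ¬ ℓ ∣ N) (hℓS : ℓ ∉ (↑S : Set ℕ)),
    ∀ A : ValuationSubring Qb, A.LiesOverPrime ℓ → ∀ σ : GQ, A.IsFrobeniusAt σ ℓ →
      LinearMap.charpoly (ρ.ρ σ) =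
        X ^ 2 - C (algebraMap 𝒪' R (χ (heckeAlgebra.T hℓ hℓN hℓS))) * X + C ((ℓ : R))
  unramified : ∀ q : ℕ, q.Prime → ¬ q ∣ N → q ≠ p → ρ.IsUnramifiedAt q

attribute [instance] S30Out.commRing S30Out.isDomain S30Out.isDVR S30Out.algebra

/-- S30 [main], bundled. -/
theorem nonempty_s30Out (p : ℕ) [Fact p.Prime] (N : ℕ) [NeZero N] (S : Finset ℕ)
    (hpS : p ∈ S) (hNS : ∀ q : ℕ, q.Prime → q ∣ N → q ∈ S)
    (𝒪' : Type) [CommRing 𝒪'] [IsDomain 𝒪'] [IsDiscreteValuationRing 𝒪']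
    [IsAdicComplete (maximalIdeal 𝒪') 𝒪'] [Finite (ResidueField 𝒪')] [CharZero 𝒪']
    (hp𝒪' : (p : 𝒪') ∈ maximalIdeal 𝒪') (χ : heckeAlgebra N 2 (↑S : Set ℕ) →+* 𝒪') :
    Nonempty (S30Out p N S 𝒪' χ) := by
  obtain ⟨R, i1, i2, i3, _, _, _, i7, _, i9, hinj, ρ, h1, h2⟩ :=
    Fermat.Agent.S30.result p N S hpS hNS 𝒪' hp𝒪' χ
  exact ⟨{ R := R, isLocalHom := i9, injective := hinj, ρ := ρ, charpoly_frob := h1,
            unramified := h2 }⟩

section Main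

variable {T : Type} [CommRing T] [IsLocalRing T] [IsNoetherianRing T]
  [IsAdicComplete (maximalIdeal T) T]
  {ι : Type} [Finite ι] {O' : ι → Type} [∀ i, CommRing (O' i)] [∀ i, IsDomain (O' i)]
  [∀ i, IsDiscreteValuationRing (O' i)] [∀ i, IsAdicComplete (maximalIdeal (O' i)) (O' i)]
  [∀ i, Finite (ResidueField (O' i))] [∀ i, CharZero (O' i)]

/-- **The glued representation over a Hecke ring with jointly injective points.** -/
theorem exists_rho_of_points (p : ℕ) [Fact p.Prime] (hp2 : p ≠ 2) (N : ℕ) [NeZero N]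
    (S : Finset ℕ) (hpS : p ∈ S) (hNS : ∀ q : ℕ, q.Prime → q ∣ N → q ∈ S)
    (hpT : (p : T) ∈ maximalIdeal T) (π : heckeAlgebra N 2 (↑S : Set ℕ) →+* T)
    (φ : ∀ i, T →+* O' i) (hloc : ∀ i, IsLocalHom (φ i))
    (hinj : ∀ t : T, (∀ i, φ i t = 0) → t = 0) (i0 : ι)
    (habs : ∀ D : S30Out p N S (O' i0) ((φ i0).comp π), D.ρ.residual.IsAbsolutelyIrreducible) :
    ∃ ρT : GaloisRepAdic T,
      (∀ (ℓ : ℕ) (hℓ : ℓ.Prime) (hℓN : ¬ ℓ ∣ N) (hℓS : ℓ ∉ (↑S : Set ℕ)),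
        ∀ A : ValuationSubring Qb, A.LiesOverPrime ℓ → ∀ σ : GQ, A.IsFrobeniusAt σ ℓ →
          LinearMap.charpoly (ρT.ρ σ) =
            X ^ 2 - C (π (heckeAlgebra.T hℓ hℓN hℓS)) * X + C ((ℓ : T))) ∧
      ρT.residual.IsAbsolutelyIrreducible ∧ ρT.DetIsCyclotomic p ∧
      (∀ q : ℕ, q.Prime → ¬ q ∣ N → q ≠ p → ρT.IsUnramifiedAt q) := by
  have hp : p.Prime := Fact.out
  have hpO : ∀ i, (p : O' i) ∈ maximalIdeal (O' i) := fun i => by
    have h := Closed.map_mem_pow φ hloc i 1 _ (by rw [pow_one]; exact hpT)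
    rwa [pow_one, map_natCast] at h
  -- S30 at every point
  have hD : ∀ i, Nonempty (S30Out p N S (O' i) ((φ i).comp π)) := fun i =>
    nonempty_s30Out p N S hpS hNS (O' i) (hpO i) ((φ i).comp π)
  let D : ∀ i, S30Out p N S (O' i) ((φ i).comp π) := fun i => (hD i).some
  -- the composite points
  let f : ∀ i, T →+* (D i).R := fun i => (algebraMap (O' i) (D i).R).comp (φ i)
  have hlocf : ∀ i, IsLocalHom (f i) := fun i => by
    haveI := hloc i
    haveI := (D i).isLocalHom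
    exact RingHom.isLocalHom_comp _ _
  have hinjf : ∀ t : T, (∀ i, f i t = 0) → t = 0 := fun t ht =>
    hinj t fun i => (D i).injective (by rw [map_zero]; exact ht i)
  -- the trace values at Frobenius
  let t : ℕ → T := fun ℓ =>
    if h : ℓ.Prime ∧ ¬ ℓ ∣ N ∧ ℓ ∉ (↑S : Set ℕ) then π (heckeAlgebra.T h.1 h.2.1 h.2.2) else 0
  have ht : ∀ (ℓ : ℕ) (hℓ : ℓ.Prime) (hℓN : ¬ ℓ ∣ N) (hℓS : ℓ ∉ (↑S : Set ℕ)),
      t ℓ = π (heckeAlgebra.T hℓ hℓN hℓS) := fun ℓ hℓ hℓN hℓS => dif_pos ⟨hℓ, hℓN, hℓS⟩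
  have hfrob : ∀ ℓ : ℕ, ℓ.Prime → ℓ ∉ S → ∀ A : ValuationSubring Qb, A.LiesOverPrime ℓ →
      ∀ σ : GQ, A.IsFrobeniusAt σ ℓ → ∀ i,
        LinearMap.charpoly (((D i).ρ).ρ σ) = X ^ 2 - C (f i (t ℓ)) * X + C ((ℓ : (D i).R)) := by
    intro ℓ hℓ hℓS A hA σ hσ i
    have hℓN : ¬ ℓ ∣ N := fun h => hℓS (hNS ℓ hℓ h)
    have hℓS' : ℓ ∉ (↑S : Set ℕ) := by simpa using hℓS
    rw [(D i).charpoly_frob ℓ hℓ hℓN hℓS' A hA σ hσ, ht ℓ hℓ hℓN hℓS']
    rfl
  obtain ⟨ρT, -, h2, h3, h4, h5⟩ := Odd.exists_glue_adic_odd p hp hp2 hpT f hlocf hinjf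
    (fun i => (D i).ρ) S hpS t hfrob i0 (habs (D i0))
  refine ⟨ρT, ?_, h3, h5, ?_⟩
  · intro ℓ hℓ hℓN hℓS A hA σ hσ
    have hℓS' : ℓ ∉ S := by simpa using hℓS
    rw [h4 ℓ hℓ hℓS' A hA σ hσ, ht ℓ hℓ hℓN hℓS]
  · intro q hq hqN hqp P hP σ hσ
    have := h2 σ 1 fun i => by
      rw [(D i).unramified q hq hqN hqp P hP σ hσ, map_one]
    rw [this, map_one]

end Main

end Fermat.Agent.GB.Glue.OfS30
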