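/-
GATE-B / B4, node GB-GLUE-HABS (helper36): absolute irreducibility and the residual
isomorphism from a residual representation `ρbar`.

* `isAbsolutelyIrreducible_of_isEquiv`        : absolute irreducibility is an isomorphism invariant;
* `isAbsolutelyIrreducible_baseChangeAlong`   : … and is stable under extension of the field;
* `residual_isEquiv_of_frob`                  : `ρ` over a local ring `A` whose traces at the
  Frobenius lifts outside a finite set reduce to those of an absolutely irreducible `ρbar`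
  (through `ψ : k₀ →+* ResidueField A`) has `ρ.residual ≃ ρbar ⊗_ψ (ResidueField A)` and is
  residually absolutely irreducible;
* `habs_of_rhobar`                            : the `habs` binder of `OfS30.exists_rho_of_points`;
* `hres_of_datum`                             : the `hres` binder of the frozen S54, for every
  `HeckeGaloisRepDatum`.
-/
import Mathlib
import Fermat.Agent.GB.Glue.OfS30
import Fermat.Agent.GB.Setup.Carayol2
import Fermat.Agent.GB.B4.GlueOut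
import Fermat.Agent.S53_helper35.Wrappers
import Fermat.Prelude.Def_CuspForm_HeckeGaloisRepDatum

set_option autoImplicit false

noncomputable section

namespace Fermat.Agent.GB.Glue.Habs

open IsLocalRing Polynomial CuspForm

local notation "GQ" => (AlgebraicClosure ℚ ≃ₐ[ℚ] AlgebraicClosure ℚ)
local notation "Qb" => AlgebraicClosure ℚ

section Field

variable {k : Type} [Field k]

/-- Absolute irreducibility is invariant under isomorphism. -/
theorem isAbsolutelyIrreducible_of_isEquiv {ρ₁ ρ₂ : ResidualGaloisRep k} (e : ρ₁.IsEquiv ρ₂)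
    (h : ρ₁.IsAbsolutelyIrreducible) : ρ₂.IsAbsolutelyIrreducible := by
  obtain ⟨e⟩ := e
  apply Fermat.Agent.GB.B4.GlueOut.isAbsolutelyIrreducible_of_span
  have h1 := Fermat.Agent.S53_helper59.span_range_eq_top_of_isAbsolutelyIrreducible ρ₁ h
  have hconj : ∀ σ : GQ, e.toLinearEquiv.conj (ρ₁.ρ σ) = ρ₂.ρ σ := by
    intro σ
    refine LinearMap.ext fun y => ?_
    rw [LinearEquiv.conj_apply, LinearMap.comp_apply, LinearMap.comp_apply]
    change e.toLinearEquiv (ρ₁.ρ σ (e.toLinearEquiv.symm y)) = _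
    rw [e.map_apply, LinearEquiv.apply_symm_apply]
  have h2 : Submodule.map (e.toLinearEquiv.conj : Module.End k ρ₁.V →ₗ[k] Module.End k ρ₂.V)
      (Submodule.span k (Set.range ρ₁.ρ)) = Submodule.span k (Set.range ρ₂.ρ) := by
    rw [Submodule.map_span, ← Set.range_comp]
    congr 1
    ext f
    constructor
    · rintro ⟨σ, rfl⟩
      exact ⟨σ, (hconj σ).symm⟩
    · rintro ⟨σ, rfl⟩
      exact ⟨σ, hconj σ⟩
  rw [← h2, h1, Submodule.map_top, LinearMap.range_eq_top]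
  exact e.toLinearEquiv.conj.surjective

/-- Absolute irreducibility is stable under extension of the coefficient field. -/
theorem isAbsolutelyIrreducible_baseChangeAlong {k' : Type} [Field k'] (ψ : k →+* k')
    (ρ : ResidualGaloisRep k) (h : ρ.IsAbsolutelyIrreducible) :
    (ρ.baseChangeAlong ψ).IsAbsolutelyIrreducible := by
  have b := Fermat.Agent.S53_helper35.stdBasisRes ρ
  apply Fermat.Agent.GB.B4.GlueOut.isAbsolutelyIrreducible_of_span_toMatRes
    (ρ.baseChangeAlong ψ) (Fermat.Agent.S53_helper35.bcBasisRes ψ ρ b)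
  rw [Fermat.Agent.S53_helper35.toMatRes_baseChangeAlong]
  exact Fermat.Agent.S53_helper35.span_range_mapMat_eq_top ψ
    (Fermat.Agent.S53_helper35.span_range_toMatRes_eq_top ρ h b)

/-- the trace of a base-changed residual representation -/
theorem trace_baseChangeAlong {k' : Type} [Field k'] (ψ : k →+* k')
    (ρ : ResidualGaloisRep k) (σ : GQ) :
    LinearMap.trace k' (ρ.baseChangeAlong ψ).V ((ρ.baseChangeAlong ψ).ρ σ) =
      ψ (LinearMap.trace k ρ.V (ρ.ρ σ)) := by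
  letI : Algebra k k' := ψ.toAlgebra
  exact LinearMap.trace_baseChange (ρ.ρ σ) k'

/-- the characteristic polynomial of a base-changed residual representation -/
theorem charpoly_baseChangeAlong {k' : Type} [Field k'] (ψ : k →+* k')
    (ρ : ResidualGaloisRep k) (σ : GQ) :
    LinearMap.charpoly ((ρ.baseChangeAlong ψ).ρ σ) = (LinearMap.charpoly (ρ.ρ σ)).map ψ := by
  letI : Algebra k k' := ψ.toAlgebra
  exact LinearMap.charpoly_baseChange (ρ.ρ σ) k'

end Field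

section Adic

variable {A : Type} [CommRing A] [IsLocalRing A]

/-- the trace of the residual representation -/
theorem trace_residual (ρ : GaloisRepAdic A) (σ : GQ) :
    LinearMap.trace (ResidueField A) ρ.residual.V (ρ.residual.ρ σ) =
      residue A (LinearMap.trace A ρ.V (ρ.ρ σ)) :=
  LinearMap.trace_baseChange (ρ.ρ σ) (ResidueField A)

/-- the characteristic polynomial of the residual representation -/
theorem charpoly_residual (ρ : GaloisRepAdic A) (σ : GQ) :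
    LinearMap.charpoly (ρ.residual.ρ σ) = (LinearMap.charpoly (ρ.ρ σ)).map (residue A) :=
  LinearMap.charpoly_baseChange (ρ.ρ σ) (ResidueField A)

/-- **Residual Brauer–Nesbitt.**  If the traces of `ρ` at the Frobenius lifts outside a finite
set `B` of primes reduce to the traces of an absolutely irreducible `ρbar`, then
`ρ.residual ≃ ρbar ⊗_ψ (ResidueField A)`, and `ρ` is residually absolutely irreducible. -/
theorem residual_isEquiv_of_frob (ρ : GaloisRepAdic A) {k₀ : Type} [Field k₀]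
    (ρbar : ResidualGaloisRep k₀) (ψ : k₀ →+* ResidueField A)
    (habs : ρbar.IsAbsolutelyIrreducible) (B : Finset ℕ)
    (hfrob : ∀ ℓ : ℕ, ℓ.Prime → ℓ ∉ B → ∀ P : ValuationSubring Qb, P.LiesOverPrime ℓ →
      ∀ σ : GQ, P.IsFrobeniusAt σ ℓ →
        residue A (LinearMap.trace A ρ.V (ρ.ρ σ)) = ψ (LinearMap.trace k₀ ρbar.V (ρbar.ρ σ))) :
    ρ.residual.IsEquiv (ρbar.baseChangeAlong ψ) ∧ ρ.residual.IsAbsolutelyIrreducible := by
  have h2 := isAbsolutelyIrreducible_baseChangeAlong ψ ρbar habs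
  have he : ρ.residual.IsEquiv (ρbar.baseChangeAlong ψ) := by
    apply Fermat.Agent.GB.Setup.Carayol2.isEquiv_of_frob' ρ.residual (ρbar.baseChangeAlong ψ) h2 B
    intro ℓ hℓ hℓB P hP σ hσ
    rw [trace_residual, trace_baseChangeAlong]
    exact hfrob ℓ hℓ hℓB P hP σ hσ
  refine ⟨he, ?_⟩
  obtain ⟨e⟩ := he
  exact isAbsolutelyIrreducible_of_isEquiv ⟨e.symm⟩ h2

/-- the trace from a characteristic polynomial `X² - tX + d` (adic form) -/
theorem trace_eq_of_charpoly_eq (ρ : GaloisRepAdic A) (σ : GQ) (t d : A)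
    (h : LinearMap.charpoly (ρ.ρ σ) = X ^ 2 - C t * X + C d) :
    LinearMap.trace A ρ.V (ρ.ρ σ) = t := by
  classical
  set b := Module.finBasisOfFinrankEq A ρ.V ρ.finrank_eq with hb
  have h1 : (LinearMap.toMatrix b b (ρ.ρ σ)).charpoly = X ^ 2 - C t * X + C d := by
    rw [LinearMap.charpoly_toMatrix]
    exact h
  rw [LinearMap.trace_eq_matrix_trace A b]
  exact (Fermat.Agent.GB.Glue.AdicGlue.trace_det_of_charpoly_eq _ t d h1).1

/-- **Residual Brauer–Nesbitt, characteristic polynomial form.** -/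
theorem residual_isEquiv_of_charpoly (ρ : GaloisRepAdic A) {k₀ : Type} [Field k₀]
    (ρbar : ResidualGaloisRep k₀) (ψ : k₀ →+* ResidueField A)
    (habs : ρbar.IsAbsolutelyIrreducible) (B : Finset ℕ)
    (hfrob : ∀ ℓ : ℕ, ℓ.Prime → ℓ ∉ B → ∀ P : ValuationSubring Qb, P.LiesOverPrime ℓ →
      ∀ σ : GQ, P.IsFrobeniusAt σ ℓ → ∃ (t d : A) (t₀ d₀ : k₀),
        LinearMap.charpoly (ρ.ρ σ) = X ^ 2 - C t * X + C d ∧
        LinearMap.charpoly (ρbar.ρ σ) = X ^ 2 - C t₀ * X + C d₀ ∧ residue A t = ψ t₀) :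
    ρ.residual.IsEquiv (ρbar.baseChangeAlong ψ) ∧ ρ.residual.IsAbsolutelyIrreducible := by
  apply residual_isEquiv_of_frob ρ ρbar ψ habs B
  intro ℓ hℓ hℓB P hP σ hσ
  obtain ⟨t, d, t₀, d₀, h1, h2, h3⟩ := hfrob ℓ hℓ hℓB P hP σ hσ
  rw [trace_eq_of_charpoly_eq ρ σ t d h1,
    Fermat.Agent.GB.Setup.Carayol2.trace_eq_of_charpoly_eq ρbar σ t₀ d₀ h2, h3]

end Adic

section Hecke

/-- a prime outside `S ∪ N.primeFactors` is a good prime -/
theorem good_of_not_mem (N : ℕ) [NeZero N] (S : Finset ℕ) {ℓ : ℕ} (hℓ : ℓ.Prime)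
    (h : ℓ ∉ S ∪ N.primeFactors) : ¬ ℓ ∣ N ∧ ℓ ∉ (↑S : Set ℕ) := by
  rw [Finset.mem_union, not_or] at h
  refine ⟨fun hd => h.2 (Nat.mem_primeFactors.mpr ⟨hℓ, hd, NeZero.ne N⟩), ?_⟩
  intro hS
  exact h.1 (Finset.mem_coe.mp hS)

/-- **The `habs` binder of `OfS30.exists_rho_of_points`.**  If `ρbar` (over any field `k₀`) is
absolutely irreducible with `charpoly ρbar(Frob_ℓ) = X² - θ(T_ℓ) X + d` at the good primes, and the
point `χ` reduces to `θ` through `ψ : k₀ →+* ResidueField 𝒪'`, then every output of S30 at `χ` is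
residually absolutely irreducible, and its residual representation is `ρbar` extended. -/
theorem residual_isEquiv_s30Out (p : ℕ) (N : ℕ) [NeZero N] (S : Finset ℕ)
    {𝒪' : Type} [CommRing 𝒪'] [IsLocalRing 𝒪'] (χ : heckeAlgebra N 2 (↑S : Set ℕ) →+* 𝒪')
    {k₀ : Type} [Field k₀] (ρbar : ResidualGaloisRep k₀) (habs : ρbar.IsAbsolutelyIrreducible)
    (θ : heckeAlgebra N 2 (↑S : Set ℕ) →+* k₀) (ψ : k₀ →+* ResidueField 𝒪')
    (hθ : ∀ t, residue 𝒪' (χ t) = ψ (θ t))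
    (hfrob : ∀ (ℓ : ℕ) (hℓ : ℓ.Prime) (hℓN : ¬ ℓ ∣ N) (hℓS : ℓ ∉ (↑S : Set ℕ)),
      ∀ P : ValuationSubring Qb, P.LiesOverPrime ℓ → ∀ σ : GQ, P.IsFrobeniusAt σ ℓ →
        ∃ d₀ : k₀, LinearMap.charpoly (ρbar.ρ σ) =
          X ^ 2 - C (θ (heckeAlgebra.T hℓ hℓN hℓS)) * X + C d₀)
    (D : OfS30.S30Out p N S 𝒪' χ) :
    haveI := D.isLocalHom
    D.ρ.residual.IsEquiv
      (ρbar.baseChangeAlong ((ResidueField.map (algebraMap 𝒪' D.R)).comp ψ)) ∧
      D.ρ.residual.IsAbsolutelyIrreducible := by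
  haveI := D.isLocalHom
  apply residual_isEquiv_of_charpoly D.ρ ρbar _ habs (S ∪ N.primeFactors)
  intro ℓ hℓ hℓB P hP σ hσ
  obtain ⟨hℓN, hℓS⟩ := good_of_not_mem N S hℓ hℓB
  obtain ⟨d₀, h0⟩ := hfrob ℓ hℓ hℓN hℓS P hP σ hσ
  refine ⟨_, _, _, d₀, D.charpoly_frob ℓ hℓ hℓN hℓS P hP σ hσ, h0, ?_⟩
  rw [RingHom.comp_apply, ← hθ]
  rfl

/-- **The `habs` binder of `OfS30.exists_rho_of_points`**, in the shape of that binder. -/
theorem habs_of_rhobar (p : ℕ) (N : ℕ) [NeZero N] (S : Finset ℕ)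
    {𝒪' : Type} [CommRing 𝒪'] [IsLocalRing 𝒪'] (χ : heckeAlgebra N 2 (↑S : Set ℕ) →+* 𝒪')
    {k₀ : Type} [Field k₀] (ρbar : ResidualGaloisRep k₀) (habs : ρbar.IsAbsolutelyIrreducible)
    (θ : heckeAlgebra N 2 (↑S : Set ℕ) →+* k₀) (ψ : k₀ →+* ResidueField 𝒪')
    (hθ : ∀ t, residue 𝒪' (χ t) = ψ (θ t))
    (hfrob : ∀ (ℓ : ℕ) (hℓ : ℓ.Prime) (hℓN : ¬ ℓ ∣ N) (hℓS : ℓ ∉ (↑S : Set ℕ)),
      ∀ P : ValuationSubring Qb, P.LiesOverPrime ℓ → ∀ σ : GQ, P.IsFrobeniusAt σ ℓ →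
        ∃ d₀ : k₀, LinearMap.charpoly (ρbar.ρ σ) =
          X ^ 2 - C (θ (heckeAlgebra.T hℓ hℓN hℓS)) * X + C d₀) :
    ∀ D : OfS30.S30Out p N S 𝒪' χ, D.ρ.residual.IsAbsolutelyIrreducible :=
  fun D => (residual_isEquiv_s30Out p N S χ ρbar habs θ ψ hθ hfrob D).2

variable {𝒪 : Type} [CommRing 𝒪] [IsDomain 𝒪] [IsDiscreteValuationRing 𝒪]
  [IsAdicComplete (maximalIdeal 𝒪) 𝒪] {N : ℕ} [NeZero N] {S : Set ℕ}
  {θ : heckeAlgebra N 2 S →+* ResidueField 𝒪}
  {T : Type} [CommRing T] [IsLocalRing T] [IsNoetherianRing T]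
  [IsAdicComplete (maximalIdeal T) T] [Algebra 𝒪 T] [IsLocalHom (algebraMap 𝒪 T)]
  [Module.Finite 𝒪 T] [Module.Free 𝒪 T]

/-- **The `hres` binder of the frozen S54**, for every Hecke–Galois datum: if `ρbar` is absolutely
irreducible with `charpoly ρbar(Frob_ℓ) = X² - θ(T_ℓ) X + d` at the primes outside a finite
set, then `H.ρ.residual ≃ ρbar ⊗ ResidueField T`. -/
theorem hres_of_datum (H : HeckeGaloisRepDatum N S 𝒪 θ T)
    (ρbar : ResidualGaloisRep (ResidueField 𝒪)) (habs : ρbar.IsAbsolutelyIrreducible)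
    (B : Finset ℕ)
    (hfrob : ∀ (ℓ : ℕ) (hℓ : ℓ.Prime), ℓ ∉ B → ∃ (hℓN : ¬ ℓ ∣ N) (hℓS : ℓ ∉ S),
      ∀ P : ValuationSubring Qb, P.LiesOverPrime ℓ → ∀ σ : GQ, P.IsFrobeniusAt σ ℓ →
        ∃ d₀ : ResidueField 𝒪, LinearMap.charpoly (ρbar.ρ σ) =
          X ^ 2 - C (θ (heckeAlgebra.T hℓ hℓN hℓS)) * X + C d₀) :
    H.ρ.residual.IsEquiv (ρbar.baseChangeAlong (ResidueField.map (algebraMap 𝒪 T))) := by
  refine (residual_isEquiv_of_charpoly H.ρ ρbar _ habs B ?_).1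
  intro ℓ hℓ hℓB P hP σ hσ
  obtain ⟨hℓN, hℓS, h⟩ := hfrob ℓ hℓ hℓB
  obtain ⟨d₀, h0⟩ := h P hP σ hσ
  exact ⟨_, _, _, d₀, H.charpoly_frob ℓ hℓ hℓN hℓS P hP σ hσ, h0, H.residue_π _⟩

/-- `hres_of_datum` for `S` a finite set containing the primes dividing nothing in particular:
the hypothesis on `ρbar` in the shape of the field `charpoly_frob`. -/
theorem hres_of_datum_finset {S' : Finset ℕ} {θ' : heckeAlgebra N 2 (↑S' : Set ℕ) →+* ResidueField 𝒪}
    (H : HeckeGaloisRepDatum N (↑S' : Set ℕ) 𝒪 θ' T)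
    (ρbar : ResidualGaloisRep (ResidueField 𝒪)) (habs : ρbar.IsAbsolutelyIrreducible)
    (hfrob : ∀ (ℓ : ℕ) (hℓ : ℓ.Prime) (hℓN : ¬ ℓ ∣ N) (hℓS : ℓ ∉ (↑S' : Set ℕ)),
      ∀ P : ValuationSubring Qb, P.LiesOverPrime ℓ → ∀ σ : GQ, P.IsFrobeniusAt σ ℓ →
        ∃ d₀ : ResidueField 𝒪, LinearMap.charpoly (ρbar.ρ σ) =
          X ^ 2 - C (θ' (heckeAlgebra.T hℓ hℓN hℓS)) * X + C d₀) :
    H.ρ.residual.IsEquiv (ρbar.baseChangeAlong (ResidueField.map (algebraMap 𝒪 T))) := by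
  apply hres_of_datum H ρbar habs (S' ∪ N.primeFactors)
  intro ℓ hℓ hℓB
  obtain ⟨hℓN, hℓS⟩ := good_of_not_mem N S' hℓ hℓB
  exact ⟨hℓN, hℓS, hfrob ℓ hℓ hℓN hℓS⟩

end Hecke

end Fermat.Agent.GB.Glue.Habs
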