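/-
GATE-B / B4, node GB-GLUE (helper36), file 8: **existence of a Hecke–Galois datum** on helper12's
carrier `Tloc 𝒪 θ`, from an absolutely irreducible residual representation `ρbar` with the
Eichler–Shimura characteristic polynomials `X² - θ(T_ℓ) X + d`.

All the ingredients are on main:
* the carrier `Tloc 𝒪 θ` with every instance and every non-Galois field (`GB/B4/Datum`, helper12);
* the Petersson reducedness of the anemic Hecke algebra (`GS/Pet/Reduced`, helper83) and its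
  transfer to `Tloc` (`GS/Pet/DatumAlg`, helper57);
* the DVR-points of a reduced finite free local algebra (`GB/Glue/Points`, helper83);
* S30 at each point + the gluing (`GB/Glue/OfS30`), and the residual Brauer–Nesbitt (`GB/Glue/Habs`).
-/
import Mathlib
import Fermat.Agent.GB.Glue.Habs
import Fermat.Agent.GB.Glue.Points
import Fermat.Agent.GB.B4.Datum.HeckeCarrier
import Fermat.Agent.GS.Pet.Reduced
import Fermat.Agent.GS.Pet.DatumAlg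

set_option autoImplicit false

noncomputable section

namespace Fermat.Agent.GB.Glue.DatumOfRhobar

open IsLocalRing Polynomial CuspForm Fermat.Agent.GB.B4.Datum.Carrier
  Fermat.Agent.GB.B4.Datum.HeckeCarrier

local notation "GQ" => (AlgebraicClosure ℚ ≃ₐ[ℚ] AlgebraicClosure ℚ)
local notation "Qb" => AlgebraicClosure ℚ

variable (p : ℕ) [Fact p.Prime] (N : ℕ) [NeZero N] (S : Finset ℕ)
  (𝒪 : Type) [CommRing 𝒪] [IsDomain 𝒪] [IsDiscreteValuationRing 𝒪]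
  [IsAdicComplete (maximalIdeal 𝒪) 𝒪] [Finite (ResidueField 𝒪)] [CharZero 𝒪]
  (θ : heckeAlgebra N 2 (↑S : Set ℕ) →+* ResidueField 𝒪)

/-- the carrier is reduced (Petersson) -/
theorem isReduced_Tloc (hNS : ∀ q : ℕ, q.Prime → q ∣ N → q ∈ S) : IsReduced (Tloc 𝒪 θ) := by
  haveI : IsReduced (heckeAlgebra N 2 (↑S : Set ℕ)) :=
    Fermat.Agent.GS.Pet.isReduced_heckeAlgebra N 2 (↑S : Set ℕ)
      (fun q hq hqN => Finset.mem_coe.mpr (hNS q hq hqN))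
  exact Fermat.Agent.GS.Pet.DatumAlg.isReduced_of_adjoin_range (O := 𝒪) (piT 𝒪 θ)
    (adjoin_range_piT 𝒪 θ)

/-- `p` lies in the maximal ideal of the carrier -/
theorem natCast_mem_maximalIdeal_Tloc (hp𝒪 : (p : 𝒪) ∈ maximalIdeal 𝒪) :
    (p : Tloc 𝒪 θ) ∈ maximalIdeal (Tloc 𝒪 θ) := by
  have h : (p : Tloc 𝒪 θ) = algebraMap 𝒪 (Tloc 𝒪 θ) (p : 𝒪) := (map_natCast _ p).symm
  rw [h]
  intro hu
  exact hp𝒪 (isUnit_of_map_unit (algebraMap 𝒪 (Tloc 𝒪 θ)) _ hu)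

/-- **Existence of the Hecke–Galois datum** on `Tloc 𝒪 θ`. -/
theorem exists_datum (hp2 : p ≠ 2) (hpS : p ∈ S) (hNS : ∀ q : ℕ, q.Prime → q ∣ N → q ∈ S)
    (hp𝒪 : (p : 𝒪) ∈ maximalIdeal 𝒪)
    (ρbar : ResidualGaloisRep (ResidueField 𝒪)) (habs : ρbar.IsAbsolutelyIrreducible)
    (hfrob : ∀ (ℓ : ℕ) (hℓ : ℓ.Prime) (hℓN : ¬ ℓ ∣ N) (hℓS : ℓ ∉ (↑S : Set ℕ)),
      ∀ P : ValuationSubring Qb, P.LiesOverPrime ℓ → ∀ σ : GQ, P.IsFrobeniusAt σ ℓ →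
        ∃ d₀ : ResidueField 𝒪, LinearMap.charpoly (ρbar.ρ σ) =
          X ^ 2 - C (θ (heckeAlgebra.T hℓ hℓN hℓS)) * X + C d₀) :
    ∃ H : HeckeGaloisRepDatum N (↑S : Set ℕ) 𝒪 θ (Tloc 𝒪 θ),
      H.π = piT 𝒪 θ ∧ H.ρ.DetIsCyclotomic p ∧
      (∀ q : ℕ, q.Prime → ¬ q ∣ N → q ≠ p → H.ρ.IsUnramifiedAt q) ∧
      H.ρ.residual.IsEquiv
        (ρbar.baseChangeAlong (ResidueField.map (algebraMap 𝒪 (Tloc 𝒪 θ)))) := by
  haveI := isReduced_Tloc N S 𝒪 θ hNS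
  have hpts := Points.exists_points (𝒪 := 𝒪) (T := Tloc 𝒪 θ)
  obtain ⟨hloc, hinj⟩ := hpts
  -- an index
  haveI : Nonempty (Points.Idx 𝒪 (Tloc 𝒪 θ)) := by
    by_contra hne
    rw [not_nonempty_iff] at hne
    exact one_ne_zero (hinj (1 : Tloc 𝒪 θ) (fun q => (hne.false q).elim))
  obtain ⟨i0⟩ := ‹Nonempty (Points.Idx 𝒪 (Tloc 𝒪 θ))›
  -- the `habs` binder at the point `i0`
  have hhabs : ∀ D : OfS30.S30Out p N S (Points.Rq i0)
      (((Points.ψ i0 : Tloc 𝒪 θ →ₐ[𝒪] Points.Rq i0) : Tloc 𝒪 θ →+* Points.Rq i0).comp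
        (piT 𝒪 θ)), D.ρ.residual.IsAbsolutelyIrreducible := by
    haveI := hloc i0
    refine Habs.habs_of_rhobar p N S _ ρbar habs θ
      ((ResidueField.map ((Points.ψ i0 : Tloc 𝒪 θ →ₐ[𝒪] Points.Rq i0) :
          Tloc 𝒪 θ →+* Points.Rq i0)).comp (ResidueField.map (algebraMap 𝒪 (Tloc 𝒪 θ))))
      ?_ hfrob
    intro t
    rw [RingHom.comp_apply, RingHom.comp_apply, ← residue_piT 𝒪 θ t]
    rfl
  obtain ⟨ρT, h1, h2, h3, h4⟩ := OfS30.exists_rho_of_points (T := Tloc 𝒪 θ)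
    (ι := Points.Idx 𝒪 (Tloc 𝒪 θ)) (O' := fun q => Points.Rq q) p hp2 N S hpS hNS
    (natCast_mem_maximalIdeal_Tloc p N S 𝒪 θ hp𝒪) (piT 𝒪 θ)
    (fun q => ((Points.ψ q : Tloc 𝒪 θ →ₐ[𝒪] Points.Rq q) : Tloc 𝒪 θ →+* Points.Rq q))
    hloc hinj i0 hhabs
  refine ⟨mkDatum 𝒪 θ ρT h1 h2, rfl, h3, h4, ?_⟩
  exact Habs.hres_of_datum_finset (mkDatum 𝒪 θ ρT h1 h2) ρbar habs hfrob

end Fermat.Agent.GB.Glue.DatumOfRhobar
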