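/-
CELL-B / S59-ENGINE, node GB-GLUE (helper36), file 1: the algebraic core.

GLUING OF TWO-DIMENSIONAL REPRESENTATIONS (Wiles' basis trick; no pseudo-representations,
no Azumaya algebras, no lifting of idempotents).

`T` a commutative ring, `f i : T →+* O i` a JOINTLY INJECTIVE family of ring homomorphisms into
LOCAL rings, `G` a group, `r i : G →* M₂(O i)` representations whose traces come from ONE function
`τ : G → T`.  Assume there is ONE element `g0 : G` and `α β : T` with `α - β` a unit such that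
`r i g0` has characteristic polynomial `(X - f i α)(X - f i β)` for every `i`, and ONE pair
`g1 h1 : G` such that `xFun τ g0 β ui g1 h1` is a unit of `T` (this is the value `b(g1) c(h1)` in a
basis diagonalising `g0`; it exists as soon as one `r i` is residually irreducible).  Then

  `glueMat τ g0 β ui wi g1 h1 : G → M₂(T)`,
  `g ↦ !![a g, wi * x g h1; x g1 g, τ g - a g]`,
  `a g := ui * (τ (g0 * g) - β * τ g)`, `x g h := a (g * h) - a g * a h`,

is a monoid homomorphism, and for every `i` there is `P i ∈ GL₂(O i)` with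
`(glue g).map (f i) * P i = P i * r i g` for all `g` (`exists_glue`).
Consequences: traces/determinants are compatible, any kernel condition transfers
(`glue_eq_one_of_forall`), `glue g0 = diag(α, β)`.
-/
import Mathlib

set_option autoImplicit false

namespace Fermat.Agent.GB.Glue.Core

open Matrix

/-! ### Rank-one idempotents over a local ring -/

section Idem

variable {O : Type*} [CommRing O]

/-- The elementary idempotent `E₁₁`. -/
def E11 : Matrix (Fin 2) (Fin 2) O := !![1, 0; 0, 0]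

theorem trace_E11_mul (M : Matrix (Fin 2) (Fin 2) O) : (E11 * M).trace = M 0 0 := by
  rw [Matrix.trace_fin_two, Matrix.mul_apply, Matrix.mul_apply, Fin.sum_univ_two,
    Fin.sum_univ_two]
  simp [E11]

/-- An idempotent `2 × 2` matrix of trace one over a local ring is conjugate to `E₁₁`. -/
theorem exists_conj_E11 [IsLocalRing O] (e : Matrix (Fin 2) (Fin 2) O) (he : e * e = e)
    (htr : e.trace = 1) :
    ∃ Q : Matrix (Fin 2) (Fin 2) O, IsUnit Q.det ∧ e * Q = Q * E11 := by
  have hpt : e 0 0 + e 1 1 = 1 := by simpa [Matrix.trace_fin_two] using htr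
  have h00 : e 0 0 * e 0 0 + e 0 1 * e 1 0 = e 0 0 := by
    have := congrFun (congrFun he 0) 0
    simpa [Matrix.mul_apply, Fin.sum_univ_two] using this
  have h11 : e 1 0 * e 0 1 + e 1 1 * e 1 1 = e 1 1 := by
    have := congrFun (congrFun he 1) 1
    simpa [Matrix.mul_apply, Fin.sum_univ_two] using this
  rcases IsLocalRing.isUnit_or_isUnit_of_add_one hpt with hp | ht
  · refine ⟨!![e 0 0, -e 0 1; e 1 0, e 0 0], ?_, ?_⟩
    · rw [Matrix.det_fin_two_of]
      have : e 0 0 * e 0 0 - -e 0 1 * e 1 0 = e 0 0 := by linear_combination h00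
      rw [this]; exact hp
    · ext i j
      fin_cases i <;> fin_cases j
      · simp [E11, Matrix.mul_apply, Fin.sum_univ_two]; linear_combination h00
      · simp [E11, Matrix.mul_apply, Fin.sum_univ_two]; ring
      · simp [E11, Matrix.mul_apply, Fin.sum_univ_two]
        linear_combination (e 1 0) * hpt
      · simp [E11, Matrix.mul_apply, Fin.sum_univ_two]
        linear_combination (-1 : O) * h00 + (e 0 0) * hpt
  · refine ⟨!![e 0 1, e 1 1; e 1 1, -e 1 0], ?_, ?_⟩
    · rw [Matrix.det_fin_two_of]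
      have : e 0 1 * -e 1 0 - e 1 1 * e 1 1 = -e 1 1 := by linear_combination (-1 : O) * h11
      rw [this]; exact ht.neg
    · ext i j
      fin_cases i <;> fin_cases j
      · simp [E11, Matrix.mul_apply, Fin.sum_univ_two]
        linear_combination (e 0 1) * hpt
      · simp [E11, Matrix.mul_apply, Fin.sum_univ_two]
        linear_combination (-1 : O) * h11 + (e 1 1) * hpt
      · simp [E11, Matrix.mul_apply, Fin.sum_univ_two]; linear_combination h11
      · simp [E11, Matrix.mul_apply, Fin.sum_univ_two]; ring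

/-- Cayley–Hamilton for `2 × 2` matrices. -/
theorem sq_fin_two (s : Matrix (Fin 2) (Fin 2) O) : s * s = s.trace • s - s.det • 1 := by
  ext i j
  fin_cases i <;> fin_cases j <;>
    simp [Matrix.mul_apply, Fin.sum_univ_two, Matrix.trace_fin_two, Matrix.det_fin_two] <;> ring

/-- The spectral projector `c • (s - b)` of a matrix `s` with characteristic polynomial
`(X - a)(X - b)`, `(a - b) c = 1`, is an idempotent of trace one. -/
theorem proj_idem (s : Matrix (Fin 2) (Fin 2) O) (a b c : O) (hc : (a - b) * c = 1)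
    (htr : s.trace = a + b) (hdet : s.det = a * b) :
    (c • (s - b • (1 : Matrix (Fin 2) (Fin 2) O))) * (c • (s - b • 1)) = c • (s - b • 1) ∧
      (c • (s - b • (1 : Matrix (Fin 2) (Fin 2) O))).trace = 1 := by
  have hs2 : s * s = (a + b) • s - (a * b) • (1 : Matrix (Fin 2) (Fin 2) O) := by
    rw [sq_fin_two, htr, hdet]
  have hS : (s - b • (1 : Matrix (Fin 2) (Fin 2) O)) * (s - b • 1) = (a - b) • (s - b • 1) := by
    simp only [sub_mul, mul_sub, smul_mul_assoc, mul_smul_comm, one_mul, mul_one, hs2]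
    module
  constructor
  · rw [smul_mul_assoc, mul_smul_comm, hS, smul_smul, smul_smul]
    congr 1
    linear_combination c * hc
  · rw [Matrix.trace_smul, Matrix.trace_sub, Matrix.trace_smul, Matrix.trace_one, htr]
    simp only [Fintype.card_fin, smul_eq_mul]
    linear_combination hc

end Idem

/-! ### The trace formulas -/

section Defs

variable {T : Type*} [CommRing T] {G : Type*} [Group G]

/-- The `(1,1)` entry of `g` in a basis diagonalising `g0` (eigenvalues `α`, `β`,
`ui = (α - β)⁻¹`), computed from the trace function. -/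
def aFun (τ : G → T) (g0 : G) (β ui : T) (g : G) : T := ui * (τ (g0 * g) - β * τ g)

/-- The `(2,2)` entry. -/
def dFun (τ : G → T) (g0 : G) (β ui : T) (g : G) : T := τ g - aFun τ g0 β ui g

/-- The product `b(g) c(h)` of the off-diagonal entries. -/
def xFun (τ : G → T) (g0 : G) (β ui : T) (g h : G) : T :=
  aFun τ g0 β ui (g * h) - aFun τ g0 β ui g * aFun τ g0 β ui h

/-- The glued matrix of `g`, normalised by `b(g1) = 1` (`wi = x(g1,h1)⁻¹`). -/
def glueMat (τ : G → T) (g0 : G) (β ui wi : T) (g1 h1 : G) (g : G) : Matrix (Fin 2) (Fin 2) T :=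
  !![aFun τ g0 β ui g, wi * xFun τ g0 β ui g h1; xFun τ g0 β ui g1 g, dFun τ g0 β ui g]

theorem trace_glueMat (τ : G → T) (g0 : G) (β ui wi : T) (g1 h1 : G) (g : G) :
    (glueMat τ g0 β ui wi g1 h1 g).trace = τ g := by
  simp [glueMat, Matrix.trace_fin_two, dFun]

end Defs

/-! ### One point -/

section Local

variable {T : Type*} [CommRing T] {O : Type*} [CommRing O] [IsLocalRing O] (f : T →+* O)
  {G : Type*} [Group G] (r : G →* Matrix (Fin 2) (Fin 2) O)
  (τ : G → T) (g0 : G) (α β ui : T)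

/-- **Adapted basis.**  If `r g0` has characteristic polynomial `(X - f α)(X - f β)` with
`(α - β) ui = 1`, there is `Q ∈ GL₂(O)` such that in the basis `Q` the element `g0` is
`diag(f α, f β)` and the entries of every `g` are given by the trace formulas. -/
theorem exists_adapted_basis (hτ : ∀ g, f (τ g) = (r g).trace) (hui : (α - β) * ui = 1)
    (htr0 : (r g0).trace = f α + f β) (hdet0 : (r g0).det = f α * f β) :
    ∃ Q : Matrix (Fin 2) (Fin 2) O, IsUnit Q.det ∧
      Q⁻¹ * r g0 * Q = !![f α, 0; 0, f β] ∧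
      (∀ g, (Q⁻¹ * r g * Q) 0 0 = f (aFun τ g0 β ui g)) ∧
      (∀ g, (Q⁻¹ * r g * Q) 1 1 = f (dFun τ g0 β ui g)) ∧
      (∀ g h, (Q⁻¹ * r g * Q) 0 1 * (Q⁻¹ * r h * Q) 1 0 = f (xFun τ g0 β ui g h)) := by
  have hc : (f α - f β) * f ui = 1 := by rw [← map_sub, ← map_mul, hui, map_one]
  obtain ⟨he, htre⟩ := proj_idem (r g0) (f α) (f β) (f ui) hc htr0 hdet0
  set e : Matrix (Fin 2) (Fin 2) O := f ui • (r g0 - f β • 1) with he_def
  obtain ⟨Q, hQ, heQ⟩ := exists_conj_E11 e he htre
  have hQ1 : Q * Q⁻¹ = 1 := Matrix.mul_nonsing_inv Q hQ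
  have hQ2 : Q⁻¹ * Q = 1 := Matrix.nonsing_inv_mul Q hQ
  have hE : E11 = Q⁻¹ * e * Q := by
    rw [mul_assoc, heQ, ← mul_assoc, hQ2, one_mul]
  -- `r g0 = f β + (f α - f β) e`
  have hs : r g0 = f β • (1 : Matrix (Fin 2) (Fin 2) O) + (f α - f β) • e := by
    rw [he_def, smul_smul, hc, one_smul]; abel
  have hmul : ∀ g h, Q⁻¹ * r (g * h) * Q = (Q⁻¹ * r g * Q) * (Q⁻¹ * r h * Q) := by
    intro g h
    rw [map_mul]
    calc Q⁻¹ * (r g * r h) * Q = Q⁻¹ * r g * 1 * r h * Q := by
          simp only [mul_one, mul_assoc]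
      _ = Q⁻¹ * r g * (Q * Q⁻¹) * r h * Q := by rw [hQ1]
      _ = (Q⁻¹ * r g * Q) * (Q⁻¹ * r h * Q) := by simp only [mul_assoc]
  have h00 : ∀ g, (Q⁻¹ * r g * Q) 0 0 = f (aFun τ g0 β ui g) := by
    intro g
    have h0 := trace_E11_mul (Q⁻¹ * r g * Q)
    rw [← h0, hE]
    have h1 : Q⁻¹ * e * Q * (Q⁻¹ * r g * Q) = Q⁻¹ * (e * r g) * Q := by
      calc Q⁻¹ * e * Q * (Q⁻¹ * r g * Q) = Q⁻¹ * e * (Q * Q⁻¹) * r g * Q := by
            simp only [mul_assoc]
        _ = Q⁻¹ * (e * r g) * Q := by rw [hQ1]; simp only [mul_one, mul_assoc]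
    rw [h1, Matrix.trace_mul_cycle, hQ1, one_mul]
    have h2 : e * r g = f ui • (r (g0 * g) - f β • r g) := by
      rw [he_def, smul_mul_assoc, sub_mul, smul_mul_assoc, one_mul, map_mul]
    rw [h2, Matrix.trace_smul, Matrix.trace_sub, Matrix.trace_smul, ← hτ, ← hτ]
    simp [aFun]
  have htrQ : ∀ g, (Q⁻¹ * r g * Q).trace = f (τ g) := by
    intro g
    rw [Matrix.trace_mul_cycle, hQ1, one_mul, hτ]
  refine ⟨Q, hQ, ?_, h00, ?_, ?_⟩
  · rw [hs, mul_add, add_mul, Matrix.mul_smul, Matrix.smul_mul, mul_one, hQ2, Matrix.mul_smul,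
      Matrix.smul_mul, ← hE]
    ext i j
    fin_cases i <;> fin_cases j <;> simp [E11]
  · intro g
    have := htrQ g
    rw [Matrix.trace_fin_two, h00] at this
    rw [dFun, map_sub, ← this]; ring
  · intro g h
    have key : (Q⁻¹ * r (g * h) * Q) 0 0 = (Q⁻¹ * r g * Q) 0 0 * (Q⁻¹ * r h * Q) 0 0 +
        (Q⁻¹ * r g * Q) 0 1 * (Q⁻¹ * r h * Q) 1 0 := by
      rw [hmul g h, Matrix.mul_apply, Fin.sum_univ_two]
    rw [h00, h00, h00] at key
    rw [xFun, map_sub, map_mul, key]; ring

omit [IsLocalRing O] in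
theorem mul_diag_eq (M N : Matrix (Fin 2) (Fin 2) O) (b : O) (h00 : M 0 0 = N 0 0)
    (h01 : M 0 1 * b = N 0 1) (h10 : M 1 0 = b * N 1 0) (h11 : M 1 1 * b = b * N 1 1) :
    M * !![1, 0; 0, b] = !![1, 0; 0, b] * N := by
  ext i j
  fin_cases i <;> fin_cases j <;> simp [Matrix.mul_apply, Fin.sum_univ_two, *]

omit [IsLocalRing O] in
theorem diag_comm (a b c d : O) :
    (!![a, 0; 0, b] : Matrix (Fin 2) (Fin 2) O) * !![c, 0; 0, d] = !![c, 0; 0, d] * !![a, 0; 0, b] := by
  ext i j
  fin_cases i <;> fin_cases j <;> simp [Matrix.mul_apply, Fin.sum_univ_two, mul_comm]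

/-- **One point.**  The image of the glued matrices under `f` is conjugate to `r`. -/
theorem exists_conj_local (hτ : ∀ g, f (τ g) = (r g).trace) (hui : (α - β) * ui = 1)
    (htr0 : (r g0).trace = f α + f β) (hdet0 : (r g0).det = f α * f β) (g1 h1 : G) (wi : T)
    (hw : xFun τ g0 β ui g1 h1 * wi = 1) :
    ∃ P : Matrix (Fin 2) (Fin 2) O, IsUnit P.det ∧
      (∀ g, (glueMat τ g0 β ui wi g1 h1 g).map f * P = P * r g) ∧
      P * r g0 = !![f α, 0; 0, f β] * P := by
  obtain ⟨Q, hQ, hg0, h00, h11, hx⟩ := exists_adapted_basis f r τ g0 α β ui hτ hui htr0 hdet0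
  have hQ1 : Q * Q⁻¹ = 1 := Matrix.mul_nonsing_inv Q hQ
  have hQ2 : Q⁻¹ * Q = 1 := Matrix.nonsing_inv_mul Q hQ
  obtain ⟨b1, hb1def⟩ : ∃ b1, b1 = (Q⁻¹ * r g1 * Q) 0 1 := ⟨_, rfl⟩
  obtain ⟨c1, hc1def⟩ : ∃ c1, c1 = (Q⁻¹ * r h1 * Q) 1 0 := ⟨_, rfl⟩
  have hb1c1 : b1 * c1 = f (xFun τ g0 β ui g1 h1) := by rw [hb1def, hc1def]; exact hx g1 h1
  have hunit : b1 * (c1 * f wi) = 1 := by
    rw [← mul_assoc, hb1c1, ← map_mul, hw, map_one]
  have hb1 : IsUnit b1 := IsUnit.of_mul_eq_one _ hunit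
  have hD1 : ∀ g, (glueMat τ g0 β ui wi g1 h1 g).map f * !![1, 0; 0, b1] =
      !![1, 0; 0, b1] * (Q⁻¹ * r g * Q) := by
    intro g
    obtain ⟨R, hR⟩ : ∃ R, R = Q⁻¹ * r g * Q := ⟨_, rfl⟩
    rw [← hR]
    apply mul_diag_eq
    · rw [hR, h00]; simp [glueMat]
    · have hh := hx g h1
      rw [← hc1def, ← hR] at hh
      have : (glueMat τ g0 β ui wi g1 h1 g).map f 0 1 = f wi * (R 0 1 * c1) := by
        rw [hh]; simp [glueMat]
      rw [this]
      linear_combination (R 0 1) * hunit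
    · have hh := hx g1 g
      rw [← hb1def, ← hR] at hh
      rw [hh]; simp [glueMat]
    · have hh := h11 g
      rw [← hR] at hh
      rw [hh, mul_comm]; simp [glueMat]
  refine ⟨!![1, 0; 0, b1] * Q⁻¹, ?_, ?_, ?_⟩
  · rw [Matrix.det_mul, Matrix.det_fin_two_of]
    refine IsUnit.mul ?_ ((Matrix.isUnit_nonsing_inv_det_iff).mpr hQ)
    simpa using hb1
  · intro g
    calc (glueMat τ g0 β ui wi g1 h1 g).map f * (!![1, 0; 0, b1] * Q⁻¹)
        = ((glueMat τ g0 β ui wi g1 h1 g).map f * !![1, 0; 0, b1]) * Q⁻¹ := by rw [mul_assoc]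
      _ = !![1, 0; 0, b1] * (Q⁻¹ * r g * Q) * Q⁻¹ := by rw [hD1]
      _ = !![1, 0; 0, b1] * Q⁻¹ * r g * (Q * Q⁻¹) := by simp only [mul_assoc]
      _ = !![1, 0; 0, b1] * Q⁻¹ * r g := by rw [hQ1, mul_one]
  · calc !![1, 0; 0, b1] * Q⁻¹ * r g0 = !![1, 0; 0, b1] * (Q⁻¹ * r g0 * Q) * Q⁻¹ := by
          simp only [mul_assoc]; rw [hQ1, mul_one]
      _ = !![1, 0; 0, b1] * !![f α, 0; 0, f β] * Q⁻¹ := by rw [hg0]
      _ = !![f α, 0; 0, f β] * (!![1, 0; 0, b1] * Q⁻¹) := by rw [diag_comm, mul_assoc]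

end Local

/-! ### The family -/

section Global

variable {T : Type*} [CommRing T] {ι : Type*} {O : ι → Type*} [∀ i, CommRing (O i)]
  [∀ i, IsLocalRing (O i)] (f : ∀ i, T →+* O i)
  {G : Type*} [Group G] (r : ∀ i, G →* Matrix (Fin 2) (Fin 2) (O i))
  (τ : G → T) (g0 : G) (α β ui : T) (g1 h1 : G) (wi : T)

/-- The hypotheses of the gluing theorem. -/
structure GlueHyp : Prop where
  /-- the points are jointly injective -/
  inj : ∀ t : T, (∀ i, f i t = 0) → t = 0
  /-- `τ` is the common trace function -/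
  trace_eq : ∀ i g, f i (τ g) = (r i g).trace
  /-- `ui = (α - β)⁻¹` -/
  unit_sub : (α - β) * ui = 1
  /-- `g0` has characteristic polynomial `(X - α)(X - β)` at every point -/
  trace_g0 : ∀ i, (r i g0).trace = f i α + f i β
  det_g0 : ∀ i, (r i g0).det = f i α * f i β
  /-- `wi = x(g1,h1)⁻¹` -/
  unit_x : xFun τ g0 β ui g1 h1 * wi = 1

variable {f r τ g0 α β ui g1 h1 wi}

omit [∀ i, IsLocalRing (O i)] in
theorem eq_of_forall_map_eq (hinj : ∀ t : T, (∀ i, f i t = 0) → t = 0)
    {A B : Matrix (Fin 2) (Fin 2) T} (h : ∀ i, A.map (f i) = B.map (f i)) : A = B := by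
  ext a b
  rw [← sub_eq_zero]
  refine hinj _ fun i => ?_
  have := congrFun (congrFun (h i) a) b
  rw [Matrix.map_apply, Matrix.map_apply] at this
  rw [map_sub, this, sub_self]

theorem GlueHyp.exists_conj (H : GlueHyp f r τ g0 α β ui g1 h1 wi) (i : ι) :
    ∃ P : Matrix (Fin 2) (Fin 2) (O i), IsUnit P.det ∧
      (∀ g, (glueMat τ g0 β ui wi g1 h1 g).map (f i) * P = P * r i g) ∧
      P * r i g0 = !![f i α, 0; 0, f i β] * P :=
  exists_conj_local (f i) (r i) τ g0 α β ui (H.trace_eq i) H.unit_sub (H.trace_g0 i) (H.det_g0 i)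
    g1 h1 wi H.unit_x

omit [∀ i, IsLocalRing (O i)] in
theorem cancel_right {i : ι} {P A B : Matrix (Fin 2) (Fin 2) (O i)} (hP : IsUnit P.det)
    (h : A * P = B * P) : A = B := by
  have hP1 : P * P⁻¹ = 1 := Matrix.mul_nonsing_inv P hP
  calc A = A * (P * P⁻¹) := by rw [hP1, mul_one]
    _ = B * P * P⁻¹ := by rw [← mul_assoc, h]
    _ = B := by rw [mul_assoc, hP1, mul_one]

theorem GlueHyp.glueMat_mul (H : GlueHyp f r τ g0 α β ui g1 h1 wi) (g h : G) :
    glueMat τ g0 β ui wi g1 h1 (g * h) =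
      glueMat τ g0 β ui wi g1 h1 g * glueMat τ g0 β ui wi g1 h1 h := by
  refine eq_of_forall_map_eq H.inj fun i => ?_
  obtain ⟨P, hP, hconj, -⟩ := H.exists_conj i
  refine cancel_right hP ?_
  rw [hconj, map_mul, ← mul_assoc, ← hconj g, mul_assoc, ← hconj h, ← mul_assoc,
    ← RingHom.mapMatrix_apply, ← RingHom.mapMatrix_apply, ← RingHom.mapMatrix_apply, map_mul]

theorem GlueHyp.glueMat_one (H : GlueHyp f r τ g0 α β ui g1 h1 wi) :
    glueMat τ g0 β ui wi g1 h1 1 = 1 := by
  refine eq_of_forall_map_eq H.inj fun i => ?_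
  obtain ⟨P, hP, hconj, -⟩ := H.exists_conj i
  refine cancel_right hP ?_
  rw [hconj, map_one, mul_one, ← RingHom.mapMatrix_apply, map_one, one_mul]

/-- **The glued representation.** -/
def GlueHyp.glue (H : GlueHyp f r τ g0 α β ui g1 h1 wi) : G →* Matrix (Fin 2) (Fin 2) T where
  toFun := glueMat τ g0 β ui wi g1 h1
  map_one' := H.glueMat_one
  map_mul' := H.glueMat_mul

theorem GlueHyp.glue_apply (H : GlueHyp f r τ g0 α β ui g1 h1 wi) (g : G) :
    H.glue g = glueMat τ g0 β ui wi g1 h1 g := rfl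

/-- **Gluing theorem**: at every point the glued representation is conjugate to the given one. -/
theorem GlueHyp.exists_conj_glue (H : GlueHyp f r τ g0 α β ui g1 h1 wi) (i : ι) :
    ∃ P : Matrix (Fin 2) (Fin 2) (O i), IsUnit P.det ∧
      ∀ g, (H.glue g).map (f i) * P = P * r i g := by
  obtain ⟨P, hP, hconj, -⟩ := H.exists_conj i
  exact ⟨P, hP, hconj⟩

theorem GlueHyp.trace_glue (H : GlueHyp f r τ g0 α β ui g1 h1 wi) (g : G) :
    (H.glue g).trace = τ g := trace_glueMat τ g0 β ui wi g1 h1 g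

theorem GlueHyp.map_det_glue (H : GlueHyp f r τ g0 α β ui g1 h1 wi) (i : ι) (g : G) :
    f i (H.glue g).det = (r i g).det := by
  obtain ⟨P, hP, hconj⟩ := H.exists_conj_glue i
  have h := congrArg Matrix.det (hconj g)
  rw [Matrix.det_mul, Matrix.det_mul, mul_comm] at h
  have h2 := hP.mul_left_cancel h
  rw [← h2, ← RingHom.mapMatrix_apply, ← RingHom.map_det]

theorem GlueHyp.map_trace_glue (H : GlueHyp f r τ g0 α β ui g1 h1 wi) (i : ι) (g : G) :
    f i (H.glue g).trace = (r i g).trace := by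
  rw [H.trace_glue, H.trace_eq]

/-- Any kernel condition transfers: if `g` acts trivially at every point, it acts trivially in the
glued representation. -/
theorem GlueHyp.glue_eq_one_of_forall (H : GlueHyp f r τ g0 α β ui g1 h1 wi) (g : G)
    (h : ∀ i, r i g = 1) : H.glue g = 1 := by
  refine eq_of_forall_map_eq H.inj fun i => ?_
  obtain ⟨P, hP, hconj⟩ := H.exists_conj_glue i
  refine cancel_right hP ?_
  rw [hconj, h i, mul_one, ← RingHom.mapMatrix_apply, map_one, one_mul]

/-- More generally, `glue g = glue g'` as soon as `r i g = r i g'` for all `i`. -/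
theorem GlueHyp.glue_eq_of_forall (H : GlueHyp f r τ g0 α β ui g1 h1 wi) (g g' : G)
    (h : ∀ i, r i g = r i g') : H.glue g = H.glue g' := by
  refine eq_of_forall_map_eq H.inj fun i => ?_
  obtain ⟨P, hP, hconj⟩ := H.exists_conj_glue i
  refine cancel_right hP ?_
  rw [hconj, hconj, h i]

theorem GlueHyp.glue_g0 (H : GlueHyp f r τ g0 α β ui g1 h1 wi) :
    H.glue g0 = !![α, 0; 0, β] := by
  refine eq_of_forall_map_eq H.inj fun i => ?_
  obtain ⟨P, hP, hconj, hg0⟩ := H.exists_conj i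
  refine cancel_right hP ?_
  rw [H.glue_apply, hconj, hg0]
  congr 1
  ext a b
  fin_cases a <;> fin_cases b <;> simp

theorem GlueHyp.glue_g1_apply (H : GlueHyp f r τ g0 α β ui g1 h1 wi) :
    H.glue g1 0 1 = 1 := by
  rw [H.glue_apply]
  simp only [glueMat, Matrix.of_apply, Matrix.cons_val', Matrix.cons_val_zero, Matrix.cons_val_one,
    Matrix.cons_val_fin_one]
  rw [mul_comm]; exact H.unit_x

theorem GlueHyp.glue_h1_apply (H : GlueHyp f r τ g0 α β ui g1 h1 wi) :
    H.glue h1 1 0 = xFun τ g0 β ui g1 h1 := by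
  rw [H.glue_apply]
  simp [glueMat]

/-- **Absolute irreducibility of the glued representation**: after any base change `φ : T → K` to a
field with `φ α ≠ φ β`, the glued representation has no invariant line. -/
theorem GlueHyp.no_invariant_line (H : GlueHyp f r τ g0 α β ui g1 h1 wi) {K : Type*} [Field K]
    (φ : T →+* K) (hαβ : φ α ≠ φ β) (v : Fin 2 → K) (hv : v ≠ 0)
    (hinv : ∀ g, ∃ c : K, ((H.glue g).map φ) *ᵥ v = c • v) : False := by
  have hw : φ (xFun τ g0 β ui g1 h1) ≠ 0 := by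
    intro h0
    have := congrArg φ H.unit_x
    rw [map_mul, h0, zero_mul, map_one] at this
    exact zero_ne_one this
  -- `g0`
  obtain ⟨c0, hc0⟩ := hinv g0
  rw [H.glue_g0] at hc0
  have e0 := congrFun hc0 0
  have e1 := congrFun hc0 1
  simp [Matrix.mulVec, dotProduct, Fin.sum_univ_two] at e0 e1
  have hcases : v 0 = 0 ∨ v 1 = 0 := by
    by_contra hne
    rw [not_or] at hne
    rcases e0 with e0 | e0
    · rcases e1 with e1 | e1
      · exact hαβ (e0.trans e1.symm)
      · exact hne.2 e1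
    · exact hne.1 e0
  rcases hcases with h0 | h1'
  · -- `v = (0, v₁)`: use `g1`
    have hv1 : v 1 ≠ 0 := by
      intro h1'
      apply hv
      funext i
      fin_cases i
      · exact h0
      · exact h1'
    obtain ⟨c, hc⟩ := hinv g1
    have e := congrFun hc 0
    simp only [Matrix.mulVec, dotProduct, Fin.sum_univ_two, Matrix.map_apply, Pi.smul_apply,
      smul_eq_mul, h0, mul_zero, zero_add] at e
    rw [H.glue_g1_apply, map_one, one_mul] at e
    exact hv1 e
  · -- `v = (v₀, 0)`: use `h1`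
    have hv0 : v 0 ≠ 0 := by
      intro h0
      apply hv
      funext i
      fin_cases i
      · exact h0
      · exact h1'
    obtain ⟨c, hc⟩ := hinv h1
    have e := congrFun hc 1
    simp only [Matrix.mulVec, dotProduct, Fin.sum_univ_two, Matrix.map_apply, Pi.smul_apply,
      smul_eq_mul, h1', mul_zero, add_zero] at e
    rw [H.glue_h1_apply] at e
    exact hw ((mul_eq_zero.mp e).resolve_right hv0)

end Global

/-! ### Producing `(g1, h1)` from residual irreducibility -/

section Residual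

variable {T : Type*} [CommRing T] {O : Type*} [CommRing O] [IsLocalRing O] (f : T →+* O)
  {G : Type*} [Group G] (r : G →* Matrix (Fin 2) (Fin 2) O)
  (τ : G → T) (g0 : G) (α β ui : T)

/-- If all the products `x(g,h)` are non-units at the point `f`, the residual representation of
`r` has an invariant line. -/
theorem exists_invariant_line (hτ : ∀ g, f (τ g) = (r g).trace) (hui : (α - β) * ui = 1)
    (htr0 : (r g0).trace = f α + f β) (hdet0 : (r g0).det = f α * f β)
    (hx : ∀ g h, f (xFun τ g0 β ui g h) ∈ IsLocalRing.maximalIdeal O) :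
    ∃ v : Fin 2 → IsLocalRing.ResidueField O, v ≠ 0 ∧
      ∀ g, ∃ c : IsLocalRing.ResidueField O,
        ((r g).map (IsLocalRing.residue O)) *ᵥ v = c • v := by
  obtain ⟨Q, hQ, -, -, -, hxQ⟩ := exists_adapted_basis f r τ g0 α β ui hτ hui htr0 hdet0
  have hQ1 : Q * Q⁻¹ = 1 := Matrix.mul_nonsing_inv Q hQ
  set res := IsLocalRing.residue O with hres
  have hBC : ∀ g h, res ((Q⁻¹ * r g * Q) 0 1) * res ((Q⁻¹ * r h * Q) 1 0) = 0 := by
    intro g h
    rw [← map_mul, hxQ]
    exact (IsLocalRing.residue_eq_zero_iff _).mpr (hx g h)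
  -- the conjugation relation `Q̄ R̄(g) = r̄(g) Q̄`
  have hconj : ∀ g, (Q.map res) * ((Q⁻¹ * r g * Q).map res) = ((r g).map res) * (Q.map res) := by
    intro g
    rw [← RingHom.mapMatrix_apply, ← RingHom.mapMatrix_apply, ← RingHom.mapMatrix_apply,
      ← map_mul, ← map_mul]
    congr 1
    rw [← mul_assoc, ← mul_assoc, hQ1, one_mul]
  have hdetQ : IsUnit (Q.map res).det := by
    rw [← RingHom.mapMatrix_apply, ← RingHom.map_det]
    exact hQ.map res
  have hne : ∀ w : Fin 2 → IsLocalRing.ResidueField O, w ≠ 0 → (Q.map res) *ᵥ w ≠ 0 := by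
    intro w hw h0
    apply hw
    have := congrArg (fun u => (Q.map res)⁻¹ *ᵥ u) h0
    simp only [Matrix.mulVec_mulVec, Matrix.nonsing_inv_mul _ hdetQ, Matrix.one_mulVec,
      Matrix.mulVec_zero] at this
    exact this
  by_cases hC : ∀ h, res ((Q⁻¹ * r h * Q) 1 0) = 0
  · refine ⟨(Q.map res) *ᵥ ![1, 0], hne _ ?_, fun g => ⟨res ((Q⁻¹ * r g * Q) 0 0), ?_⟩⟩
    · intro h
      have := congrFun h 0
      simp at this
    · rw [Matrix.mulVec_mulVec, ← hconj g, ← Matrix.mulVec_mulVec, ← Matrix.mulVec_smul]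
      congr 1
      funext i
      fin_cases i
      · simp [Matrix.mulVec, dotProduct, Fin.sum_univ_two]
      · simp [Matrix.mulVec, dotProduct, Fin.sum_univ_two, hC g]
  · have hB : ∀ g, res ((Q⁻¹ * r g * Q) 0 1) = 0 := by
      intro g
      by_contra hg
      apply hC
      intro h
      exact (mul_eq_zero.mp (hBC g h)).resolve_left hg
    refine ⟨(Q.map res) *ᵥ ![0, 1], hne _ ?_, fun g => ⟨res ((Q⁻¹ * r g * Q) 1 1), ?_⟩⟩
    · intro h
      have := congrFun h 1
      simp at this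
    · rw [Matrix.mulVec_mulVec, ← hconj g, ← Matrix.mulVec_mulVec, ← Matrix.mulVec_smul]
      congr 1
      funext i
      fin_cases i
      · simp [Matrix.mulVec, dotProduct, Fin.sum_univ_two, hB g]
      · simp [Matrix.mulVec, dotProduct, Fin.sum_univ_two]

end Residual

end Fermat.Agent.GB.Glue.Core
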