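/-
GATE-B / B4, node GB-GLUE (helper36), file 9: **the Galois package over a twisted Hecke algebra
`T_Q`, from `ρbar` alone** (flat case `p ∤ N`).

`DatumOfRhobar.exists_datum` (the datum on helper12's carrier `Tloc 𝒪 θ`) composed with helper32's
`PushTloc.exists_galRep_flat` (push along the surjection `Tloc 𝒪 θ → T_Q` attached to a twist
homomorphism `tw`) and `PushTloc.residual_push`:

  `ρbar` absolutely irreducible with `charpoly ρbar(Frob_ℓ) = X² - θ(T_ℓ) X + d`, `tw` residually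
  `θ` and generating `T_Q` ⟹ `ρ_Q : GaloisRepAdic T_Q` with `charpoly ρ_Q(Frob_ℓ) = X² - tw(T_ℓ) X + ℓ`,
  the S56-shaped flat condition, and `ρ_Q.residual ≃ ρbar ⊗ ResidueField T_Q`.
-/
import Mathlib
import Fermat.Agent.GB.Glue.DatumOfRhobar
import Fermat.Agent.GB.B4.Datum.PushTloc

set_option autoImplicit false

noncomputable section

namespace Fermat.Agent.GB.Glue.GalPkgOfRhobar

open IsLocalRing Polynomial CuspForm Fermat.Agent.GB.B4.Datum.Carrier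
  Fermat.Agent.GB.B4.Datum.HeckeCarrier Fermat.Agent.GB.B4.Datum.Push
  Fermat.Agent.GB.B4.Datum.PushTloc

local notation "GQ" => (AlgebraicClosure ℚ ≃ₐ[ℚ] AlgebraicClosure ℚ)
local notation "Qb" => AlgebraicClosure ℚ

/-- residue field maps of a tower `𝒪 → T → T_Q` compose -/
theorem residueField_map_comp {𝒪 T TQ : Type} [CommRing 𝒪] [IsLocalRing 𝒪] [CommRing T]
    [IsLocalRing T] [CommRing TQ] [IsLocalRing TQ] [Algebra 𝒪 T] [Algebra 𝒪 TQ]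
    [IsLocalHom (algebraMap 𝒪 T)] [IsLocalHom (algebraMap 𝒪 TQ)] (φ : T →ₐ[𝒪] TQ)
    (hφ : IsLocalHom φ.toRingHom) :
    (haveI := hφ; ResidueField.map φ.toRingHom).comp (ResidueField.map (algebraMap 𝒪 T)) =
      ResidueField.map (algebraMap 𝒪 TQ) := by
  haveI := hφ
  refine RingHom.ext fun x => ?_
  obtain ⟨y, rfl⟩ := residue_surjective x
  rw [RingHom.comp_apply, ResidueField.map_residue, ResidueField.map_residue,
    ResidueField.map_residue]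
  exact congrArg _ (φ.commutes y)

variable (p : ℕ) [Fact p.Prime] (N : ℕ) [NeZero N] (S : Finset ℕ)
  (𝒪 : Type) [CommRing 𝒪] [IsDomain 𝒪] [IsDiscreteValuationRing 𝒪]
  [IsAdicComplete (maximalIdeal 𝒪) 𝒪] [Finite (ResidueField 𝒪)] [CharZero 𝒪]
  (θ : heckeAlgebra N 2 (↑S : Set ℕ) →+* ResidueField 𝒪)
  {TQ : Type} [CommRing TQ] [IsLocalRing TQ] [Algebra 𝒪 TQ] [IsLocalHom (algebraMap 𝒪 TQ)]

/-- **The Galois package over `T_Q` in the flat case, from `ρbar`.** -/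
theorem exists_galRep_flat_of_rhobar (hp2 : p ≠ 2) (hpN : ¬ p ∣ N) (hpS : p ∈ S)
    (hNS : ∀ q : ℕ, q.Prime → q ∣ N → q ∈ S) (hp𝒪 : (p : 𝒪) ∈ maximalIdeal 𝒪)
    (ρbar : ResidualGaloisRep (ResidueField 𝒪)) (habs : ρbar.IsAbsolutelyIrreducible)
    (hfrob : ∀ (ℓ : ℕ) (hℓ : ℓ.Prime) (hℓN : ¬ ℓ ∣ N) (hℓS : ℓ ∉ (↑S : Set ℕ)),
      ∀ P : ValuationSubring Qb, P.LiesOverPrime ℓ → ∀ σ : GQ, P.IsFrobeniusAt σ ℓ →
        ∃ d₀ : ResidueField 𝒪, LinearMap.charpoly (ρbar.ρ σ) =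
          X ^ 2 - C (θ (heckeAlgebra.T hℓ hℓN hℓS)) * X + C d₀)
    (tw : heckeAlgebra N 2 (↑S : Set ℕ) →+* TQ)
    (hres : ∀ t, residue TQ (tw t) = ResidueField.map (algebraMap 𝒪 TQ) (θ t))
    (hgen : Algebra.adjoin 𝒪 (Set.range tw) = ⊤)
    (Tram Smin : Finset ℕ) (hST : S ⊆ Tram)
    (hSmin : ∀ q ∈ Smin, q.Prime → q ≠ p → q ∣ N ∧ ¬ q ^ 2 ∣ N) :
    ∃ ρQ : GaloisRepAdic TQ,
      (∀ (ℓ : ℕ) (hℓ : ℓ.Prime) (hℓN : ¬ ℓ ∣ N) (hℓS : ℓ ∉ (↑S : Set ℕ))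
        (A : ValuationSubring Qb), A.LiesOverPrime ℓ → ∀ σ : GQ, A.IsFrobeniusAt σ ℓ →
          LinearMap.charpoly (ρQ.ρ σ) =
            X ^ 2 - C (tw (heckeAlgebra.T hℓ hℓN hℓS)) * X + C ((ℓ : TQ))) ∧
      (GaloisRep.flatCondition 𝒪 p Tram ρQ ∧
        ∀ q ∈ Smin, q.Prime → q ≠ p → ρQ.IsUnipotentOnInertiaAt q) ∧
      ρQ.residual.IsEquiv (ρbar.baseChangeAlong (ResidueField.map (algebraMap 𝒪 TQ))) ∧
      ρQ.residual.IsAbsolutelyIrreducible := by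
  obtain ⟨H, hπ, -, -, hresH⟩ :=
    DatumOfRhobar.exists_datum p N S 𝒪 θ hp2 hpS hNS hp𝒪 ρbar habs hfrob
  obtain ⟨φ, hφ, -, -, hchar, hflat⟩ := exists_galRep_flat (Fact.out : p.Prime) hp2 hp𝒪 hpN hpS
    hNS H hπ tw hres hgen Tram Smin hST hSmin
  have h1 := residual_push H.ρ φ.toRingHom hφ ρbar _ hresH
  rw [residueField_map_comp φ hφ] at h1
  refine ⟨pushRep H φ.toRingHom hφ, hchar, hflat, h1, ?_⟩
  obtain ⟨e⟩ := h1
  exact Habs.isAbsolutelyIrreducible_of_isEquiv ⟨e.symm⟩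
    (Habs.isAbsolutelyIrreducible_baseChangeAlong _ ρbar habs)

end Fermat.Agent.GB.Glue.GalPkgOfRhobar
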