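/-
GATE-B / B4 gluing, algebra half, node (G1) (helper15).  Mathlib + `GH/S32/GmaCore` (read-only).

(GMA₂) over a HENSELIAN local ring: `T` a local ring, henselian at its maximal ideal, `2 ∈ Tˣ`,
`B` a `T`-algebra with `T → B` injective carrying a trace involution `D = (ι, τ)`
(`GmaCore.TraceInv`), and a SURJECTIVE ring hom `π : B → M₂(k)` (`k` the residue field) which is
the residue map on `T`.  THEN `B ≃ₐ[T] M₂(T)`, compatibly with `τ`/trace, `ι`/adjugate and
`π`/reduction.

Difference with `GmaCore.exists_algEquiv_trace` (helper51): NO hypothesis on `ker π` (there: nil).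
The idempotent lifting `E₁₁` is obtained from Hensel's lemma in the BASE ring `T`, applied to the
quadratic `X² − τ(b₀) X + nrm(b₀)` of any lift `b₀` of `E₁₁` (Cayley–Hamilton holds in any algebra
with a trace involution: `b · ι b = nrm b`).  The rest of the proof is helper51's, verbatim
(steps 2–6 of `GmaCore.exists_matrix_units`), with the extra bookkeeping `π x = E₁₂`, `π y = E₂₁`.
-/
import Mathlib
import Fermat.Agent.GH.S32.GmaCore

set_option autoImplicit false

noncomputable section

namespace Fermat.Agent.GB.Glue.GmaHensel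

open Matrix Polynomial Fermat.Agent.GH.S32.GmaCore

section Main

variable {R : Type*} [CommRing R] [IsLocalRing R] {B : Type*} [Ring B] [Algebra R B]
  (D : TraceInv R B) (h2 : IsUnit (2 : R)) (hinj : Function.Injective (algebraMap R B))
  (π : B →+* Matrix (Fin 2) (Fin 2) (IsLocalRing.ResidueField R))
  (hπsurj : Function.Surjective π)
  (hπR : ∀ r : R, π (algebraMap R B r) =
    algebraMap (IsLocalRing.ResidueField R) (Matrix (Fin 2) (Fin 2) (IsLocalRing.ResidueField R))
      (IsLocalRing.residue R r))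

local notation "a" => algebraMap R B

omit [IsLocalRing R] in
/-- Cayley–Hamilton in an algebra with a trace involution. -/
theorem cayley_hamilton (b : B) :
    b * b - a (D.tr b) * b + a (D.nrm h2 b) = 0 := by
  have h := D.mul_inv_eq h2 b
  rw [D.inv_eq, mul_sub, ← Algebra.commutes] at h
  rw [← h]
  abel

include D h2 hπR in
/-- The residues of the trace and the norm of a lift of `E₁₁`. -/
theorem residue_tr_nrm_of_lift (b : B) (hb : π b = E11 _) :
    IsLocalRing.residue R (D.tr b) = 1 ∧ IsLocalRing.residue R (D.nrm h2 b) = 0 := by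
  have h := congrArg π (cayley_hamilton D h2 b)
  rw [map_add, map_sub, map_mul, map_mul, hπR, hπR, hb, map_zero, (E11_idem _).eq] at h
  have h00 := congrFun (congrFun h 0) 0
  have h11 := congrFun (congrFun h 1) 1
  simp only [Matrix.algebraMap_eq_diagonal, E11, Matrix.add_apply, Matrix.sub_apply,
    Matrix.diagonal_mul, Matrix.of_apply, Matrix.cons_val', Matrix.cons_val_zero,
    Matrix.cons_val_one, Matrix.cons_val_fin_one, Pi.algebraMap_apply, Algebra.algebraMap_self,
    RingHom.id_apply, Matrix.diagonal_apply_eq, Matrix.zero_apply, mul_one, mul_zero, sub_zero,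
    zero_add] at h00 h11
  refine ⟨?_, h11⟩
  rw [h11, add_zero, sub_eq_zero] at h00
  exact h00.symm

include D h2 hπsurj hπR in
/-- **Idempotent lifting by Hensel on the quadratic.** -/
theorem exists_idem_lift [HenselianRing R (IsLocalRing.maximalIdeal R)] :
    ∃ e : B, e * e = e ∧ π e = E11 _ := by
  obtain ⟨b, hb⟩ := hπsurj (E11 _)
  obtain ⟨hτ, hν⟩ := residue_tr_nrm_of_lift D h2 π hπR b hb
  set τ := D.tr b with hτdef
  set ν := D.nrm h2 b with hνdef
  -- the quadratic
  set f : R[X] := X ^ 2 + (C (-τ) * X + C ν) with hf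
  have hmonic : f.Monic := by
    apply Polynomial.monic_X_pow_add
    exact lt_of_le_of_lt (Polynomial.degree_linear_le) (by norm_num)
  have heval : ∀ t : R, f.eval t = t ^ 2 + (-τ * t + ν) := by
    intro t
    simp [hf]
  have hder : f.derivative.eval 1 = 2 - τ := by
    simp [hf]
    ring
  have h1 : f.eval 1 ∈ IsLocalRing.maximalIdeal R := by
    rw [← IsLocalRing.residue_eq_zero_iff, heval]
    simp only [map_add, map_mul, map_neg, map_pow, map_one, hτ, hν]
    ring
  have h2' : IsUnit (Ideal.Quotient.mk (IsLocalRing.maximalIdeal R) (f.derivative.eval 1)) := by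
    rw [hder]
    have : IsLocalRing.residue R (2 - τ) = 1 := by
      rw [map_sub, hτ, map_ofNat]
      norm_num
    change IsUnit (IsLocalRing.residue R (2 - τ))
    rw [this]
    exact isUnit_one
  obtain ⟨α, hα, hα1⟩ := HenselianRing.is_henselian f hmonic 1 h1 h2'
  rw [Polynomial.IsRoot.def, heval] at hα
  have hαres : IsLocalRing.residue R α = 1 := by
    rw [← sub_eq_zero, ← map_one (IsLocalRing.residue R), ← map_sub]
    exact (IsLocalRing.residue_eq_zero_iff _).2 hα1
  obtain ⟨β, hβdef⟩ : ∃ β, β = τ - α := ⟨_, rfl⟩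
  have hsum : α + β = τ := by rw [hβdef]; ring
  have hprod : α * β = ν := by
    rw [hβdef]
    linear_combination -hα
  have hβres : IsLocalRing.residue R β = 0 := by
    rw [hβdef, map_sub, hτ, hαres, sub_self]
  have hu : IsUnit (α - β) := by
    rw [← IsLocalRing.residue_ne_zero_iff_isUnit, map_sub, hαres, hβres, sub_zero]
    exact one_ne_zero
  -- `(b - β)(b - α) = 0`
  have hCH := cayley_hamilton D h2 b
  rw [← hτdef, ← hνdef] at hCH
  have hzero : (b - a β) * (b - a α) = 0 := by
    have : (b - a β) * (b - a α) = b * b - a τ * b + a ν := by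
      have hc1 : b * a α = a α * b := (Algebra.commutes α b).symm
      have hc2 : a β * a α = a α * a β := by rw [← map_mul, ← map_mul, mul_comm]
      rw [← hsum, ← hprod, map_add, map_mul, sub_mul, mul_sub, mul_sub, add_mul, hc1, hc2]
      abel
    rw [this, hCH]
  have hsq : (b - a β) * (b - a β) = a (α - β) * (b - a β) := by
    have h3 : b - a β = (b - a α) + a (α - β) := by rw [map_sub]; abel
    calc (b - a β) * (b - a β) = (b - a β) * ((b - a α) + a (α - β)) := by rw [← h3]
      _ = (b - a β) * a (α - β) := by rw [mul_add, hzero, zero_add]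
      _ = a (α - β) * (b - a β) := (Algebra.commutes _ _).symm
  refine ⟨((hu.unit⁻¹ : Rˣ) : R) • (b - a β), ?_, ?_⟩
  · rw [smul_mul_smul_comm, hsq, ← Algebra.smul_def, smul_smul, mul_assoc, IsUnit.val_inv_mul,
      mul_one]
  · rw [Algebra.smul_def, map_mul, map_sub, hb, hπR, hπR, hβres, map_zero, sub_zero]
    have : IsLocalRing.residue R ((hu.unit⁻¹ : Rˣ) : R) = 1 := by
      have h := congrArg (IsLocalRing.residue R) (IsUnit.val_inv_mul hu)
      rw [map_mul, map_sub, hαres, hβres, sub_zero, mul_one, map_one] at h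
      exact h
    rw [this, map_one, one_mul]

include D h2 hinj hπsurj hπR in
/-- **(GMA₂) core, matrix-unit form, from a given idempotent lift of `E₁₁`** (helper51's
`GmaCore.exists_matrix_units`, steps 2–6, with the images under `π` recorded). -/
theorem exists_matrix_units_of_idem (e : B) (hee : e * e = e) (hπe : π e = E11 _) :
    ∃ x y e' : B, IsUnits e x y e' ∧
      (∀ b : B, ∃ α β γ δ : R, b = α • e + β • x + γ • y + δ • e') ∧
      (∀ r : R, r • e = 0 → r = 0) ∧ (∀ r : R, r • e' = 0 → r = 0) ∧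
      D.tr e = 1 ∧ D.tr x = 0 ∧ D.tr y = 0 ∧ D.tr e' = 1 ∧ D.inv e = e' ∧
      π x = E12 _ ∧ π y = E21 _ ∧ π e' = E22 _ := by
  classical
  -- Step 2: `nrm e = 0`
  have hn : D.nrm h2 e = 0 := by
    have hid : D.nrm h2 e * D.nrm h2 e = D.nrm h2 e := by rw [← D.nrm_mul h2 hinj, hee]
    rcases eq_zero_or_one_of_idem hid with h | h
    · exact h
    · exfalso
      have h1 : e * D.inv e = 1 := by rw [D.mul_inv_eq h2, h, map_one]
      have h3 : e = 1 := by
        calc e = e * (e * D.inv e) := by rw [h1, mul_one]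
          _ = e * D.inv e := by rw [← mul_assoc, hee]
          _ = 1 := h1
      have : π e = 1 := by rw [h3, map_one]
      rw [hπe] at this
      exact E11_ne_one _ this
  obtain ⟨e', he'def⟩ : ∃ e', e' = D.inv e := ⟨_, rfl⟩
  have hinve' : D.inv e' = e := by rw [he'def, D.inv_inv]
  have hee' : e * e' = 0 := by rw [he'def, D.mul_inv_eq h2, hn, map_zero]
  have he'e : e' * e = 0 := by rw [he'def, D.inv_mul_eq h2, hn, map_zero]
  have he'e' : e' * e' = e' := by rw [he'def, ← D.inv_mul, hee]
  -- Step 3: `τ e = 1`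
  have hsum : e + e' = a (D.tr e) := by rw [he'def]; exact D.add_inv e
  have hτid : D.tr e * D.tr e = D.tr e := by
    apply hinj
    rw [map_mul, ← hsum, add_mul, mul_add, mul_add, hee, hee', he'e, he'e', add_zero, zero_add]
  have hτ1 : D.tr e = 1 := by
    rcases eq_zero_or_one_of_idem hτid with h | h
    · exfalso
      rw [h, map_zero] at hsum
      have h3 : e' = -e := eq_neg_of_add_eq_zero_right hsum
      have h4 := hee'
      rw [h3, mul_neg, hee, neg_eq_zero] at h4
      rw [h4, map_zero] at hπe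
      exact E11_ne_zero _ hπe.symm
    · exact h
  have hone : e + e' = 1 := by rw [hsum, hτ1, map_one]
  have hπe' : π e' = E22 _ := by
    have : π e' = 1 - π e := by rw [← map_one π, ← hone, map_add, add_sub_cancel_left]
    rw [this, hπe, one_sub_E11]
  -- scalars killing `e` or `e'` vanish
  have hkill : ∀ r : R, r • e = 0 → r = 0 := by
    intro r hr
    have h1 : r • e' = 0 := by rw [he'def, ← map_smul, hr, map_zero]
    apply hinj
    rw [map_zero, Algebra.algebraMap_eq_smul_one, ← hone, smul_add, hr, h1, add_zero]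
  have hkill' : ∀ r : R, r • e' = 0 → r = 0 := by
    intro r hr
    have h1 : r • e = 0 := by rw [← hinve', ← map_smul, hr, map_zero]
    exact hkill r h1
  -- Step 4: the corners
  have hcorner : ∀ b : B, e * b * e = D.tr (e * b * e) • e := by
    intro b
    have h1 : D.inv (e * b * e) = e' * (D.inv b * e') := by
      rw [mul_assoc, D.inv_mul, D.inv_mul, ← he'def, mul_assoc]
    have h3 := D.add_inv (e * b * e)
    rw [h1] at h3
    have h4 : e * (e * b * e + e' * (D.inv b * e')) = e * b * e := by
      rw [mul_add, ← mul_assoc e e', hee', zero_mul, add_zero, ← mul_assoc, ← mul_assoc, hee]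
    rw [h3] at h4
    rw [Algebra.smul_def, Algebra.commutes]
    exact h4.symm
  have hcorner' : ∀ b : B, e' * b * e' = D.tr (e' * b * e') • e' := by
    intro b
    have h1 : D.inv (e' * b * e') = e * (D.inv b * e) := by
      rw [mul_assoc, D.inv_mul, D.inv_mul, hinve', mul_assoc]
    have h3 := D.add_inv (e' * b * e')
    rw [h1] at h3
    have h4 : e' * (e' * b * e' + e * (D.inv b * e)) = e' * b * e' := by
      rw [mul_add, ← mul_assoc e' e, he'e, zero_mul, add_zero, ← mul_assoc, ← mul_assoc, he'e']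
    rw [h3] at h4
    rw [Algebra.smul_def, Algebra.commutes]
    exact h4.symm
  -- Step 5: lifts of `E₁₂`, `E₂₁`
  obtain ⟨x₁, hx₁⟩ := hπsurj (E12 _)
  obtain ⟨y₁, hy₁⟩ := hπsurj (E21 _)
  obtain ⟨x₀, hx₀def⟩ : ∃ x₀, x₀ = e * x₁ * e' := ⟨_, rfl⟩
  obtain ⟨y, hydef⟩ : ∃ y, y = e' * y₁ * e := ⟨_, rfl⟩
  have hπx₀ : π x₀ = E12 _ := by
    rw [hx₀def, map_mul, map_mul, hπe, hx₁, hπe', E11_mul_E12_mul_E22]
  have hπy : π y = E21 _ := by
    rw [hydef, map_mul, map_mul, hπe, hy₁, hπe', E22_mul_E21_mul_E11]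
  have hex₀ : e * x₀ = x₀ := by rw [hx₀def, ← mul_assoc, ← mul_assoc, hee]
  have hx₀e' : x₀ * e' = x₀ := by rw [hx₀def, mul_assoc, he'e']
  have he'y : e' * y = y := by rw [hydef, ← mul_assoc, ← mul_assoc, he'e']
  have hye : y * e = y := by rw [hydef, mul_assoc, hee]
  obtain ⟨lam, hlam⟩ : ∃ lam : R, x₀ * y = lam • e := by
    refine ⟨D.tr (e * (x₀ * y) * e), ?_⟩
    rw [← hcorner, mul_assoc, mul_assoc, hye, ← mul_assoc, hex₀]
  have hlamres : IsLocalRing.residue R lam = 1 := by
    have h1 : π (x₀ * y) = E11 _ := by rw [map_mul, hπx₀, hπy, E12_mul_E21]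
    rw [hlam, Algebra.smul_def, map_mul, hπR, hπe] at h1
    have h3 := congrFun (congrFun h1 0) 0
    rw [algebraMap_mul_E11_apply] at h3
    rw [h3]
    simp [E11]
  have hlamu : IsUnit lam := by
    rw [← IsLocalRing.residue_ne_zero_iff_isUnit, hlamres]
    exact one_ne_zero
  obtain ⟨x, hxdef⟩ : ∃ x, x = ((hlamu.unit⁻¹ : Rˣ) : R) • x₀ := ⟨_, rfl⟩
  have hπx : π x = E12 _ := by
    have hres : IsLocalRing.residue R ((hlamu.unit⁻¹ : Rˣ) : R) = 1 := by
      have h := congrArg (IsLocalRing.residue R) (IsUnit.val_inv_mul hlamu)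
      rw [map_mul, hlamres, mul_one, map_one] at h
      exact h
    rw [hxdef, Algebra.smul_def, map_mul, hπR, hres, map_one, one_mul, hπx₀]
  have hex : e * x = x := by rw [hxdef, mul_smul_comm, hex₀]
  have hxe' : x * e' = x := by rw [hxdef, smul_mul_assoc, hx₀e']
  have hxy : x * y = e := by
    rw [hxdef, smul_mul_assoc, hlam, smul_smul, IsUnit.val_inv_mul, one_smul]
  obtain ⟨mu, hmu⟩ : ∃ mu : R, y * x = mu • e' := by
    refine ⟨D.tr (e' * (y * x) * e'), ?_⟩
    rw [← hcorner', mul_assoc, mul_assoc, hxe', ← mul_assoc, he'y]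
  have hmu1 : mu = 1 := by
    have h1 : x = mu • x := by
      calc x = x * y * x := by rw [hxy, hex]
        _ = x * (mu • e') := by rw [mul_assoc, hmu]
        _ = mu • x := by rw [mul_smul_comm, hxe']
    have h3 : (1 - mu) • e = 0 := by
      rw [← hxy, ← smul_mul_assoc, sub_smul, one_smul, ← h1, sub_self, zero_mul]
    have := hkill _ h3
    exact (sub_eq_zero.1 this).symm
  have hyx : y * x = e' := by rw [hmu, hmu1, one_smul]
  have hU : IsUnits e x y e' :=
    ⟨hee, he'e', hone, hee', he'e, hxy, hyx, hex, hxe', he'y, hye⟩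
  -- the traces of the units
  have hτe' : D.tr e' = 1 := by rw [he'def, D.tr_inv e hinj, hτ1]
  have hτx : D.tr x = 0 := by
    apply hkill
    have h1 : D.inv x = e * (D.inv x * e') := by
      conv_lhs => rw [← hex, ← hxe', D.inv_mul, D.inv_mul, hinve', ← he'def, mul_assoc]
    have h3 := D.add_inv x
    have h4 : e * (x + D.inv x) * e = 0 := by
      rw [h1, mul_add, add_mul, hex, hU.xe, zero_add]
      simp only [mul_assoc, he'e, mul_zero]
    rw [h3, ← Algebra.commutes, mul_assoc, hee, ← Algebra.smul_def] at h4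
    exact h4
  have hτy : D.tr y = 0 := by
    apply hkill'
    have h1 : D.inv y = e' * (D.inv y * e) := by
      conv_lhs => rw [← he'y, ← hye, D.inv_mul, D.inv_mul, hinve', ← he'def, mul_assoc]
    have h3 := D.add_inv y
    have h4 : e' * (y + D.inv y) * e' = 0 := by
      rw [h1, mul_add, add_mul, he'y, hU.ye', zero_add]
      simp only [mul_assoc, hee', mul_zero]
    rw [h3, ← Algebra.commutes, mul_assoc, he'e', ← Algebra.smul_def] at h4
    exact h4
  refine ⟨x, y, e', hU, ?_, hkill, hkill', hτ1, hτx, hτy, hτe', he'def.symm, hπx, hπy, hπe'⟩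
  -- Step 6: spanning
  intro b
  obtain ⟨α, hα⟩ : ∃ α : R, e * b * e = α • e := ⟨_, hcorner b⟩
  obtain ⟨δ, hδ⟩ : ∃ δ : R, e' * b * e' = δ • e' := ⟨_, hcorner' b⟩
  obtain ⟨β, hβ⟩ : ∃ β : R, e * (b * e' * y) * e = β • e := ⟨_, hcorner _⟩
  obtain ⟨γ, hγ⟩ : ∃ γ : R, e * (x * e' * b) * e = γ • e := ⟨_, hcorner _⟩
  refine ⟨α, β, γ, δ, ?_⟩
  have h1 : b = e * b * e + e * b * e' + e' * b * e + e' * b * e' := by
    calc b = (e + e') * b * (e + e') := by rw [hone, one_mul, mul_one]
      _ = _ := by
        simp only [add_mul, mul_add]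
        abel
  have hex' : ∀ z, e * (x * z) = x * z := fun z => by rw [← mul_assoc, hex]
  have hyx' : ∀ z, y * (x * z) = e' * z := fun z => by rw [← mul_assoc, hyx]
  have he'e'' : ∀ z, e' * (e' * z) = e' * z := fun z => by rw [← mul_assoc, he'e']
  have h3 : e * b * e' = β • x := by
    calc e * b * e' = (e * (b * e' * y) * e) * x := by
          simp only [mul_assoc, hex, hyx, he'e']
      _ = β • x := by rw [hβ, smul_mul_assoc, hex]
  have h4 : e' * b * e = γ • y := by
    calc e' * b * e = y * (e * (x * e' * b) * e) := by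
          simp only [mul_assoc, hex', hyx', he'e'']
      _ = γ • y := by rw [hγ, mul_smul_comm, hye]
  rw [← hα, ← hδ, ← h3, ← h4]
  exact h1

end Main

/-! ### The statement -/

section Final

variable {R : Type*} [CommRing R] [IsLocalRing R] {B : Type*} [Ring B] [Algebra R B]

/-- **(GMA₂) over a henselian local ring, with the trace, the adjugate and the reduction**:
a local `R`, henselian at its maximal ideal, `2 ∈ Rˣ`, an `R`-algebra `B ⊇ R` with a trace
involution `D = (ι, τ)` and a surjection `π` onto `M₂(k)` extending the residue map ⟹ an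
isomorphism `Φ : M₂(R) ≃ₐ[R] B` under which `τ` is the matrix trace, `ι` the adjugate, and `π` the
entrywise reduction. -/
theorem exists_algEquiv_trace [HenselianRing R (IsLocalRing.maximalIdeal R)]
    (D : TraceInv R B) (h2 : IsUnit (2 : R))
    (hinj : Function.Injective (algebraMap R B))
    (π : B →+* Matrix (Fin 2) (Fin 2) (IsLocalRing.ResidueField R))
    (hπsurj : Function.Surjective π)
    (hπR : ∀ r : R, π (algebraMap R B r) =
      algebraMap (IsLocalRing.ResidueField R)
        (Matrix (Fin 2) (Fin 2) (IsLocalRing.ResidueField R)) (IsLocalRing.residue R r)) :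
    ∃ Φ : Matrix (Fin 2) (Fin 2) R ≃ₐ[R] B,
      (∀ M, D.tr (Φ M) = Matrix.trace M) ∧ (∀ M, D.inv (Φ M) = Φ (Matrix.adjugate M)) ∧
      (∀ M, π (Φ M) = M.map (IsLocalRing.residue R)) := by
  obtain ⟨e, hee, hπe⟩ := exists_idem_lift D h2 π hπsurj hπR
  obtain ⟨x, y, e', hU, hspan, hk, hk', hτe, hτx, hτy, hτe', hιe, hπx, hπy, hπe'⟩ :=
    exists_matrix_units_of_idem D h2 hinj π hπsurj hπR e hee hπe
  have htr : ∀ M : Matrix (Fin 2) (Fin 2) R, D.tr (unitsAlgHom hU M) = Matrix.trace M := by
    intro M
    rw [unitsAlgHom_apply, map_add, map_add, map_add, map_smul, map_smul, map_smul, map_smul,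
      hτe, hτx, hτy, hτe', Matrix.trace_fin_two]
    simp
  refine ⟨AlgEquiv.ofBijective (unitsAlgHom hU) (unitsAlgHom_bijective hU hspan hk hk'),
    htr, fun M => ?_, fun M => ?_⟩
  · show D.inv (unitsAlgHom hU M) = unitsAlgHom hU (Matrix.adjugate M)
    rw [D.inv_eq, htr, Matrix.adjugate_fin_two, unitsAlgHom_apply, unitsAlgHom_apply,
      Algebra.algebraMap_eq_smul_one, ← hU.add, Matrix.trace_fin_two]
    simp only [Matrix.of_apply, Matrix.cons_val', Matrix.cons_val_zero, Matrix.cons_val_one,
      Matrix.cons_val_fin_one]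
    module
  · show π (unitsAlgHom hU M) = M.map (IsLocalRing.residue R)
    rw [unitsAlgHom_apply]
    simp only [Algebra.smul_def, map_add, map_mul, hπR, hπe, hπx, hπy, hπe']
    ext i j
    fin_cases i <;> fin_cases j <;>
      simp [E11, E12, E21, E22, Matrix.algebraMap_eq_diagonal, Matrix.diagonal_mul]

end Final

end Fermat.Agent.GB.Glue.GmaHensel
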