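/-
GATE-B / B10′ seam (helper36): **ordinary + cyclotomic determinant + quadratic unramified quotient
character ⟹ strict-ordinary** (frozen `GaloisRepAdic.IsStrictOrdinaryAt`).

For `σ` in the decomposition group, let `x` be the scalar by which `σ` acts on the line `L` and `z`
the scalar on `V/L`.  `DetIsCyclotomic` says `x z ≡ a`, strictness asks `x ≡ a z`; if `z² = 1`
then `x - a z = z (x z - a)`.  Conversely strict + cyclotomic determinant forces `z² ≡ 1`
(`sq_sub_one_mem_of_strict`), so the hypothesis is sharp.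
-/
import Mathlib
import Fermat.Prelude.Def_GaloisRep_StrictOrdinary

set_option autoImplicit false

namespace Fermat.Agent.GB.Glue.StrictOfSq

open IsLocalRing

local notation "GQ" => (AlgebraicClosure ℚ ≃ₐ[ℚ] AlgebraicClosure ℚ)
local notation "Qb" => AlgebraicClosure ℚ

variable {A : Type} [CommRing A] [IsLocalRing A]

/-- the shape of an endomorphism preserving the line spanned by the first basis vector -/
theorem exists_triangular {V : Type} [AddCommGroup V] [Module A V]
    (b : Module.Basis (Fin 2) A V) (f : Module.End A V) (hf : f (b 0) ∈ A ∙ b 0) :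
    ∃ x y z : A, f (b 0) = x • b 0 ∧ f (b 1) = y • b 0 + z • b 1 ∧
      (∀ w ∈ A ∙ b 0, f w = x • w) ∧ (∀ v : V, f v - z • v ∈ A ∙ b 0) ∧
      LinearMap.det f = x * z := by
  obtain ⟨x, hx⟩ := Submodule.mem_span_singleton.mp hf
  obtain ⟨y, z, h1⟩ : ∃ y z : A, f (b 1) = y • b 0 + z • b 1 := by
    refine ⟨b.repr (f (b 1)) 0, b.repr (f (b 1)) 1, ?_⟩
    conv_lhs => rw [← b.sum_repr (f (b 1))]
    rw [Fin.sum_univ_two]
  refine ⟨x, y, z, hx.symm, h1, ?_, ?_, ?_⟩
  · intro w hw
    obtain ⟨c, rfl⟩ := Submodule.mem_span_singleton.mp hw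
    rw [map_smul, ← hx, smul_comm]
  · intro v
    have hv : v = b.repr v 0 • b 0 + b.repr v 1 • b 1 := by
      conv_lhs => rw [← b.sum_repr v]
      rw [Fin.sum_univ_two]
    rw [Submodule.mem_span_singleton]
    refine ⟨b.repr v 0 * (x - z) + b.repr v 1 * y, ?_⟩
    generalize b.repr v 0 = c0 at hv
    generalize b.repr v 1 = c1 at hv
    rw [hv, map_add, map_smul, map_smul, ← hx, h1]
    module
  · rw [← LinearMap.det_toMatrix b, Matrix.det_fin_two]
    have e00 : LinearMap.toMatrix b b f 0 0 = x := by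
      rw [LinearMap.toMatrix_apply, ← hx, map_smul, b.repr_self]; simp
    have e10 : LinearMap.toMatrix b b f 1 0 = 0 := by
      rw [LinearMap.toMatrix_apply, ← hx, map_smul, b.repr_self]; simp
    have e11 : LinearMap.toMatrix b b f 1 1 = z := by
      rw [LinearMap.toMatrix_apply, h1, map_add, map_smul, map_smul, b.repr_self, b.repr_self]
      simp
    rw [e00, e10, e11, mul_zero, sub_zero]

/-- **Ordinary with quadratic quotient character ⟹ strict-ordinary.** -/
theorem isStrictOrdinaryAt_of_sq_eq_one (ρ : GaloisRepAdic A) (p : ℕ)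
    (hdet : ρ.DetIsCyclotomic p)
    (h : ∀ P : ValuationSubring Qb, P.LiesOverPrime p →
      ∃ L : Submodule A ρ.V,
        (∃ b : Module.Basis (Fin 2) A ρ.V, L = A ∙ b 0) ∧
        (∀ σ ∈ P.decompositionSubgroup ℚ, ∀ v ∈ L, ρ.ρ σ v ∈ L) ∧
        (∀ σ ∈ P.inertiaSubgroupIn ℚ, ∀ v : ρ.V, ρ.ρ σ v - v ∈ L) ∧
        (∀ σ ∈ P.decompositionSubgroup ℚ, ∀ z : A,
          (∀ v : ρ.V, ρ.ρ σ v - z • v ∈ L) → z * z = 1)) :
    ρ.IsStrictOrdinaryAt p := by
  refine ⟨hdet.1, fun P hP => ?_⟩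
  obtain ⟨L, ⟨b, rfl⟩, hD, hI, hz⟩ := h P hP
  refine ⟨A ∙ b 0, ⟨b, rfl⟩, hD, hI, fun σ hσ => ?_⟩
  obtain ⟨x, y, z, -, -, hxL, hzL, hdetσ⟩ := exists_triangular b (ρ.ρ σ)
    (hD σ hσ _ (Submodule.mem_span_singleton_self _))
  refine ⟨x, z, hxL, hzL, fun n a ha => ?_⟩
  have h1 := hdet.2 n σ a ha
  rw [hdetσ] at h1
  have hzz := hz σ hσ z hzL
  have h2 : x - (a : A) * z = z * (x * z - (a : A)) := by
    have : x * (z * z) = x := by rw [hzz, mul_one]
    linear_combination -this
  rw [h2]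
  exact Ideal.mul_mem_left _ _ h1

/-- The ordinary form: the frozen `IsOrdinaryAt`-data plus `z² = 1`, with the line given by
`IsOrdinaryAt` itself when the quotient character does not depend on the choice of the line
(stated for ONE choice of line per place, as produced by `IsOrdinaryAt`). -/
theorem sq_sub_one_mem_of_strict (ρ : GaloisRepAdic A) (p : ℕ) (hdet : ρ.DetIsCyclotomic p)
    {L : Submodule A ρ.V} {σ : GQ} {x z : A} (b : Module.Basis (Fin 2) A ρ.V) (hL : L = A ∙ b 0)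
    (hx : ∀ w ∈ L, ρ.ρ σ w = x • w) (hzL : ∀ v : ρ.V, ρ.ρ σ v - z • v ∈ L)
    (n a : ℕ) (ha : ∀ μ : Qb, μ ^ p ^ n = 1 → σ μ = μ ^ a)
    (hs : x - (a : A) * z ∈ Ideal.span {((p ^ n : ℕ) : A)}) :
    (a : A) * (z * z - 1) ∈ Ideal.span {((p ^ n : ℕ) : A)} := by
  subst hL
  have hb0 : ρ.ρ σ (b 0) ∈ A ∙ b 0 := by
    rw [hx _ (Submodule.mem_span_singleton_self _)]
    exact Submodule.smul_mem _ _ (Submodule.mem_span_singleton_self _)
  obtain ⟨x', y', z', hx', -, -, hz', hdetσ⟩ := exists_triangular b (ρ.ρ σ) hb0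
  have hxx : x' = x := by
    have h1 := hx _ (Submodule.mem_span_singleton_self (b 0))
    rw [hx'] at h1
    have := congrArg (fun v => b.repr v 0) h1
    simpa using this
  have hzz : z' = z := by
    have h1 := Submodule.sub_mem _ (hzL (b 1)) (hz' (b 1))
    have h2 : ρ.ρ σ (b 1) - z • b 1 - (ρ.ρ σ (b 1) - z' • b 1) = (z' - z) • b 1 := by
      rw [sub_smul]; abel
    rw [h2] at h1
    obtain ⟨c, hc⟩ := Submodule.mem_span_singleton.mp h1
    have := congrArg (fun v => b.repr v 1) hc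
    simp only [map_smul, b.repr_self, Finsupp.smul_apply, smul_eq_mul] at this
    simp at this
    exact sub_eq_zero.mp this.symm
  have h1 := hdet.2 n σ a ha
  rw [hdetσ, hxx, hzz] at h1
  have h2 : (a : A) * (z * z - 1) = z * (x - (a : A) * z) * (-1) + (x * z - (a : A)) := by ring
  rw [h2]
  exact Ideal.add_mem _ (Ideal.mul_mem_right _ _ (Ideal.mul_mem_left _ _ hs)) h1

end Fermat.Agent.GB.Glue.StrictOfSq
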