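/-
GATE-B / B4 gluing, algebra half, node (G2) (helper15).  Mathlib + `GH/S32/GmaCore` (read-only) +
`GB/Glue/GmaHensel`.

**Carayol descent in dimension 2.**  `T` a local ring, henselian at its maximal ideal, `2 ∈ Tˣ`;
`T'` a commutative `T`-algebra with `T → T'` injective; `S ⊆ M₂(T')` a `T`-subalgebra all of whose
traces lie in `T`; ONE residue map `q₁ : T' → k₁` over `j : k → k₁` such that `q₁(S) ⊆ M₂(k)` and
`S → M₂(k)` is onto.  THEN `S = Φ(M₂(T))` for an injective `T`-algebra hom
`Φ : M₂(T) → M₂(T')` compatible with traces, adjugates and reduction.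

Group form: `r' : G →* M₂(T')` with traces in `T`, `q₁ ∘ r' = j ∘ ρ̄` for a `ρ̄ : G →* M₂(k)` whose
image spans `M₂(k)` ⟹ `r : G →* M₂(T)` with `Φ (r g) = r' g` and `r g mod 𝔪 = ρ̄ g` exactly.
-/
import Mathlib
import Fermat.Agent.GH.S32.GmaCore
import Fermat.Agent.GB.Glue.GmaHensel

set_option autoImplicit false

noncomputable section

namespace Fermat.Agent.GB.Glue.SubAlg

open Matrix Fermat.Agent.GH.S32.GmaCore

/-! ### `2 × 2` identities -/

section TwoByTwo

variable {A : Type*} [CommRing A]

theorem adjugate_eq_trace_sub (M : Matrix (Fin 2) (Fin 2) A) :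
    Matrix.adjugate M = algebraMap A (Matrix (Fin 2) (Fin 2) A) (Matrix.trace M) - M := by
  rw [Matrix.adjugate_fin_two, Matrix.trace_fin_two, Matrix.algebraMap_eq_diagonal]
  ext i j
  fin_cases i <;> fin_cases j <;> simp

theorem adjugate_adjugate_two (M : Matrix (Fin 2) (Fin 2) A) :
    Matrix.adjugate (Matrix.adjugate M) = M := by
  rw [Matrix.adjugate_fin_two, Matrix.adjugate_fin_two]
  ext i j
  fin_cases i <;> fin_cases j <;> simp

theorem trace_algebraMap_two (c : A) :
    Matrix.trace (algebraMap A (Matrix (Fin 2) (Fin 2) A) c) = 2 * c := by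
  rw [Matrix.trace_fin_two, Matrix.algebraMap_eq_diagonal]
  simp [two_mul]

end TwoByTwo

/-! ### The trace involution on a subalgebra with traces in `T` -/

section Sub

variable {T : Type*} [CommRing T] {T' : Type*} [CommRing T'] [Algebra T T']
  (hinj : Function.Injective (algebraMap T T'))
  (S : Subalgebra T (Matrix (Fin 2) (Fin 2) T'))
  (hS : ∀ b ∈ S, ∃ t : T, algebraMap T T' t = Matrix.trace b)

theorem algebraMap_matrix_eq (t : T) :
    algebraMap T (Matrix (Fin 2) (Fin 2) T') t =
      algebraMap T' (Matrix (Fin 2) (Fin 2) T') (algebraMap T T' t) := by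
  rw [Matrix.algebraMap_eq_diagonal, Matrix.algebraMap_eq_diagonal]
  rfl

include hinj in
theorem algebraMap_sub_injective : Function.Injective (algebraMap T S) := by
  intro t t' h
  apply hinj
  have h1 := congrArg (fun b : S => (b : Matrix (Fin 2) (Fin 2) T') 0 0) h
  simpa [Matrix.algebraMap_eq_diagonal] using h1

/-- the trace `S → T` -/
def trS : S →ₗ[T] T where
  toFun b := Classical.choose (hS b b.2)
  map_add' b c := by
    apply hinj
    rw [map_add, Classical.choose_spec (hS b b.2), Classical.choose_spec (hS c c.2),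
      Classical.choose_spec (hS (b + c) (b + c).2)]
    exact Matrix.trace_add _ _
  map_smul' t b := by
    apply hinj
    rw [RingHom.id_apply, smul_eq_mul, map_mul, Classical.choose_spec (hS b b.2),
      Classical.choose_spec (hS (t • b) (t • b).2)]
    show Matrix.trace (t • (b : Matrix (Fin 2) (Fin 2) T')) = _
    rw [Matrix.trace_smul, Algebra.smul_def]

theorem algebraMap_trS (b : S) :
    algebraMap T T' (trS hinj S hS b) = Matrix.trace (b : Matrix (Fin 2) (Fin 2) T') :=
  Classical.choose_spec (hS b b.2)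

/-- the involution `S → S`, `b ↦ τ b − b` -/
def invS : S →ₗ[T] S :=
  (Algebra.linearMap T S) ∘ₗ (trS hinj S hS) - LinearMap.id

theorem invS_val (b : S) :
    ((invS hinj S hS b : S) : Matrix (Fin 2) (Fin 2) T') =
      Matrix.adjugate (b : Matrix (Fin 2) (Fin 2) T') := by
  unfold invS
  rw [LinearMap.sub_apply, LinearMap.comp_apply, LinearMap.id_apply, Algebra.linearMap_apply,
    adjugate_eq_trace_sub, ← algebraMap_trS hinj S hS b, ← algebraMap_matrix_eq]
  rfl

/-- the trace involution on `S` -/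
def traceInv : TraceInv T S where
  inv := invS hinj S hS
  tr := trS hinj S hS
  inv_mul b c := by
    apply Subtype.ext
    rw [invS_val, Subalgebra.coe_mul, Subalgebra.coe_mul, invS_val, invS_val,
      Matrix.adjugate_mul_distrib]
  inv_inv b := by
    apply Subtype.ext
    rw [invS_val, invS_val, adjugate_adjugate_two]
  add_inv b := by
    unfold invS
    rw [LinearMap.sub_apply, LinearMap.comp_apply, LinearMap.id_apply, Algebra.linearMap_apply]
    abel

theorem traceInv_tr (b : S) : (traceInv hinj S hS).tr b = trS hinj S hS b := rfl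

theorem traceInv_inv_val (b : S) :
    (((traceInv hinj S hS).inv b : S) : Matrix (Fin 2) (Fin 2) T') =
      Matrix.adjugate (b : Matrix (Fin 2) (Fin 2) T') := invS_val hinj S hS b

end Sub

/-! ### The residual map -/

section Pi

variable {T : Type*} [CommRing T] [IsLocalRing T] {T' : Type*} [CommRing T'] [Algebra T T']
  (S : Subalgebra T (Matrix (Fin 2) (Fin 2) T'))
  {k₁ : Type*} [Field k₁] (j : IsLocalRing.ResidueField T →+* k₁) (q₁ : T' →+* k₁)
  (hq₁ : ∀ t : T, q₁ (algebraMap T T' t) = j (IsLocalRing.residue T t))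
  (hSk : ∀ b ∈ S, ∃ m : Matrix (Fin 2) (Fin 2) (IsLocalRing.ResidueField T),
    m.map j = b.map q₁)

theorem map_injective_of_field :
    Function.Injective (fun m : Matrix (Fin 2) (Fin 2) (IsLocalRing.ResidueField T) => m.map j) :=
  Matrix.map_injective j.injective

/-- the residual map `S → M₂(k)` -/
def piS : S →+* Matrix (Fin 2) (Fin 2) (IsLocalRing.ResidueField T) where
  toFun b := Classical.choose (hSk b b.2)
  map_one' := by
    apply map_injective_of_field j
    have h1 := Classical.choose_spec (hSk (1 : S) (1 : S).2)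
    show (Classical.choose (hSk (1 : S) (1 : S).2)).map j = (1 : Matrix _ _ _).map j
    rw [h1, Matrix.map_one _ (map_zero _) (map_one _)]
    exact Matrix.map_one _ (map_zero _) (map_one _)
  map_mul' b c := by
    apply map_injective_of_field j
    have hb := Classical.choose_spec (hSk b b.2)
    have hc := Classical.choose_spec (hSk c c.2)
    have hbc := Classical.choose_spec (hSk (b * c) (b * c).2)
    show (Classical.choose (hSk (b * c) (b * c).2)).map j =
      (Classical.choose (hSk b b.2) * Classical.choose (hSk c c.2)).map j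
    rw [hbc, Matrix.map_mul, Matrix.map_mul, hb, hc]
  map_zero' := by
    apply map_injective_of_field j
    have h0 := Classical.choose_spec (hSk (0 : S) (0 : S).2)
    show (Classical.choose (hSk (0 : S) (0 : S).2)).map j = (0 : Matrix _ _ _).map j
    rw [h0, Matrix.map_zero _ (map_zero _)]
    exact Matrix.map_zero _ (map_zero _)
  map_add' b c := by
    apply map_injective_of_field j
    have hb := Classical.choose_spec (hSk b b.2)
    have hc := Classical.choose_spec (hSk c c.2)
    have hbc := Classical.choose_spec (hSk (b + c) (b + c).2)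
    show (Classical.choose (hSk (b + c) (b + c).2)).map j =
      (Classical.choose (hSk b b.2) + Classical.choose (hSk c c.2)).map j
    rw [hbc, Matrix.map_add _ (map_add _), Matrix.map_add _ (map_add _), hb, hc]

theorem piS_map (b : S) :
    (piS S j q₁ hSk b).map j = (b : Matrix (Fin 2) (Fin 2) T').map q₁ :=
  Classical.choose_spec (hSk b b.2)

include hq₁ in
theorem piS_algebraMap (t : T) :
    piS S j q₁ hSk (algebraMap T S t) =
      algebraMap (IsLocalRing.ResidueField T) (Matrix (Fin 2) (Fin 2) (IsLocalRing.ResidueField T))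
        (IsLocalRing.residue T t) := by
  apply map_injective_of_field j
  show (piS S j q₁ hSk (algebraMap T S t)).map j =
    (algebraMap (IsLocalRing.ResidueField T) (Matrix (Fin 2) (Fin 2) (IsLocalRing.ResidueField T))
        (IsLocalRing.residue T t)).map j
  rw [piS_map]
  show (algebraMap T (Matrix (Fin 2) (Fin 2) T') t).map q₁ = _
  ext i i'
  simp only [Matrix.map_apply, Matrix.algebraMap_matrix_apply]
  split_ifs
  · exact hq₁ t
  · rw [map_zero, map_zero]

theorem piS_surjective
    (hsurj : ∀ m : Matrix (Fin 2) (Fin 2) (IsLocalRing.ResidueField T),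
      ∃ b ∈ S, b.map q₁ = m.map j) :
    Function.Surjective (piS S j q₁ hSk) := by
  intro m
  obtain ⟨b, hb, hbm⟩ := hsurj m
  refine ⟨⟨b, hb⟩, ?_⟩
  apply map_injective_of_field j
  show (piS S j q₁ hSk ⟨b, hb⟩).map j = m.map j
  rw [piS_map]
  exact hbm

end Pi

/-! ### Descent, subalgebra form -/

section Descent

variable {T : Type*} [CommRing T] [IsLocalRing T]
  [HenselianRing T (IsLocalRing.maximalIdeal T)]
  {T' : Type*} [CommRing T'] [Algebra T T']

/-- **Carayol descent, subalgebra form.** -/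
theorem exists_algEquiv_subalgebra (h2 : IsUnit (2 : T))
    (hinj : Function.Injective (algebraMap T T'))
    (S : Subalgebra T (Matrix (Fin 2) (Fin 2) T'))
    (hS : ∀ b ∈ S, ∃ t : T, algebraMap T T' t = Matrix.trace b)
    {k₁ : Type*} [Field k₁] (j : IsLocalRing.ResidueField T →+* k₁) (q₁ : T' →+* k₁)
    (hq₁ : ∀ t : T, q₁ (algebraMap T T' t) = j (IsLocalRing.residue T t))
    (hSk : ∀ b ∈ S, ∃ m : Matrix (Fin 2) (Fin 2) (IsLocalRing.ResidueField T),
      m.map j = b.map q₁)
    (hsurj : ∀ m : Matrix (Fin 2) (Fin 2) (IsLocalRing.ResidueField T),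
      ∃ b ∈ S, b.map q₁ = m.map j) :
    ∃ Φ : Matrix (Fin 2) (Fin 2) T ≃ₐ[T] S,
      (∀ M, Matrix.trace ((Φ M : S) : Matrix (Fin 2) (Fin 2) T') =
        algebraMap T T' (Matrix.trace M)) ∧
      (∀ M, Matrix.adjugate ((Φ M : S) : Matrix (Fin 2) (Fin 2) T') =
        ((Φ (Matrix.adjugate M) : S) : Matrix (Fin 2) (Fin 2) T')) ∧
      (∀ M, ((Φ M : S) : Matrix (Fin 2) (Fin 2) T').map q₁ =
        (M.map (IsLocalRing.residue T)).map j) := by
  obtain ⟨Φ, h1, h3, h4⟩ := GmaHensel.exists_algEquiv_trace (traceInv hinj S hS) h2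
    (algebraMap_sub_injective hinj S) (piS S j q₁ hSk) (piS_surjective S j q₁ hSk hsurj)
    (piS_algebraMap S j q₁ hq₁ hSk)
  refine ⟨Φ, fun M => ?_, fun M => ?_, fun M => ?_⟩
  · rw [← h1 M, traceInv_tr, algebraMap_trS]
  · rw [← traceInv_inv_val hinj S hS, h3]
  · rw [← piS_map S j q₁ hSk, h4]

end Descent

/-! ### Descent, group form -/

section Group

variable {T : Type*} [CommRing T] [IsLocalRing T]
  [HenselianRing T (IsLocalRing.maximalIdeal T)]
  {T' : Type*} [CommRing T'] [Algebra T T'] {G : Type*} [Monoid G]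

omit [IsLocalRing T] [HenselianRing T (IsLocalRing.maximalIdeal T)] in
theorem mem_adjoin_range_iff (r' : G →* Matrix (Fin 2) (Fin 2) T')
    (b : Matrix (Fin 2) (Fin 2) T') :
    b ∈ Algebra.adjoin T (Set.range r') ↔ b ∈ Submodule.span T (Set.range r') := by
  have h1 : Submonoid.closure (Set.range r') = MonoidHom.mrange r' := by
    rw [← MonoidHom.coe_mrange, Submonoid.closure_eq]
  rw [← Subalgebra.mem_toSubmodule, Algebra.adjoin_eq_span, h1, MonoidHom.coe_mrange]

omit [HenselianRing T (IsLocalRing.maximalIdeal T)] in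
theorem map_smul_of_residue {k₁ : Type*} [Field k₁] (j : IsLocalRing.ResidueField T →+* k₁)
    (q₁ : T' →+* k₁) (hq₁ : ∀ t : T, q₁ (algebraMap T T' t) = j (IsLocalRing.residue T t))
    (c : T) (x : Matrix (Fin 2) (Fin 2) T') :
    (c • x).map q₁ = j (IsLocalRing.residue T c) • x.map q₁ := by
  ext i i'
  rw [Matrix.map_apply, Matrix.smul_apply, Matrix.smul_apply, Matrix.map_apply, Algebra.smul_def,
    map_mul, hq₁, smul_eq_mul]

/-- **Carayol descent, group form.**  `T` local, henselian at its maximal ideal, `2 ∈ Tˣ`,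
`T ⊆ T'` commutative; `r' : G →* M₂(T')` with all traces in `T`; ONE residue map `q₁ : T' → k₁`
over `j : k → k₁` with `q₁ ∘ r' = j ∘ ρ̄`, where the image of `ρ̄ : G →* M₂(k)` spans `M₂(k)`
(Burnside form of absolute irreducibility).  THEN `r'` descends to `T`: there are
`r : G →* M₂(T)` and an injective `T`-algebra hom `Φ : M₂(T) → M₂(T')`, with image the
`T`-algebra generated by `r'(G)`, such that `Φ (r g) = r' g`; `Φ` is compatible with traces,
adjugates and reduction, and `r g mod 𝔪 = ρ̄ g` exactly. -/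
theorem exists_descent (h2 : IsUnit (2 : T)) (hinj : Function.Injective (algebraMap T T'))
    (r' : G →* Matrix (Fin 2) (Fin 2) T')
    (htr : ∀ g, ∃ t : T, algebraMap T T' t = Matrix.trace (r' g))
    {k₁ : Type*} [Field k₁] (j : IsLocalRing.ResidueField T →+* k₁) (q₁ : T' →+* k₁)
    (hq₁ : ∀ t : T, q₁ (algebraMap T T' t) = j (IsLocalRing.residue T t))
    (ρbar : G →* Matrix (Fin 2) (Fin 2) (IsLocalRing.ResidueField T))
    (hρbar : ∀ g, (r' g).map q₁ = (ρbar g).map j)
    (hspan : Submodule.span (IsLocalRing.ResidueField T) (Set.range ρbar) = ⊤) :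
    ∃ (r : G →* Matrix (Fin 2) (Fin 2) T)
      (Φ : Matrix (Fin 2) (Fin 2) T →ₐ[T] Matrix (Fin 2) (Fin 2) T'),
      Function.Injective Φ ∧ (∀ g, Φ (r g) = r' g) ∧
      (∀ M, Matrix.trace (Φ M) = algebraMap T T' (Matrix.trace M)) ∧
      (∀ M, Matrix.adjugate (Φ M) = Φ (Matrix.adjugate M)) ∧
      (∀ M, (Φ M).map q₁ = (M.map (IsLocalRing.residue T)).map j) ∧
      (∀ g, (r g).map (IsLocalRing.residue T) = ρbar g) ∧
      (∀ b, b ∈ Algebra.adjoin T (Set.range r') ↔ ∃ M, Φ M = b) := by
  classical
  set S : Subalgebra T (Matrix (Fin 2) (Fin 2) T') := Algebra.adjoin T (Set.range r') with hSdef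
  -- traces in `T`
  have hS : ∀ b ∈ S, ∃ t : T, algebraMap T T' t = Matrix.trace b := by
    intro b hb
    rw [hSdef, mem_adjoin_range_iff] at hb
    induction hb using Submodule.span_induction with
    | mem x hx =>
      obtain ⟨g, rfl⟩ := hx
      exact htr g
    | zero => exact ⟨0, by rw [map_zero, Matrix.trace_zero]⟩
    | add x y _ _ hx hy =>
      obtain ⟨t, ht⟩ := hx
      obtain ⟨u, hu⟩ := hy
      exact ⟨t + u, by rw [map_add, ht, hu, Matrix.trace_add]⟩
    | smul c x _ hx =>
      obtain ⟨t, ht⟩ := hx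
      exact ⟨c * t, by rw [map_mul, ht, Matrix.trace_smul, Algebra.smul_def]⟩
  -- reduction lands in `M₂(k)`
  have hSk : ∀ b ∈ S, ∃ m : Matrix (Fin 2) (Fin 2) (IsLocalRing.ResidueField T),
      m.map j = b.map q₁ := by
    intro b hb
    rw [hSdef, mem_adjoin_range_iff] at hb
    induction hb using Submodule.span_induction with
    | mem x hx =>
      obtain ⟨g, rfl⟩ := hx
      exact ⟨ρbar g, (hρbar g).symm⟩
    | zero => exact ⟨0, by rw [Matrix.map_zero _ (map_zero _), Matrix.map_zero _ (map_zero _)]⟩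
    | add x y _ _ hx hy =>
      obtain ⟨m, hm⟩ := hx
      obtain ⟨n, hn⟩ := hy
      exact ⟨m + n, by rw [Matrix.map_add _ (map_add _), hm, hn, Matrix.map_add _ (map_add _)]⟩
    | smul c x _ hx =>
      obtain ⟨m, hm⟩ := hx
      refine ⟨IsLocalRing.residue T c • m, ?_⟩
      rw [Matrix.map_smul' _ _ _ (map_mul j), hm, map_smul_of_residue j q₁ hq₁]
  -- reduction is onto
  have hsurj : ∀ m : Matrix (Fin 2) (Fin 2) (IsLocalRing.ResidueField T),
      ∃ b ∈ S, b.map q₁ = m.map j := by
    intro m
    have hm : m ∈ Submodule.span (IsLocalRing.ResidueField T) (Set.range ρbar) := by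
      rw [hspan]; exact Submodule.mem_top
    induction hm using Submodule.span_induction with
    | mem x hx =>
      obtain ⟨g, rfl⟩ := hx
      exact ⟨r' g, Algebra.subset_adjoin ⟨g, rfl⟩, hρbar g⟩
    | zero =>
      exact ⟨0, S.zero_mem, by rw [Matrix.map_zero _ (map_zero _), Matrix.map_zero _ (map_zero _)]⟩
    | add x y _ _ hx hy =>
      obtain ⟨b, hb, hbx⟩ := hx
      obtain ⟨c, hc, hcy⟩ := hy
      exact ⟨b + c, S.add_mem hb hc, by
        rw [Matrix.map_add _ (map_add _), hbx, hcy, Matrix.map_add _ (map_add _)]⟩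
    | smul c x _ hx =>
      obtain ⟨b, hb, hbx⟩ := hx
      obtain ⟨t, rfl⟩ := IsLocalRing.residue_surjective c
      refine ⟨t • b, S.smul_mem hb t, ?_⟩
      rw [Matrix.map_smul' _ _ _ (map_mul j), ← hbx, map_smul_of_residue j q₁ hq₁]
  obtain ⟨Φ₀, h1, h3, h4⟩ := exists_algEquiv_subalgebra h2 hinj S hS j q₁ hq₁ hSk hsurj
  have hmem : ∀ g, r' g ∈ S := fun g => Algebra.subset_adjoin ⟨g, rfl⟩
  refine ⟨{ toFun := fun g => Φ₀.symm ⟨r' g, hmem g⟩
            map_one' := ?_
            map_mul' := ?_ }, S.val.comp Φ₀.toAlgHom, ?_, ?_, ?_, ?_, ?_, ?_, ?_⟩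
  · have : (⟨r' 1, hmem 1⟩ : S) = 1 := Subtype.ext (map_one r')
    rw [this, map_one]
  · intro g g'
    have : (⟨r' (g * g'), hmem (g * g')⟩ : S) = ⟨r' g, hmem g⟩ * ⟨r' g', hmem g'⟩ :=
      Subtype.ext (map_mul r' g g')
    rw [this, map_mul]
  · exact Subtype.val_injective.comp Φ₀.injective
  · intro g
    show ((Φ₀ (Φ₀.symm ⟨r' g, hmem g⟩) : S) : Matrix (Fin 2) (Fin 2) T') = r' g
    rw [AlgEquiv.apply_symm_apply]
  · intro M
    exact h1 M
  · intro M
    exact h3 M
  · intro M
    exact h4 M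
  · intro g
    apply map_injective_of_field j
    show ((Φ₀.symm ⟨r' g, hmem g⟩).map (IsLocalRing.residue T)).map j = (ρbar g).map j
    rw [← h4, AlgEquiv.apply_symm_apply, ← hρbar]
  · intro b
    constructor
    · intro hb
      exact ⟨Φ₀.symm ⟨b, hb⟩, by
        show ((Φ₀ (Φ₀.symm ⟨b, hb⟩) : S) : Matrix (Fin 2) (Fin 2) T') = b
        rw [AlgEquiv.apply_symm_apply]⟩
    · rintro ⟨M, rfl⟩
      exact (Φ₀ M).2

end Group

end Fermat.Agent.GB.Glue.SubAlg
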